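import Mathlib
import Fermat.Agent.S24.DegreeAlg
import Fermat.Agent.S24.DegreeRel
import Fermat.Agent.S24.DegreeLowerFormal
import Fermat.Agent.S24.QRep
import Fermat.Agent.S24.RepAll
import Fermat.Agent.S24.LmapJ

/-!
# PROJECT J (S30): `repField N` is the Laurent model `F_ℂ` of the function field of `X₀(N)` (helper29)

`S24.RepHom.repField N ⊆ ℂ((q))` is the field of `q`-expansions of quotients of modular forms of
equal weight for `Γ₀(N)`; `laurentBaseChange ℂ (modularFunctionFieldFull N) = ℂ(j(q^d) : d ∣ N)` is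
the Prelude's Laurent model over `ℂ`.  They coincide.
-/

set_option autoImplicit false
set_option linter.unusedSectionVars false
noncomputable section
namespace Fermat.Agent.S30.Analytic.RepFieldEq

open Polynomial IntermediateField Fermat.Agent.S24.DegreeAlg

section Alg

variable {K F : Type*} [Field K] [Field F] [Algebra K F]

open scoped IntermediateField.algebraAdjoinAdjoin in
/-- lower bound for the degree of the minimal polynomial over `K⟮x⟯` from two-variable relations
(the denominator clearing of `S24.DegreeAlg.le_finrank_of_relations`, without finiteness of `F`) -/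
theorem le_natDegree_minpoly_of_relations (x g : F) (hxt : Transcendental K x)
    (hint : IsIntegral K⟮x⟯ g) (μ : ℕ)
    (h : ∀ P : Polynomial (Polynomial K), P ≠ 0 →
        Polynomial.eval₂ (Polynomial.aeval x : Polynomial K →ₐ[K] F).toRingHom g P = 0 →
        μ ≤ P.natDegree) :
    μ ≤ (minpoly K⟮x⟯ g).natDegree := by
  classical
  set p := minpoly K⟮x⟯ g with hp
  have hp0 : p ≠ 0 := minpoly.ne_zero hint
  have hpa : Polynomial.aeval g p = 0 := minpoly.aeval K⟮x⟯ g
  set A := Algebra.adjoin K ({x} : Set F) with hA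
  set P' : Polynomial A := IsLocalization.integerNormalization (nonZeroDivisors A) p with hP'
  have hP'0 : P' ≠ 0 := by
    rw [hP', Ne, IsFractionRing.integerNormalization_eq_zero_iff]; exact hp0
  have hP'd : P'.natDegree ≤ p.natDegree := by
    rw [Polynomial.natDegree_le_iff_coeff_eq_zero]
    intro n hn
    have h1 : n ∉ p.support := by
      rw [Polynomial.notMem_support_iff]; exact Polynomial.coeff_eq_zero_of_natDegree_lt hn
    have h2 : n ∉ P'.support := fun h3 =>
      h1 (IsLocalization.integerNormalization_support (nonZeroDivisors A) p h3)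
    exact Polynomial.notMem_support_iff.mp h2
  have hP'a : Polynomial.aeval g P' = 0 :=
    IsLocalization.integerNormalization_aeval_eq_zero (nonZeroDivisors A) p hpa
  let ψ : Polynomial K →+* A :=
    (Polynomial.aeval (⟨x, Algebra.self_mem_adjoin_singleton K x⟩ : A) :
      Polynomial K →ₐ[K] A).toRingHom
  have hψ : ∀ s, ((ψ s : A) : F) = Polynomial.aeval x s := fun s =>
    Polynomial.aeval_subalgebra_coe s A ⟨x, Algebra.self_mem_adjoin_singleton K x⟩
  have hψsurj : Function.Surjective ψ := by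
    intro a
    have ha : (a : F) ∈ (Polynomial.aeval x : Polynomial K →ₐ[K] F).range := by
      rw [← Algebra.adjoin_singleton_eq_range_aeval]; exact a.2
    obtain ⟨s, hs⟩ := ha
    exact ⟨s, Subtype.ext ((hψ s).trans hs)⟩
  have hψinj : Function.Injective ψ := by
    rw [injective_iff_map_eq_zero]
    intro s hs
    have : Polynomial.aeval x s = 0 := by rw [← hψ s, hs]; rfl
    exact (transcendental_iff.mp hxt) s this
  obtain ⟨P, hP⟩ := Polynomial.map_surjective ψ hψsurj P'
  have hP0 : P ≠ 0 := by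
    rintro rfl; apply hP'0; rw [← hP, Polynomial.map_zero]
  have hPd : P.natDegree = P'.natDegree := by
    rw [← hP, Polynomial.natDegree_map_eq_of_injective hψinj]
  have hcomp : (Polynomial.aeval x : Polynomial K →ₐ[K] F).toRingHom
      = (algebraMap A F).comp ψ := by
    refine RingHom.ext fun s => ?_
    exact (hψ s).symm
  have hPa : Polynomial.eval₂ (Polynomial.aeval x : Polynomial K →ₐ[K] F).toRingHom g P = 0 := by
    rw [hcomp, ← Polynomial.eval₂_map, hP, ← Polynomial.aeval_def, hP'a]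
  calc μ ≤ P.natDegree := h P hP0 hPa
    _ = P'.natDegree := hPd
    _ ≤ p.natDegree := hP'd

variable [CharZero K]

/-- **The algebraic core.** `x` transcendental over `K`; `S` a subfield of `F` containing `K`, `x`
and `g`, all of whose elements satisfy a nonzero two-variable relation `P(x, r) = 0` of `r`-degree
`≤ μ`, while every nonzero relation `P(x, g) = 0` has `g`-degree `≥ μ`.  Then `S ≤ K(x, g)`. -/
theorem mem_adjoin_pair_of_relations (S : IntermediateField K F) (x g : F) (hxS : x ∈ S)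
    (hgS : g ∈ S) (hxt : Transcendental K x) (μ : ℕ)
    (hub : ∀ r ∈ S, ∃ P : Polynomial (Polynomial K), P ≠ 0 ∧ P.natDegree ≤ μ ∧
        Polynomial.eval₂ (Polynomial.aeval x : Polynomial K →ₐ[K] F).toRingHom r P = 0)
    (hlb : ∀ P : Polynomial (Polynomial K), P ≠ 0 →
        Polynomial.eval₂ (Polynomial.aeval x : Polynomial K →ₐ[K] F).toRingHom g P = 0 →
        μ ≤ P.natDegree)
    {r : F} (hr : r ∈ S) : r ∈ IntermediateField.adjoin K ({x, g} : Set F) := by
  classical
  have hinj := toSimple_injective hxt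
  -- one-variable relations over `K⟮x⟯`
  have h1 : ∀ r ∈ S, ∃ p : Polynomial K⟮x⟯,
      p ≠ 0 ∧ p.natDegree ≤ μ ∧ Polynomial.aeval r p = 0 := by
    intro r hr
    obtain ⟨P, hP0, hPd, hPr⟩ := hub r hr
    refine ⟨P.map (toSimple x), ?_, ?_, ?_⟩
    · rwa [Ne, Polynomial.map_eq_zero_iff hinj]
    · exact (Polynomial.natDegree_map_le).trans hPd
    · rw [aeval_map_toSimple, hPr]
  have hint : ∀ r ∈ S, IsIntegral K⟮x⟯ r := by
    intro r hr
    obtain ⟨p, hp0, -, hpa⟩ := h1 r hr
    exact IsAlgebraic.isIntegral ⟨p, hp0, hpa⟩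
  -- `K⟮x⟯ ≤ S`
  have hKS : K⟮x⟯ ≤ S := by
    rw [IntermediateField.adjoin_le_iff]
    rintro _ rfl
    exact hxS
  -- the field `E = K⟮x⟯(g, r)`
  set E : IntermediateField K⟮x⟯ F := IntermediateField.adjoin K⟮x⟯ ({g, r} : Set F) with hE
  have hES : ∀ a ∈ E, a ∈ S := by
    intro a ha
    have h2 : E.restrictScalars K ≤ S := by
      rw [hE, IntermediateField.adjoin_adjoin_left, IntermediateField.adjoin_le_iff]
      rintro y (rfl | rfl | rfl)
      · exact hxS
      · exact hgS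
      · exact hr
    exact h2 ha
  have hfd : FiniteDimensional K⟮x⟯ E := by
    apply IntermediateField.finiteDimensional_adjoin
    rintro y (rfl | rfl)
    · exact hint _ hgS
    · exact hint _ hr
  have hle : Module.finrank K⟮x⟯ E ≤ μ := by
    refine finrank_le_of_bounded_degree μ fun a => ?_
    obtain ⟨p, hp0, hpd, hpa⟩ := h1 (a : F) (hES a a.2)
    refine ⟨p, hp0, hpd, ?_⟩
    apply Subtype.ext
    rw [ZeroMemClass.coe_zero, ← hpa]
    exact (Polynomial.aeval_algebraMap_apply F a p).symm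
  -- `K⟮x⟯(g) ≤ E` has degree `≥ μ`
  set E₀ : IntermediateField K⟮x⟯ F := IntermediateField.adjoin K⟮x⟯ ({g} : Set F) with hE₀
  have hE₀E : E₀ ≤ E := IntermediateField.adjoin.mono _ _ _ (by
    intro y hy
    rw [Set.mem_singleton_iff] at hy
    rw [hy]
    exact Set.mem_insert _ _)
  have hge : μ ≤ Module.finrank K⟮x⟯ E₀ := by
    rw [hE₀, IntermediateField.adjoin.finrank (hint _ hgS)]
    exact le_natDegree_minpoly_of_relations x g hxt (hint _ hgS) μ hlb
  have heq : E₀ = E := IntermediateField.eq_of_le_of_finrank_le hE₀E (hle.trans hge)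
  have hrE : r ∈ E₀ := by
    rw [heq]
    exact IntermediateField.subset_adjoin _ _ (Set.mem_insert_of_mem _ rfl)
  have h3 : E₀.restrictScalars K = IntermediateField.adjoin K ({x, g} : Set F) := by
    rw [hE₀, IntermediateField.adjoin_adjoin_left]
    rfl
  rw [← h3]
  exact hrE

end Alg



/-! ### the algebra of `q`-expansions of holomorphic invariant functions `a / Δ ^ m` -/

section Hol

open UpperHalfPlane CongruenceSubgroup ModularForm Filter
open Fermat.Agent.S20 Fermat.Agent.S23.QRing Fermat.Agent.S24.RepHom Fermat.Agent.S24.RepAll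
  Fermat.Agent.S24.LmapJ Fermat.Agent.LevelOne.JBasic Fermat.Agent.S24.LevelRaise

open scoped MatrixGroups ModularForm Manifold

local notation "Δ" => ModularForm.discriminant

/-- the `q`-expansion of `Δ` as a Laurent series -/
def dser : LaurentSeries ℂ := ofPS (qx (Δ : ℍ → ℂ))

theorem isQ_discriminant' : IsQ (Δ : ℍ → ℂ) := isQ_of_levelOne DeltaMF

theorem dser_ne_zero : dser ≠ 0 := by
  intro h0
  have h1 : qx (Δ : ℍ → ℂ) = 0 := ofPS_injective (by rw [← dser, h0, map_zero])
  have h2 := (qx_eq_zero_iff isQ_discriminant').mp h1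
  exact ModularForm.discriminant_ne_zero UpperHalfPlane.I (congrFun h2 _)

variable (N : ℕ) [NeZero N]

theorem isMF_disc : IsMF (G0 N) 12 (Δ : ℍ → ℂ) := isMF_discriminant.ofLevelOne

theorem isMF_disc_pow (m : ℕ) : IsMF (G0 N) (12 * m) ((Δ : ℍ → ℂ) ^ m) :=
  ((isMF_disc N).pow m).cast (mul_comm _ _)

theorem ofPS_qx_disc_pow (m : ℕ) : ofPS (qx ((Δ : ℍ → ℂ) ^ m)) = dser ^ m := by
  rw [qx_pow isQ_discriminant', map_pow, dser]

/-- `q`-expansions of the functions `a / Δ ^ m`, `a` a form of weight `12 m` for `Γ₀(N)` -/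
def holAlg : Subalgebra ℂ (LaurentSeries ℂ) where
  carrier := {z | ∃ (m : ℕ) (a : ℍ → ℂ), IsMF (G0 N) (12 * m) a ∧ z * dser ^ m = ofPS (qx a)}
  mul_mem' := by
    rintro z z' ⟨m, a, ha, hz⟩ ⟨m', a', ha', hz'⟩
    refine ⟨m + m', a * a', (ha.mul ha').cast (by push_cast; ring), ?_⟩
    rw [qx_mul (isQ_of_isMF ha) (isQ_of_isMF ha'), map_mul, ← hz, ← hz', pow_add]
    ring
  add_mem' := by
    rintro z z' ⟨m, a, ha, hz⟩ ⟨m', a', ha', hz'⟩
    have h1 : IsMF (G0 N) (12 * (m + m' : ℕ)) (a * (Δ : ℍ → ℂ) ^ m') :=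
      (ha.mul (isMF_disc_pow N m')).cast (by push_cast; ring)
    have h2 : IsMF (G0 N) (12 * (m + m' : ℕ)) (a' * (Δ : ℍ → ℂ) ^ m) :=
      (ha'.mul (isMF_disc_pow N m)).cast (by push_cast; ring)
    refine ⟨m + m', a * (Δ : ℍ → ℂ) ^ m' + a' * (Δ : ℍ → ℂ) ^ m, h1.add h2, ?_⟩
    rw [qx_add (isQ_of_isMF h1) (isQ_of_isMF h2),
      qx_mul (isQ_of_isMF ha) (isQ_of_isMF (isMF_disc_pow N m')),
      qx_mul (isQ_of_isMF ha') (isQ_of_isMF (isMF_disc_pow N m)), map_add, map_mul, map_mul,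
      ofPS_qx_disc_pow, ofPS_qx_disc_pow, ← hz, ← hz', pow_add]
    ring
  algebraMap_mem' := by
    intro c
    refine ⟨0, fun _ => c, (IsMF.const c).cast (by simp), ?_⟩
    rw [pow_zero, mul_one, qx_const, HahnSeries.ofPowerSeries_C, LaurentSeries.algebraMap_apply]

theorem mem_holAlg {z : LaurentSeries ℂ} : z ∈ holAlg N ↔
    ∃ (m : ℕ) (a : ℍ → ℂ), IsMF (G0 N) (12 * m) a ∧ z * dser ^ m = ofPS (qx a) := Iff.rfl

theorem jC_mem_holAlg : jC ∈ holAlg N := by
  refine ⟨1, ⇑E4cube, (isRepOf_jC N).ha.cast (by norm_num), ?_⟩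
  have := (isRepOf_jC N).eq
  rw [pow_one, dser]
  exact this.symm

end Hol


/-! ### the monic relation of degree `μ` for the elements of `holAlg N` -/

section Relation

open UpperHalfPlane CongruenceSubgroup ModularForm Filter
open Fermat.Agent.S20 Fermat.Agent.S23.QRing Fermat.Agent.S24.RepHom Fermat.Agent.S24.RepAll
  Fermat.Agent.S24.LmapJ Fermat.Agent.LevelOne.JBasic Fermat.Agent.S24.LevelRaise
  Fermat.Agent.S24.DegreeRel Fermat.Agent.S24.LevelOnePoly

open scoped MatrixGroups ModularForm Manifold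

local notation "Δ" => ModularForm.discriminant
local notation "𝕢" => Function.Periodic.qParam

variable {N : ℕ} [NeZero N]

/-- the holomorphic `Γ₀(N)`-invariant function `a / Δ ^ m` -/
def rfun (m : ℕ) (a : ℍ → ℂ) : ℍ → ℂ := fun τ => a τ / Δ τ ^ m

theorem smul_eq_of_isMF {k : ℤ} {a : ℍ → ℂ} (ha : IsMF (G0 N) k a) {γ : SL(2, ℤ)}
    (hγ : γ ∈ Gamma0 N) (τ : ℍ) : a (γ • τ) = denom γ τ ^ k * a τ := by
  obtain ⟨A, rfl⟩ := ha
  have hγ' : (γ : GL (Fin 2) ℝ) ∈ G0 N := ⟨γ, hγ, rfl⟩
  exact SlashInvariantForm.slash_action_eqn'' A hγ' τ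

theorem rfun_smul_of_mem {m : ℕ} {a : ℍ → ℂ} (ha : IsMF (G0 N) (12 * m) a) {γ : SL(2, ℤ)}
    (hγ : γ ∈ Gamma0 N) (τ : ℍ) : rfun m a (γ • τ) = rfun m a τ := by
  have hd : denom γ τ ≠ 0 := denom_ne_zero γ τ
  have hΔ : Δ τ ≠ 0 := discriminant_ne_zero τ
  rw [rfun, rfun, smul_eq_of_isMF ha hγ, Fermat.Agent.S24.LevelOnePoly.discriminant_smul, mul_pow,
    ← zpow_natCast (denom γ τ ^ (12 : ℤ)) m, ← zpow_mul]
  field_simp

theorem rfun_smul {m : ℕ} {a : ℍ → ℂ} (g : SL(2, ℤ)) (τ : ℍ) :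
    rfun m a (g • τ) = (a ∣[(12 * m : ℤ)] g) τ / Δ τ ^ m := by
  have hd : denom g τ ≠ 0 := denom_ne_zero g τ
  have hΔ : Δ τ ≠ 0 := discriminant_ne_zero τ
  rw [rfun, ModularForm.SL_slash_apply, Fermat.Agent.S24.LevelOnePoly.discriminant_smul, mul_pow,
    ← zpow_natCast (denom g τ ^ (12 : ℤ)) m, ← zpow_mul, zpow_neg]
  field_simp

theorem rfun_comp_mem_modAlg {m : ℕ} {a : ℍ → ℂ} (ha : IsMF (G0 N) (12 * m) a) (g : SL(2, ℤ)) :
    (fun τ => rfun m a (g • τ)) ∈ modAlg := by
  obtain ⟨A, rfl⟩ := ha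
  have hfun : (fun τ => rfun m (⇑A) (g • τ)) = (⇑A ∣[(12 * m : ℤ)] g) / (Δ : ℍ → ℂ) ^ m := by
    funext τ
    rw [rfun_smul]
    rfl
  rw [hfun]
  refine ⟨(mdiff_slash g A.holo').div (Fermat.Agent.S24.LevelOnePoly.mdiff_discriminant.pow m)
    (fun τ => pow_ne_zero m (discriminant_ne_zero τ)), m, ?_⟩
  have h2 : (fun τ => ((⇑A ∣[(12 * m : ℤ)] g) / (Δ : ℍ → ℂ) ^ m) τ * Δ τ ^ m) =
      ⇑A ∣[(12 * m : ℤ)] g := by
    funext τ
    simp only [Pi.div_apply, Pi.pow_apply]
    exact div_mul_cancel₀ _ (pow_ne_zero m (discriminant_ne_zero τ))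
  rw [h2]
  exact ModularFormClass.bdd_at_infty_slash A g

/-- the monic relation of degree `μ` over `ℂ[j]`, function level -/
theorem exists_monic_relation_rfun {m : ℕ} {a : ℍ → ℂ} (ha : IsMF (G0 N) (12 * m) a) :
    ∃ Φ : Polynomial (Polynomial ℂ), Φ.Monic ∧
      Φ.natDegree = Nat.card (SL(2, ℤ) ⧸ Gamma0 N) ∧
      ∀ τ : ℍ, Polynomial.eval (rfun m a τ) (Φ.map (Polynomial.evalRingHom (jFun τ))) = 0 :=
  exists_monic_relation_of (rfun m a) (fun _ hγ τ => rfun_smul_of_mem ha hγ τ)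
    (fun g => rfun_comp_mem_modAlg ha g)

end Relation

/-! ### transfer of relations from functions to Laurent series -/

section Transfer

open UpperHalfPlane CongruenceSubgroup ModularForm Filter
open Fermat.Agent.S20 Fermat.Agent.S24.RepHom Fermat.Agent.S24.RepAll
  Fermat.Agent.S24.LmapJ Fermat.Agent.LevelOne.JBasic Fermat.Agent.S24.LevelRaise
  Fermat.Agent.S24.QRep

open scoped MatrixGroups ModularForm Manifold

local notation "Δ" => ModularForm.discriminant
local notation "𝕢" => Function.Periodic.qParam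

variable {N : ℕ} [NeZero N]

/-- bridge between the two structures `IsQ` (S23 and S24) -/
theorem isQ_bridge {F : ℍ → ℂ} (h : Fermat.Agent.S23.QRing.IsQ F) : IsQ F :=
  ⟨h.periodic, h.holo, h.bdd⟩

theorem ofPS_qExpansion_Ufun_mul_dser :
    ofPS (qExpansion 1 Ufun) * dser = HahnSeries.single (1 : ℤ) 1 := by
  have h1 := isQ_Ufun.qExpansion_mul isQ_discriminant
  rw [Ufun_mul_discriminant, qExpansion_qParam] at h1
  rw [dser, Fermat.Agent.S23.QRing.qx, ← map_mul, ← h1]
  exact HahnSeries.ofPowerSeries_X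

theorem rep_rfun {m : ℕ} {a : ℍ → ℂ} (ha : IsMF (G0 N) (12 * m) a) {z : LaurentSeries ℂ}
    (hz : z * dser ^ m = ofPS (Fermat.Agent.S23.QRing.qx a)) : Rep (rfun m a) z := by
  have hfun : (fun τ : ℍ => rfun m a τ * 𝕢 1 τ ^ m) = a * Ufun ^ m := by
    funext τ
    simp only [rfun, Pi.mul_apply, Pi.pow_apply, Ufun, div_pow]
    ring
  have haQ : IsQ a := isQ_bridge (isQ_of_isMF ha)
  refine ⟨m, ?_, ?_⟩
  · rw [hfun]
    exact haQ.mul (isQ_Ufun.pow m)
  · rw [hfun, haQ.qExpansion_mul (isQ_Ufun.pow m), isQ_Ufun.qExpansion_pow, map_mul, map_pow]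
    have h1 : ofPS (qExpansion 1 a) = z * dser ^ m := hz.symm
    rw [h1, mul_assoc, ← mul_pow, mul_comm dser, ofPS_qExpansion_Ufun_mul_dser,
      HahnSeries.single_pow, one_pow]
    simp

theorem rep_jFun : Rep jFun jC := by
  have h := rep_jFun_dil 1
  have h1 : dil 1 jFun = jFun := by
    funext τ
    rw [dil, Fermat.Agent.S24.DegreeLowerFormal.heckeDiagMatrix_one_smul]
  rw [h1, ModularCurve.qExpand_one_apply] at h
  exact h

theorem rep_poly (p : Polynomial ℂ) :
    Rep (fun τ => p.eval (jFun τ)) (Polynomial.aeval jC p) := by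
  induction p using Polynomial.induction_on with
  | C a =>
    simp only [Polynomial.eval_C, Polynomial.aeval_C]
    rw [LaurentSeries.algebraMap_apply]
    exact Rep.const a
  | add p q hp hq =>
    simp only [Polynomial.eval_add, map_add]
    exact hp.add hq
  | monomial n a h =>
    have e1 : (Polynomial.C a * Polynomial.X ^ (n + 1) : Polynomial ℂ) =
        (Polynomial.C a * Polynomial.X ^ n) * Polynomial.X := by
      rw [pow_succ, mul_assoc]
    rw [e1]
    simp only [Polynomial.eval_mul, Polynomial.eval_X, map_mul, Polynomial.aeval_X]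
      at h ⊢
    exact h.mul rep_jFun

theorem rep_poly₂ {r : ℍ → ℂ} {z : LaurentSeries ℂ} (h : Rep r z)
    (Φ : Polynomial (Polynomial ℂ)) :
    Rep (fun τ => Polynomial.eval (r τ) (Φ.map (Polynomial.evalRingHom (jFun τ))))
      (Polynomial.eval₂
        (Polynomial.aeval jC : Polynomial ℂ →ₐ[ℂ] LaurentSeries ℂ).toRingHom z Φ) := by
  induction Φ using Polynomial.induction_on with
  | C p =>
    simp only [Polynomial.map_C, Polynomial.eval_C, Polynomial.eval₂_C,
      Polynomial.coe_evalRingHom]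
    exact rep_poly p
  | add p q hp hq =>
    simp only [Polynomial.map_add, Polynomial.eval_add, Polynomial.eval₂_add]
    exact hp.add hq
  | monomial n a h' =>
    have e1 : (Polynomial.C a * Polynomial.X ^ (n + 1) : Polynomial (Polynomial ℂ)) =
        (Polynomial.C a * Polynomial.X ^ n) * Polynomial.X := by
      rw [pow_succ, mul_assoc]
    rw [e1]
    simp only [Polynomial.map_mul, Polynomial.map_X, Polynomial.eval_mul, Polynomial.eval_X,
      Polynomial.eval₂_mul, Polynomial.eval₂_X] at h' ⊢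
    exact h'.mul h

/-- **every element of `holAlg N` satisfies a monic relation of degree `μ` over `ℂ[j]`** -/
theorem exists_monic_relation_of_mem_holAlg {z : LaurentSeries ℂ} (hz : z ∈ holAlg N) :
    ∃ Φ : Polynomial (Polynomial ℂ), Φ.Monic ∧
      Φ.natDegree = Nat.card (SL(2, ℤ) ⧸ Gamma0 N) ∧
      Polynomial.eval₂
        (Polynomial.aeval jC : Polynomial ℂ →ₐ[ℂ] LaurentSeries ℂ).toRingHom z Φ = 0 := by
  obtain ⟨m, a, ha, hza⟩ := hz
  obtain ⟨Φ, hmon, hdeg, hrel⟩ := exists_monic_relation_rfun ha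
  refine ⟨Φ, hmon, hdeg, ?_⟩
  rw [(rep_poly₂ (rep_rfun ha hza) Φ).eq_zero_iff]
  exact funext hrel

end Transfer

/-! ### every element of `repField N` has degree `≤ μ` over `ℂ(j)` -/

section Upper

open UpperHalfPlane CongruenceSubgroup ModularForm Filter
open Fermat.Agent.S20 Fermat.Agent.S23.QRing Fermat.Agent.S24.RepHom Fermat.Agent.S24.RepAll
  Fermat.Agent.S24.LmapJ Fermat.Agent.LevelOne.JBasic Fermat.Agent.S24.LevelRaise

open scoped MatrixGroups ModularForm Manifold

local notation "Δ" => ModularForm.discriminant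

variable (N : ℕ) [NeZero N]

/-- the evaluation `ℂ[Y] → ℂ((q))`, `Y ↦ j` -/
abbrev evJ : Polynomial ℂ →+* LaurentSeries ℂ :=
  (Polynomial.aeval jC : Polynomial ℂ →ₐ[ℂ] LaurentSeries ℂ).toRingHom

theorem evJ_mem_holAlg (s : Polynomial ℂ) : evJ s ∈ holAlg N := by
  have := Polynomial.aeval_subalgebra_coe s (holAlg N) ⟨jC, jC_mem_holAlg N⟩
  show Polynomial.aeval jC s ∈ holAlg N
  rw [← this]
  exact SetLike.coe_mem _

/-- clearing the denominator: a nonzero element of `holAlg N` divides a nonzero polynomial in `j`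
inside `holAlg N` -/
theorem exists_mul_eq_evJ {z : LaurentSeries ℂ} (hz : z ∈ holAlg N) (hz0 : z ≠ 0) :
    ∃ s : Polynomial ℂ, s ≠ 0 ∧ ∃ t ∈ holAlg N, z * t = evJ s := by
  obtain ⟨Φ, hmon, -, hrel⟩ := exists_monic_relation_of_mem_holAlg hz
  obtain ⟨q, hq, hqX⟩ := Polynomial.exists_eq_pow_rootMultiplicity_mul_and_not_dvd Φ hmon.ne_zero 0
  simp only [Polynomial.C_0, sub_zero, Polynomial.X_dvd_iff] at hq hqX
  have h1 : Polynomial.eval₂ (evJ) z q = 0 := by
    rw [hq, Polynomial.eval₂_mul, Polynomial.eval₂_pow, Polynomial.eval₂_X] at hrel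
    exact (mul_eq_zero.mp hrel).resolve_left (pow_ne_zero _ hz0)
  obtain ⟨q', hq'⟩ := Polynomial.X_dvd_sub_C (p := q)
  have h2 : q = Polynomial.X * q' + Polynomial.C (q.coeff 0) := by rw [← hq']; ring
  have h3 : z * Polynomial.eval₂ (evJ) z q' + evJ (q.coeff 0) = 0 := by
    rw [h2, Polynomial.eval₂_add, Polynomial.eval₂_mul, Polynomial.eval₂_X, Polynomial.eval₂_C]
      at h1
    exact h1
  have hmem : ∀ p : Polynomial (Polynomial ℂ), Polynomial.eval₂ (evJ) z p ∈ holAlg N := by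
    intro p
    induction p using Polynomial.induction_on with
    | C a => rw [Polynomial.eval₂_C]; exact evJ_mem_holAlg N a
    | add p q hp hq => rw [Polynomial.eval₂_add]; exact (holAlg N).add_mem hp hq
    | monomial n a _ =>
      rw [Polynomial.eval₂_mul, Polynomial.eval₂_C, Polynomial.eval₂_pow, Polynomial.eval₂_X]
      exact (holAlg N).mul_mem (evJ_mem_holAlg N a) ((holAlg N).pow_mem hz _)
  refine ⟨q.coeff 0, hqX, -Polynomial.eval₂ (evJ) z q', (holAlg N).neg_mem (hmem q'), ?_⟩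
  linear_combination (-1 : LaurentSeries ℂ) * h3

theorem isMF_E₄ : IsMF (G0 N) 4 (⇑ModularForm.E₄ : ℍ → ℂ) := (IsMF.coe ModularForm.E₄).ofLevelOne

theorem E₄_fun_ne_zero : (⇑ModularForm.E₄ : ℍ → ℂ) ≠ 0 := fun h =>
  EisensteinSeries.E_ne_zero (by norm_num : 3 ≤ 4) ⟨2, rfl⟩ (DFunLike.coe_injective h)

/-- **Upper bound**: every element of `repField N` satisfies a nonzero two-variable relation
`P(j, x) = 0` of `x`-degree `≤ μ = [SL(2, ℤ) : Γ₀(N)]`. -/
theorem exists_relation_of_mem_repField {x : LaurentSeries ℂ} (hx : x ∈ repField N) :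
    ∃ P : Polynomial (Polynomial ℂ), P ≠ 0 ∧
      P.natDegree ≤ Nat.card (SL(2, ℤ) ⧸ Gamma0 N) ∧ Polynomial.eval₂ (evJ) x P = 0 := by
  obtain ⟨k, a, b, h⟩ := hx
  set j : ℕ := (-k).toNat with hj
  set m : ℕ := k.toNat with hm
  have hkjm : k + (j : ℤ) = (m : ℤ) := by
    rw [hj, hm]
    rcases le_or_gt 0 k with hk | hk
    · rw [Int.toNat_of_nonneg hk, Int.toNat_of_nonpos (by omega)]
      simp
    · rw [Int.toNat_of_nonpos hk.le, Int.toNat_of_nonneg (by omega)]
      simp
  -- the auxiliary forms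
  set c : ℍ → ℂ := (⇑ModularForm.E₄ : ℍ → ℂ) ^ (3 * j) with hc
  have hcMF : IsMF (G0 N) (12 * j) c := ((isMF_E₄ N).pow (3 * j)).cast (by push_cast; ring)
  have hcQ : IsQ c := isQ_of_isMF hcMF
  have haQ : IsQ a := isQ_of_isMF h.ha
  have hbQ : IsQ b := isQ_of_isMF h.hb
  have hb11 : IsMF (G0 N) (11 * k) (b ^ 11) := (h.hb.pow 11).cast (by push_cast; ring)
  have hb12 : IsMF (G0 N) (12 * k) (b ^ 12) := (h.hb.pow 12).cast (by push_cast; ring)
  have hn1 : IsMF (G0 N) (12 * m) (a * b ^ 11 * c) :=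
    ((h.ha.mul hb11).mul hcMF).cast (by rw [← hkjm]; ring)
  have hn2 : IsMF (G0 N) (12 * m) (b ^ 12 * c) :=
    (hb12.mul hcMF).cast (by rw [← hkjm]; ring)
  have hd0 : dser ^ m ≠ 0 := pow_ne_zero m dser_ne_zero
  have hqb : ofPS (qx b) ≠ 0 := h.qx_b_ne_zero
  have hqc : ofPS (qx c) ≠ 0 := by
    rw [hc, qx_pow (isQ_of_isMF (isMF_E₄ N)), map_pow]
    refine pow_ne_zero _ ?_
    intro h0
    have h1 : qx (⇑ModularForm.E₄ : ℍ → ℂ) = 0 := ofPS_injective (by rw [h0, map_zero])
    exact E₄_fun_ne_zero ((qx_eq_zero_iff (isQ_of_isMF (isMF_E₄ N))).mp h1)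
  have e1 : ofPS (qx (a * b ^ 11 * c)) = ofPS (qx a) * ofPS (qx b) ^ 11 * ofPS (qx c) := by
    rw [qx_mul (haQ.mul (hbQ.pow 11)) hcQ, qx_mul haQ (hbQ.pow 11), qx_pow hbQ, map_mul, map_mul,
      map_pow]
  have e2 : ofPS (qx (b ^ 12 * c)) = ofPS (qx b) ^ 12 * ofPS (qx c) := by
    rw [qx_mul (hbQ.pow 12) hcQ, qx_pow hbQ, map_mul, map_pow]
  set z1 : LaurentSeries ℂ := ofPS (qx (a * b ^ 11 * c)) / dser ^ m with hz1
  set z2 : LaurentSeries ℂ := ofPS (qx (b ^ 12 * c)) / dser ^ m with hz2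
  have hz1mem : z1 ∈ holAlg N := ⟨m, _, hn1, div_mul_cancel₀ _ hd0⟩
  have hz2mem : z2 ∈ holAlg N := ⟨m, _, hn2, div_mul_cancel₀ _ hd0⟩
  have hz2ne : z2 ≠ 0 := by
    rw [hz2, e2]
    exact div_ne_zero (mul_ne_zero (pow_ne_zero _ hqb) hqc) hd0
  have hxz : x * z2 = z1 := by
    rw [hz1, hz2, e1, e2, h.eq]
    field_simp
  obtain ⟨s, hs0, t, ht, hzt⟩ := exists_mul_eq_evJ N hz2mem hz2ne
  have hy : evJ s * x ∈ holAlg N := by
    have : evJ s * x = z1 * t := by rw [← hzt, ← hxz]; ring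
    rw [this]
    exact (holAlg N).mul_mem hz1mem ht
  obtain ⟨Φ, hmon, hdeg, hrel⟩ := exists_monic_relation_of_mem_holAlg hy
  refine ⟨Φ.comp (Polynomial.C s * Polynomial.X), ?_, ?_, ?_⟩
  · intro h0
    have := congrArg (fun q => Polynomial.coeff q Φ.natDegree) h0
    simp only [Polynomial.comp_C_mul_X_coeff, Polynomial.coeff_zero] at this
    rw [hmon.coeff_natDegree, one_mul] at this
    exact pow_ne_zero _ hs0 this
  · calc (Φ.comp (Polynomial.C s * Polynomial.X)).natDegree
        ≤ Φ.natDegree * (Polynomial.C s * Polynomial.X).natDegree := Polynomial.natDegree_comp_le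
      _ ≤ Φ.natDegree * 1 := by
          gcongr
          exact (Polynomial.natDegree_C_mul_le _ _).trans (by simp)
      _ = Nat.card (SL(2, ℤ) ⧸ Gamma0 N) := by rw [mul_one, hdeg]
  · rw [Polynomial.eval₂_comp, Polynomial.eval₂_mul, Polynomial.eval₂_C, Polynomial.eval₂_X]
    exact hrel

end Upper

/-! ### the main theorem -/

section Main

open UpperHalfPlane CongruenceSubgroup ModularCurve
open Fermat.Agent.S24.RepHom Fermat.Agent.S24.RepAll Fermat.Agent.S24.LmapJ
  Fermat.Agent.S24.DegreeAlg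

open scoped MatrixGroups

variable (N : ℕ) [NeZero N]

/-- `repField N` as an intermediate field of `ℂ((q)) / ℂ` -/
def repIF : IntermediateField ℂ (LaurentSeries ℂ) :=
  (repField N).toIntermediateField (fun c => algebraMap_mem_repField N c)

theorem mem_repIF {x : LaurentSeries ℂ} : x ∈ repIF N ↔ x ∈ repField N := Iff.rfl

/-- the formal series `j(q^N)` over `ℂ` -/
abbrev jN : LaurentSeries ℂ := jdiv ℂ N ⟨N, dvd_rfl⟩

theorem jC_mem_FC : jC ∈ laurentBaseChange ℂ (modularFunctionFieldFull N) := by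
  have h := coeffEmb_mem_laurentBaseChange ℂ (jqd_mem_full N (one_dvd N))
  rwa [qExpand_one_apply] at h

theorem jN_mem_FC : jN N ∈ laurentBaseChange ℂ (modularFunctionFieldFull N) :=
  coeffEmb_mem_laurentBaseChange ℂ (jqd_mem_full N (dvd_refl N))

/-- `F_ℂ ⊆ repField N` -/
theorem FC_le_repIF : laurentBaseChange ℂ (modularFunctionFieldFull N) ≤ repIF N := by
  rw [laurentBaseChange, IntermediateField.adjoin_le_iff]
  rintro _ ⟨z, hz, rfl⟩
  exact coeffEmb_mem_repField N hz

/-- **`repField N ⊆ ℂ(j, j_N)`** -/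
theorem repIF_le_adjoin_pair :
    repIF N ≤ IntermediateField.adjoin ℂ ({jC, jN N} : Set (LaurentSeries ℂ)) := by
  intro r hr
  refine mem_adjoin_pair_of_relations (repIF N) jC (jN N) (jC_mem N)
    (FC_le_repIF N (jN_mem_FC N)) (transcendental_coeffEmb_jq ℂ)
    (Nat.card (SL(2, ℤ) ⧸ Gamma0 N)) (fun x hx => exists_relation_of_mem_repField N hx) ?_ hr
  intro P hP0 hP
  by_contra hlt
  exact hP0 (Fermat.Agent.S24.DegreeLowerFormal.eq_zero_of_formal_relation N P (not_le.mp hlt) hP)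

theorem adjoin_pair_le_FC :
    IntermediateField.adjoin ℂ ({jC, jN N} : Set (LaurentSeries ℂ)) ≤
      laurentBaseChange ℂ (modularFunctionFieldFull N) := by
  rw [IntermediateField.adjoin_le_iff]
  rintro y (rfl | rfl)
  · exact jC_mem_FC N
  · exact jN_mem_FC N

/-- **The field of `q`-expansions of modular functions for `Γ₀(N)` is the Prelude's Laurent model
over `ℂ`.** -/
theorem repIF_eq_FC : repIF N = laurentBaseChange ℂ (modularFunctionFieldFull N) :=
  le_antisymm ((repIF_le_adjoin_pair N).trans (adjoin_pair_le_FC N)) (FC_le_repIF N)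

/-- membership form -/
theorem mem_repField_iff {x : LaurentSeries ℂ} :
    x ∈ repField N ↔ x ∈ laurentBaseChange ℂ (modularFunctionFieldFull N) := by
  rw [← repIF_eq_FC]
  rfl

/-- `F_ℂ = ℂ(j, j_N)` -/
theorem FC_eq_adjoin_pair : laurentBaseChange ℂ (modularFunctionFieldFull N) =
    IntermediateField.adjoin ℂ ({jC, jN N} : Set (LaurentSeries ℂ)) :=
  le_antisymm ((repIF_eq_FC N).symm.le.trans (repIF_le_adjoin_pair N)) (adjoin_pair_le_FC N)

/-- the identification as a `ℂ`-algebra isomorphism (identity on the underlying series) -/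
def repFieldEquiv : repField N ≃+* laurentBaseChange ℂ (modularFunctionFieldFull N) where
  toFun x := ⟨x.1, (mem_repField_iff N).mp x.2⟩
  invFun x := ⟨x.1, (mem_repField_iff N).mpr x.2⟩
  left_inv _ := rfl
  right_inv _ := rfl
  map_mul' _ _ := rfl
  map_add' _ _ := rfl

@[simp]
theorem coe_repFieldEquiv (x : repField N) :
    ((repFieldEquiv N x : laurentBaseChange ℂ (modularFunctionFieldFull N)) : LaurentSeries ℂ) =
      (x : LaurentSeries ℂ) := rfl

@[simp]
theorem coe_repFieldEquiv_symm (x : laurentBaseChange ℂ (modularFunctionFieldFull N)) :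
    (((repFieldEquiv N).symm x : repField N) : LaurentSeries ℂ) = (x : LaurentSeries ℂ) := rfl

end Main

end Fermat.Agent.S30.Analytic.RepFieldEq
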