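import Mathlib

/-!
# PROJECT J (S30), slice J-1 (R): holomorphic `n`-th roots on the upper half plane (helper27)

Mathlib-only complex analysis.

* `eventually_eq_of_pow_eq` : two functions continuous at `z₀` with the same `n`-th power near `z₀`
  and the same nonzero value at `z₀` agree near `z₀`;
* `analyticAt_of_pow_eq` : a continuous `n`-th root of an analytic function is analytic at every
  point where it does not vanish;
* `exists_root_ball` : on an open ball whose closure lies in a preconnected open set `U`, an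
  analytic function `F ≢ 0` on `U` all of whose zero orders are divisible by `n` has an analytic
  `n`-th root;
* `exists_root_of_exhaustion` : the same on `U`, if `U` is exhausted by an increasing sequence of
  balls with closures in `U`;
* `exists_root_upperHalfPlane` : `U = {z | 0 < z.im}`.
-/

set_option autoImplicit false

noncomputable section

namespace Fermat.Agent.S30.Analytic.Roots

open Complex Metric Set Filter Topology Finset

/-! ### uniqueness of continuous roots -/

/-- Two functions continuous at `z₀` with the same `n`-th power near `z₀` and the same nonzero value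
at `z₀` agree near `z₀`. -/
theorem eventually_eq_of_pow_eq {X : Type*} [TopologicalSpace X] {x y : X → ℂ} {z₀ : X} {n : ℕ}
    (hn : n ≠ 0) (hx : ContinuousAt x z₀) (hy : ContinuousAt y z₀)
    (hpow : ∀ᶠ z in 𝓝 z₀, x z ^ n = y z ^ n) (h0 : x z₀ = y z₀) (hne : x z₀ ≠ 0) :
    ∀ᶠ z in 𝓝 z₀, x z = y z := by
  have hS : ContinuousAt (fun z => ∑ i ∈ range n, x z ^ i * y z ^ (n - 1 - i)) z₀ := by
    apply tendsto_finsetSum
    intro i _
    exact ((hx.pow i).mul (hy.pow (n - 1 - i)))
  have hS0 : (∑ i ∈ range n, x z₀ ^ i * y z₀ ^ (n - 1 - i)) ≠ 0 := by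
    rw [← h0]
    have : ∀ i ∈ range n, x z₀ ^ i * x z₀ ^ (n - 1 - i) = x z₀ ^ (n - 1) := by
      intro i hi
      rw [← pow_add]
      congr 1
      have := Finset.mem_range.mp hi
      omega
    rw [Finset.sum_congr rfl this, Finset.sum_const, Finset.card_range, nsmul_eq_mul]
    exact mul_ne_zero (Nat.cast_ne_zero.mpr hn) (pow_ne_zero _ hne)
  filter_upwards [hpow, hS.eventually_ne hS0] with z hz hSz
  have h1 := geom_sum₂_mul (x z) (y z) n
  rw [hz, sub_self] at h1
  rcases mul_eq_zero.mp h1 with h2 | h2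
  · exact absurd h2 hSz
  · exact sub_eq_zero.mp h2

/-- A continuous `n`-th root of an analytic function is analytic where it does not vanish. -/
theorem analyticAt_of_pow_eq {r g : ℂ → ℂ} {z₀ : ℂ} {n : ℕ} (hn : n ≠ 0)
    (hr : ContinuousAt r z₀) (hg : AnalyticAt ℂ g z₀)
    (hpow : ∀ᶠ z in 𝓝 z₀, r z ^ n = g z) (hne : g z₀ ≠ 0) : AnalyticAt ℂ r z₀ := by
  have hr0 : r z₀ ^ n = g z₀ := hpow.self_of_nhds
  have hrne : r z₀ ≠ 0 := by
    intro h
    rw [h, zero_pow hn] at hr0
    exact hne hr0.symm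
  -- the local holomorphic branch
  set ρ : ℂ → ℂ := fun z => r z₀ * exp (log (g z / g z₀) / n) with hρ
  have hq : AnalyticAt ℂ (fun z => g z / g z₀) z₀ := hg.div analyticAt_const hne
  have hslit : g z₀ / g z₀ ∈ slitPlane := by
    rw [div_self hne]
    exact one_mem_slitPlane
  have hlog : AnalyticAt ℂ (fun z => log (g z / g z₀)) z₀ := hq.clog hslit
  have hρa : AnalyticAt ℂ ρ z₀ :=
    analyticAt_const.mul ((hlog.div analyticAt_const (Nat.cast_ne_zero.mpr hn)).cexp)
  have hρ0 : ρ z₀ = r z₀ := by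
    simp only [hρ, div_self hne, log_one, zero_div, exp_zero, mul_one]
  have hρpow : ∀ᶠ z in 𝓝 z₀, ρ z ^ n = g z := by
    have hne' : ∀ᶠ z in 𝓝 z₀, g z / g z₀ ≠ 0 := by
      have : (fun z => g z / g z₀) z₀ ≠ 0 := by
        simp only [div_self hne, ne_eq, one_ne_zero, not_false_eq_true]
      exact hq.continuousAt.eventually_ne this
    filter_upwards [hne'] with z hz
    simp only [hρ]
    rw [mul_pow, ← exp_nat_mul, mul_div_cancel₀ _ (Nat.cast_ne_zero.mpr hn), exp_log hz, hr0,
      mul_div_cancel₀ _ hne]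
  have heq : ∀ᶠ z in 𝓝 z₀, r z = ρ z :=
    eventually_eq_of_pow_eq hn hr hρa.continuousAt
      (by filter_upwards [hpow, hρpow] with z h1 h2; rw [h1, h2]) hρ0.symm hrne
  exact hρa.congr (heq.mono fun z hz => hz.symm)

/-! ### roots on a ball -/

/-- an analytic function which does not vanish identically on a preconnected open set has finite
order everywhere -/
theorem analyticOrderAt_ne_top {U : Set ℂ} (hUc : IsPreconnected U) {F : ℂ → ℂ}
    (hF : AnalyticOnNhd ℂ F U) (hF0 : ∃ z ∈ U, F z ≠ 0) {u : ℂ} (hu : u ∈ U) :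
    analyticOrderAt F u ≠ ⊤ := by
  intro h
  obtain ⟨z, hz, hFz⟩ := hF0
  exact hFz (hF.eqOn_zero_of_preconnected_of_eventuallyEq_zero hUc hu
    (analyticOrderAt_eq_top.mp h) hz)

/-- **Roots on a ball.** -/
theorem exists_root_ball {U : Set ℂ} (hUc : IsPreconnected U) {F : ℂ → ℂ}
    (hF : AnalyticOnNhd ℂ F U) (hF0 : ∃ z ∈ U, F z ≠ 0) {n : ℕ} (hn : n ≠ 0)
    (hdiv : ∀ z ∈ U, ∃ m : ℕ, analyticOrderAt F z = ((n * m : ℕ) : ℕ∞)) {c : ℂ} {r : ℝ}
    (hK : closedBall c r ⊆ U) :
    ∃ G : ℂ → ℂ, AnalyticOnNhd ℂ G (ball c r) ∧ ∀ z ∈ ball c r, G z ^ n = F z := by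
  classical
  set K := closedBall c r with hKdef
  have hFK : AnalyticOnNhd ℂ F K := hF.mono hK
  have hmer : MeromorphicOn F K := hFK.meromorphicOn
  have hord : ∀ u : K, meromorphicOrderAt F u ≠ ⊤ := by
    rintro ⟨u, hu⟩ h
    rw [(hFK u hu).meromorphicOrderAt_eq] at h
    apply analyticOrderAt_ne_top hUc hF hF0 (hK hu)
    cases h' : analyticOrderAt F u with
    | top => rfl
    | coe a => rw [h'] at h; simp at h
  have hfin : (MeromorphicOn.divisor F K).support.Finite :=
    (MeromorphicOn.divisor F K).finiteSupport (isCompact_closedBall c r)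
  obtain ⟨g, hg, hg0, hFg⟩ := hmer.extract_zeros_poles hord hfin
  set d : ℂ → ℤ := fun u => MeromorphicOn.divisor F K u with hd
  -- the exponents are `n * m`
  have hdm : ∀ u, ∃ m : ℕ, d u = ((n * m : ℕ) : ℤ) := by
    intro u
    by_cases hu : u ∈ K
    · obtain ⟨m, hm⟩ := hdiv u (hK hu)
      refine ⟨m, ?_⟩
      show MeromorphicOn.divisor F K u = _
      rw [MeromorphicOn.divisor_apply hmer hu, (hFK u hu).meromorphicOrderAt_eq, hm]
      rfl
    · refine ⟨0, ?_⟩
      show MeromorphicOn.divisor F K u = _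
      rw [Function.locallyFinsuppWithin.apply_eq_zero_of_notMem _ hu]
      simp
  choose m hm using hdm
  set S : Finset ℂ := hfin.toFinset with hS
  set P : ℂ → ℂ := fun z => ∏ u ∈ S, (z - u) ^ m u with hP
  have hPan : ∀ z, AnalyticAt ℂ P z := by
    intro z
    apply Finset.analyticAt_fun_prod
    intro u _
    exact (analyticAt_id.sub analyticAt_const).pow _
  have hprod : ∀ z, (∏ᶠ u, (fun x : ℂ => x - u) ^ d u) z = P z ^ n := by
    intro z
    have hsub : (fun u => (fun x : ℂ => x - u) ^ d u).mulSupport ⊆ S := by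
      rw [Function.FactorizedRational.mulSupport]
      intro u hu
      exact hfin.mem_toFinset.mpr hu
    rw [finprod_eq_prod_of_mulSupport_subset _ hsub, Finset.prod_apply, hP,
      ← Finset.prod_pow]
    refine Finset.prod_congr rfl fun u _ => ?_
    rw [Pi.pow_apply, hm u, zpow_natCast, mul_comm n (m u), pow_mul]
  -- the root of `g`
  have hball : ball c r ⊆ K := ball_subset_closedBall
  by_cases hr : 0 < r
  swap
  · refine ⟨0, fun z hz => ?_, fun z hz => ?_⟩ <;>
    · rw [ball_eq_empty.mpr (not_lt.mp hr)] at hz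
      exact absurd hz (notMem_empty z)
  have hsc : IsSimplyConnected (ball c r) := by
    have : ContractibleSpace (ball c r) :=
      (convex_ball c r).contractibleSpace ⟨c, mem_ball_self hr⟩
    show SimplyConnectedSpace (ball c r)
    infer_instance
  obtain ⟨ρ, hρc, hρ⟩ := Complex.exists_continuousOn_pow_eq hsc isOpen_ball
    (hg.continuousOn.mono hball) (by
      rintro ⟨z, hz, hgz⟩
      exact hg0 ⟨z, hball hz⟩ hgz) hn
  have hρan : AnalyticOnNhd ℂ ρ (ball c r) := by
    intro z hz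
    exact analyticAt_of_pow_eq hn (hρc.continuousAt (isOpen_ball.mem_nhds hz)) (hg z (hball hz))
      (Eventually.of_forall hρ) (hg0 ⟨z, hball hz⟩)
  refine ⟨fun z => P z * ρ z, fun z hz => (hPan z).mul (hρan z hz), ?_⟩
  -- `(P ρ)^n = F` on the ball: equality near every point by the codiscrete equality
  have hGan : AnalyticOnNhd ℂ (fun z => (P z * ρ z) ^ n) (ball c r) :=
    fun z hz => ((hPan z).mul (hρan z hz)).pow n
  intro z hz
  have hev : ∀ᶠ w in 𝓝[≠] z, F w = (P w * ρ w) ^ n := by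
    have h1 := hFg
    rw [Filter.EventuallyEq, Filter.Eventually, mem_codiscreteWithin] at h1
    have h2 := h1 z (hball hz)
    rw [Filter.disjoint_principal_right] at h2
    have h3 : ball c r ∈ 𝓝[≠] z := mem_nhdsWithin_of_mem_nhds (isOpen_ball.mem_nhds hz)
    filter_upwards [h2, h3] with w hw hwb
    have hw' : w ∈ {x | F x = ((∏ᶠ u, (fun x : ℂ => x - u) ^ d u) • g) x} := by
      by_contra hcon
      exact hw ⟨hball hwb, hcon⟩
    rw [Set.mem_ofPred_eq, Pi.smul_apply', hprod w, smul_eq_mul] at hw'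
    rw [hw', mul_pow, hρ w]
  have hcont : ContinuousAt (fun w => F w - (P w * ρ w) ^ n) z :=
    ((hF z (hK (hball hz))).continuousAt).sub (hGan z hz).continuousAt
  have hlim : Tendsto (fun w => F w - (P w * ρ w) ^ n) (𝓝[≠] z) (𝓝 0) := by
    refine Tendsto.congr' ?_ tendsto_const_nhds
    filter_upwards [hev] with w hw
    rw [hw, sub_self]
  have := tendsto_nhds_unique (hcont.tendsto.mono_left nhdsWithin_le_nhds) hlim
  exact (sub_eq_zero.mp this).symm

/-! ### gluing along an exhaustion -/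

/-- Two analytic `n`-th roots of `F ≢ 0` on a preconnected open set differ by a constant `n`-th
root of unity. -/
theorem exists_const_mul_of_pow_eq {V : Set ℂ} (hVo : IsOpen V) (hVc : IsPreconnected V)
    {F G G' : ℂ → ℂ} {n : ℕ} (hn : n ≠ 0) (hG : AnalyticOnNhd ℂ G V) (hG' : AnalyticOnNhd ℂ G' V)
    (hGF : ∀ z ∈ V, G z ^ n = F z) (hG'F : ∀ z ∈ V, G' z ^ n = F z) (hF0 : ∃ z ∈ V, F z ≠ 0) :
    ∃ ζ : ℂ, ζ ^ n = 1 ∧ ∀ z ∈ V, G' z = ζ * G z := by
  obtain ⟨z₁, hz₁, hFz₁⟩ := hF0
  have hGz₁ : G z₁ ≠ 0 := by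
    intro h
    have := hGF z₁ hz₁
    rw [h, zero_pow hn] at this
    exact hFz₁ this.symm
  have hG'z₁ : G' z₁ ≠ 0 := by
    intro h
    have := hG'F z₁ hz₁
    rw [h, zero_pow hn] at this
    exact hFz₁ this.symm
  refine ⟨G' z₁ / G z₁, ?_, ?_⟩
  · rw [div_pow, hGF z₁ hz₁, hG'F z₁ hz₁, div_self hFz₁]
  · set ζ := G' z₁ / G z₁ with hζ
    have hζn : ζ ^ n = 1 := by rw [hζ, div_pow, hGF z₁ hz₁, hG'F z₁ hz₁, div_self hFz₁]
    have hev : ∀ᶠ z in 𝓝 z₁, G' z = ζ * G z := by
      refine eventually_eq_of_pow_eq hn (hG' z₁ hz₁).continuousAt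
        (continuousAt_const.mul (hG z₁ hz₁).continuousAt) ?_ ?_ hG'z₁
      · filter_upwards [hVo.mem_nhds hz₁] with z hz
        rw [mul_pow, hζn, one_mul, hGF z hz, hG'F z hz]
      · rw [hζ, div_mul_cancel₀ _ hGz₁]
    have hdiff : AnalyticOnNhd ℂ (fun z => G' z - ζ * G z) V :=
      fun z hz => (hG' z hz).sub (analyticAt_const.mul (hG z hz))
    have h0 := hdiff.eqOn_zero_of_preconnected_of_eventuallyEq_zero hVc hz₁
      (hev.mono fun z hz => by
        show G' z - ζ * G z = 0
        rw [hz, sub_self])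
    intro z hz
    exact sub_eq_zero.mp (h0 hz)

/-- **Roots on a domain exhausted by balls.** -/
theorem exists_root_of_exhaustion {U : Set ℂ} (hUc : IsPreconnected U) {F : ℂ → ℂ}
    (hF : AnalyticOnNhd ℂ F U) (hF0 : ∃ z ∈ U, F z ≠ 0) {n : ℕ} (hn : n ≠ 0)
    (hdiv : ∀ z ∈ U, ∃ m : ℕ, analyticOrderAt F z = ((n * m : ℕ) : ℕ∞))
    (c : ℕ → ℂ) (r : ℕ → ℝ) (hr : ∀ j, 0 < r j)
    (hmono : ∀ j, ball (c j) (r j) ⊆ ball (c (j + 1)) (r (j + 1)))
    (hK : ∀ j, closedBall (c j) (r j) ⊆ U) (hcover : U ⊆ ⋃ j, ball (c j) (r j)) :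
    ∃ G : ℂ → ℂ, AnalyticOnNhd ℂ G U ∧ ∀ z ∈ U, G z ^ n = F z := by
  classical
  set V : ℕ → Set ℂ := fun j => ball (c j) (r j) with hV
  have hVU : ∀ j, V j ⊆ U := fun j => ball_subset_closedBall.trans (hK j)
  have hVmono : ∀ j k, j ≤ k → V j ⊆ V k := by
    intro j k hjk
    induction k, hjk using Nat.le_induction with
    | base => exact subset_rfl
    | succ k _ ih => exact ih.trans (hmono k)
  -- `F` does not vanish identically on any of the balls
  have hFV : ∀ j, ∃ z ∈ V j, F z ≠ 0 := by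
    intro j
    have hc : c j ∈ V j := mem_ball_self (hr j)
    have hne := analyticOrderAt_ne_top hUc hF hF0 (hVU j hc)
    rw [Ne, analyticOrderAt_eq_top, Filter.not_eventually] at hne
    obtain ⟨z, hz, hFz⟩ := (hne.and_eventually (isOpen_ball.mem_nhds hc)).exists
    exact ⟨z, hFz, hz⟩
  -- the extension step
  have hext : ∀ j (H : ℂ → ℂ), AnalyticOnNhd ℂ H (V j) → (∀ z ∈ V j, H z ^ n = F z) →
      ∃ H' : ℂ → ℂ, AnalyticOnNhd ℂ H' (V (j + 1)) ∧ (∀ z ∈ V (j + 1), H' z ^ n = F z) ∧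
        ∀ z ∈ V j, H' z = H z := by
    intro j H hH hHF
    obtain ⟨G, hG, hGF⟩ := exists_root_ball hUc hF hF0 hn hdiv (hK (j + 1))
    obtain ⟨ζ, hζ, hζG⟩ := exists_const_mul_of_pow_eq isOpen_ball
      (convex_ball (c j) (r j)).isPreconnected hn hH (hG.mono (hmono j)) hHF
      (fun z hz => hGF z (hmono j hz)) (hFV j)
    have hζ0 : ζ ≠ 0 := by
      rintro rfl
      rw [zero_pow hn] at hζ
      exact zero_ne_one hζ
    refine ⟨fun z => ζ⁻¹ * G z, fun z hz => analyticAt_const.mul (hG z hz), fun z hz => ?_,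
      fun z hz => ?_⟩
    · show (ζ⁻¹ * G z) ^ n = F z
      rw [mul_pow, inv_pow, hζ, inv_one, one_mul, hGF z hz]
    · show ζ⁻¹ * G z = H z
      rw [hζG z hz, inv_mul_cancel_left₀ hζ0]
  -- the compatible sequence
  obtain ⟨G₀, hG₀, hG₀F⟩ := exists_root_ball hUc hF hF0 hn hdiv (hK 0)
  let seq : (j : ℕ) → {H : ℂ → ℂ // AnalyticOnNhd ℂ H (V j) ∧ ∀ z ∈ V j, H z ^ n = F z} :=
    fun j => Nat.rec ⟨G₀, hG₀, hG₀F⟩
      (fun j H => ⟨(hext j H.1 H.2.1 H.2.2).choose, (hext j H.1 H.2.1 H.2.2).choose_spec.1,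
        (hext j H.1 H.2.1 H.2.2).choose_spec.2.1⟩) j
  have hseq : ∀ j, ∀ z ∈ V j, (seq (j + 1)).1 z = (seq j).1 z := fun j =>
    (hext j (seq j).1 (seq j).2.1 (seq j).2.2).choose_spec.2.2
  have hseq' : ∀ j k, j ≤ k → ∀ z ∈ V j, (seq k).1 z = (seq j).1 z := by
    intro j k hjk
    induction k, hjk using Nat.le_induction with
    | base => exact fun _ _ => rfl
    | succ k hjk ih =>
      intro z hz
      rw [hseq k z (hVmono j k hjk hz), ih z hz]
  have hex : ∀ z, z ∈ U → ∃ j, z ∈ V j := fun z hz => mem_iUnion.mp (hcover hz)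
  let G : ℂ → ℂ := fun z => if hz : z ∈ U then (seq (Nat.find (hex z hz))).1 z else 0
  have hGV : ∀ j, ∀ z ∈ V j, G z = (seq j).1 z := by
    intro j z hz
    have hzU := hVU j hz
    simp only [G, dif_pos hzU]
    exact (hseq' _ j (Nat.find_min' (hex z hzU) hz) z (Nat.find_spec (hex z hzU))).symm
  refine ⟨G, fun z hz => ?_, fun z hz => ?_⟩
  · obtain ⟨j, hj⟩ := hex z hz
    refine ((seq j).2.1 z hj).congr ?_
    filter_upwards [isOpen_ball.mem_nhds hj] with w hw
    exact (hGV j w hw).symm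
  · obtain ⟨j, hj⟩ := hex z hz
    rw [hGV j z hj]
    exact (seq j).2.2 z hj

/-! ### the upper half plane -/

/-- the radius parameter of the exhaustion of the upper half plane -/
private def R (j : ℕ) : ℝ := j + 2

private theorem R_pos (j : ℕ) : 0 < R j := by
  unfold R
  positivity

private theorem one_le_R (j : ℕ) : 1 ≤ R j := by
  unfold R
  have : (0 : ℝ) ≤ j := Nat.cast_nonneg j
  linarith

private theorem rad_pos (j : ℕ) : 0 < R j - 1 / R j := by
  have h1 := one_le_R j
  have h2 : 1 / R j ≤ 1 := by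
    rw [div_le_one (R_pos j)]
    exact h1
  have : (1 : ℝ) < R j := by
    unfold R
    have : (0 : ℝ) ≤ j := Nat.cast_nonneg j
    linarith
  linarith

/-- **Holomorphic `n`-th roots on the upper half plane**: an analytic function `F ≢ 0` on
`{z | 0 < z.im}` all of whose zero orders are divisible by `n` is an `n`-th power. -/
theorem exists_root_upperHalfPlane {F : ℂ → ℂ} (hF : AnalyticOnNhd ℂ F {z : ℂ | 0 < z.im})
    (hF0 : ∃ z : ℂ, 0 < z.im ∧ F z ≠ 0) {n : ℕ} (hn : n ≠ 0)
    (hdiv : ∀ z : ℂ, 0 < z.im → ∃ m : ℕ, analyticOrderAt F z = ((n * m : ℕ) : ℕ∞)) :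
    ∃ G : ℂ → ℂ, AnalyticOnNhd ℂ G {z : ℂ | 0 < z.im} ∧ ∀ z : ℂ, 0 < z.im → G z ^ n = F z := by
  have hUc : IsPreconnected {z : ℂ | 0 < z.im} := (convex_halfSpace_im_gt 0).isPreconnected
  refine exists_root_of_exhaustion hUc hF hF0 hn hdiv (fun j => (R j : ℂ) * I)
    (fun j => R j - 1 / R j) rad_pos ?_ ?_ ?_
  · -- monotone
    intro j
    apply ball_subset_ball'
    have hd : dist ((R j : ℂ) * I) ((R (j + 1) : ℂ) * I) = 1 := by
      rw [dist_eq_norm, ← sub_mul, norm_mul, norm_I, mul_one, ← ofReal_sub, norm_real]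
      unfold R
      push_cast
      norm_num
    rw [hd]
    have h1 : 1 / R (j + 1) ≤ 1 / R j := by
      apply one_div_le_one_div_of_le (R_pos j)
      unfold R
      push_cast
      linarith
    have h2 : R (j + 1) = R j + 1 := by
      unfold R
      push_cast
      ring
    linarith
  · -- the closed balls lie in the half plane
    intro j z hz
    rw [mem_closedBall, dist_eq_norm] at hz
    have h1 := abs_im_le_norm (z - (R j : ℂ) * I)
    have h2 : (z - (R j : ℂ) * I).im = z.im - R j := by simp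
    rw [h2] at h1
    have h3 := (abs_le.mp (h1.trans hz)).1
    have h4 : 0 < 1 / R j := one_div_pos.mpr (R_pos j)
    show 0 < z.im
    linarith
  · -- the balls cover
    intro z hz
    have hy : 0 < z.im := hz
    obtain ⟨j, hj⟩ := exists_nat_ge ((‖z‖ ^ 2 + 2) / (2 * z.im))
    refine mem_iUnion.mpr ⟨j, ?_⟩
    rw [mem_ball, dist_eq_norm]
    have hRj : (‖z‖ ^ 2 + 2) / (2 * z.im) ≤ R j := by
      unfold R
      linarith
    rw [div_le_iff₀ (by positivity)] at hRj
    have hsq : ‖z - (R j : ℂ) * I‖ ^ 2 = ‖z‖ ^ 2 - 2 * z.im * R j + R j ^ 2 := by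
      rw [Complex.sq_norm, Complex.sq_norm, normSq_apply, normSq_apply]
      simp
      ring
    have hlt : ‖z - (R j : ℂ) * I‖ ^ 2 < (R j - 1 / R j) ^ 2 := by
      rw [hsq]
      have h1 : (R j - 1 / R j) ^ 2 = R j ^ 2 - 2 + (1 / R j) ^ 2 := by
        have := (R_pos j).ne'
        field_simp
        ring
      rw [h1]
      have h2 : 0 < (1 / R j) ^ 2 := by
        have := R_pos j
        positivity
      nlinarith
    exact lt_of_pow_lt_pow_left₀ 2 (rad_pos j).le hlt

end Fermat.Agent.S30.Analytic.Roots
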