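import Mathlib
import Fermat.Agent.S30.Analytic.Roots

/-!
# PROJECT J (S30), slice J-1 (C): roots of invariant functions are forms with character (helper27)

Function-level, Mathlib-only (+ `Analytic/Roots`).  `ℍ` the upper half plane, slash action of
`SL(2, ℤ)`.

* `analyticOnNhd_comp_ofComplex`, `eq_zero_or_eq_zero_of_mul_eq_zero` (holomorphic functions on `ℍ`
  form a domain), `mul_right_cancel_of_ne_zero`;
* `exists_const_smul_of_pow_eq` : two holomorphic `n`-th roots of the same function `≠ 0` on `ℍ`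
  differ by a constant `n`-th root of unity;
* `ordAt f τ` (the order of vanishing at `τ`), `exists_root` : `F` holomorphic `≠ 0` on `ℍ` with all
  orders divisible by `n` is `G ^ n`, `G` holomorphic;
* `HasChar Γ k G ψ` : `G ∣[k] γ = ψ γ • G` for all `γ ∈ Γ` (`ψ : Γ →* ℂˣ`); `HasChar.mul`,
  `HasChar.const_smul`, `HasChar.unique`, `HasChar.of_mul_right` (division), `HasChar.pow`,
  `hasChar_one_iff`;
* **`exists_hasChar_of_pow`** : `G` holomorphic `≠ 0` with `G ^ n` invariant of weight `n * k` under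
  `Γ` has a character `ψ` with `ψ ^ n = 1`;
* `isBoundedAtImInfty_of_pow` : `G` is bounded at `i∞` if `G ^ n` is (`n ≠ 0`).
-/

set_option autoImplicit false

noncomputable section

namespace Fermat.Agent.S30.Analytic.Character

open UpperHalfPlane ModularForm Filter Topology
open scoped Manifold MatrixGroups ModularForm

/-! ### transfer to the upper half plane as a subset of `ℂ` -/

theorem analyticOnNhd_comp_ofComplex {f : ℍ → ℂ} (hf : MDiff f) :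
    AnalyticOnNhd ℂ (f ∘ ofComplex) {z : ℂ | 0 < z.im} :=
  (UpperHalfPlane.mdifferentiable_iff.mp hf).analyticOnNhd isOpen_upperHalfPlaneSet

theorem comp_ofComplex_coe (f : ℍ → ℂ) (τ : ℍ) : (f ∘ ofComplex) (τ : ℂ) = f τ := by
  rw [Function.comp_apply, ofComplex_apply]

theorem isPreconnected_upperHalfPlaneSet : IsPreconnected {z : ℂ | 0 < z.im} :=
  (convex_halfSpace_im_gt 0).isPreconnected

/-- holomorphic functions on `ℍ` form a domain -/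
theorem eq_zero_or_eq_zero_of_mul_eq_zero {f g : ℍ → ℂ} (hf : MDiff f) (hg : MDiff g)
    (h : f * g = 0) : f = 0 ∨ g = 0 := by
  have h1 := (analyticOnNhd_comp_ofComplex hf).eq_zero_or_eq_zero_of_mul_eq_zero
    (analyticOnNhd_comp_ofComplex hg) (fun z hz => by
      have := congrFun h (ofComplex z)
      simpa using this) isPreconnected_upperHalfPlaneSet
  rcases h1 with h1 | h1
  · left
    funext τ
    rw [← comp_ofComplex_coe f τ]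
    exact h1 _ τ.im_pos
  · right
    funext τ
    rw [← comp_ofComplex_coe g τ]
    exact h1 _ τ.im_pos

theorem mul_right_cancel_of_ne_zero {f f' g : ℍ → ℂ} (hf : MDiff f) (hf' : MDiff f')
    (hg : MDiff g) (hg0 : g ≠ 0) (h : f * g = f' * g) : f = f' := by
  have h1 : (f - f') * g = 0 := by rw [sub_mul, h, sub_self]
  rcases eq_zero_or_eq_zero_of_mul_eq_zero (hf.sub hf') hg h1 with h2 | h2
  · exact sub_eq_zero.mp h2
  · exact absurd h2 hg0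

/-- Two holomorphic `n`-th roots of the same function `≠ 0` differ by a constant root of unity. -/
theorem exists_const_smul_of_pow_eq {G G' : ℍ → ℂ} {n : ℕ} (hn : n ≠ 0) (hG : MDiff G)
    (hG' : MDiff G') (h : G' ^ n = G ^ n) (hG0 : G ≠ 0) :
    ∃ ζ : ℂ, ζ ^ n = 1 ∧ G' = ζ • G := by
  obtain ⟨τ₀, hτ₀⟩ : ∃ τ₀, G τ₀ ≠ 0 := by
    by_contra hcon
    exact hG0 (funext fun τ => by_contra fun h => hcon ⟨τ, h⟩)
  obtain ⟨ζ, hζ, hζG⟩ := Roots.exists_const_mul_of_pow_eq (F := (G ^ n) ∘ ofComplex)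
    isOpen_upperHalfPlaneSet isPreconnected_upperHalfPlaneSet hn
    (analyticOnNhd_comp_ofComplex hG) (analyticOnNhd_comp_ofComplex hG')
    (fun z _ => rfl) (fun z _ => by
      have := congrFun h (ofComplex z)
      simpa using this)
    ⟨(τ₀ : ℂ), τ₀.im_pos, by
      rw [comp_ofComplex_coe]
      exact pow_ne_zero n hτ₀⟩
  refine ⟨ζ, hζ, funext fun τ => ?_⟩
  have := hζG (τ : ℂ) τ.im_pos
  rwa [comp_ofComplex_coe, comp_ofComplex_coe] at this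

/-! ### existence of roots on `ℍ` -/

/-- the order of vanishing of `f : ℍ → ℂ` at `τ` -/
def ordAt (f : ℍ → ℂ) (τ : ℍ) : ℕ∞ := analyticOrderAt (f ∘ ofComplex) (τ : ℂ)

/-- **Holomorphic `n`-th roots on `ℍ`.** -/
theorem exists_root {F : ℍ → ℂ} (hF : MDiff F) (hF0 : F ≠ 0) {n : ℕ} (hn : n ≠ 0)
    (hdiv : ∀ τ : ℍ, ∃ m : ℕ, ordAt F τ = ((n * m : ℕ) : ℕ∞)) :
    ∃ G : ℍ → ℂ, MDiff G ∧ G ^ n = F := by
  obtain ⟨τ₀, hτ₀⟩ : ∃ τ₀, F τ₀ ≠ 0 := by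
    by_contra hcon
    exact hF0 (funext fun τ => by_contra fun h => hcon ⟨τ, h⟩)
  obtain ⟨G, hG, hGF⟩ := Roots.exists_root_upperHalfPlane (analyticOnNhd_comp_ofComplex hF)
    ⟨(τ₀ : ℂ), τ₀.im_pos, by rwa [comp_ofComplex_coe]⟩ hn
    (fun z hz => by
      have := hdiv ⟨z, hz⟩
      exact this)
  refine ⟨fun τ => G τ, ?_, funext fun τ => ?_⟩
  · rw [UpperHalfPlane.mdifferentiable_iff]
    refine hG.differentiableOn.congr fun z hz => ?_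
    rw [Function.comp_apply, ofComplex_apply_of_im_pos hz]
  · have := hGF (τ : ℂ) τ.im_pos
    rw [comp_ofComplex_coe] at this
    exact this

/-! ### forms with character -/

theorem pow_slash (G : ℍ → ℂ) (k : ℤ) (n : ℕ) (γ : SL(2, ℤ)) :
    (G ^ n) ∣[(n : ℤ) * k] γ = (G ∣[k] γ) ^ n := by
  ext τ
  rw [SL_slash_apply, Pi.pow_apply, Pi.pow_apply, SL_slash_apply, mul_pow, ← zpow_natCast (_ ^ (-k)),
    ← zpow_mul, neg_mul, mul_comm k]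

/-- `G` is a form of weight `k` with character `ψ` on `Γ` (no growth condition) -/
def HasChar (Γ : Subgroup SL(2, ℤ)) (k : ℤ) (G : ℍ → ℂ) (ψ : Γ →* ℂˣ) : Prop :=
  ∀ γ : Γ, G ∣[k] (γ : SL(2, ℤ)) = ((ψ γ : ℂˣ) : ℂ) • G

namespace HasChar

variable {Γ : Subgroup SL(2, ℤ)} {k k₁ k₂ : ℤ} {G G₁ G₂ : ℍ → ℂ} {ψ ψ' ψ₁ ψ₂ : Γ →* ℂˣ}

theorem cast (h : HasChar Γ k G ψ) {k' : ℤ} (hk : k = k') : HasChar Γ k' G ψ := hk ▸ h

theorem mul (h₁ : HasChar Γ k₁ G₁ ψ₁) (h₂ : HasChar Γ k₂ G₂ ψ₂) :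
    HasChar Γ (k₁ + k₂) (G₁ * G₂) (ψ₁ * ψ₂) := by
  intro γ
  rw [mul_slash_SL2, h₁ γ, h₂ γ, MonoidHom.mul_apply, Units.val_mul, smul_mul_smul_comm]

theorem const_smul (c : ℂ) (h : HasChar Γ k G ψ) : HasChar Γ k (c • G) ψ := by
  intro γ
  rw [SL_smul_slash, h γ, smul_comm]

theorem one_fun : HasChar Γ 0 (1 : ℍ → ℂ) 1 := by
  intro γ
  rw [is_invariant_one, MonoidHom.one_apply, Units.val_one, one_smul]

theorem pow (h : HasChar Γ k G ψ) (n : ℕ) : HasChar Γ ((n : ℤ) * k) (G ^ n) (ψ ^ n) := by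
  intro γ
  rw [pow_slash, h γ, smul_pow, MonoidHom.pow_apply, Units.val_pow_eq_pow_val]

theorem unique (hG0 : G ≠ 0) (h : HasChar Γ k G ψ) (h' : HasChar Γ k G ψ') : ψ = ψ' := by
  obtain ⟨τ₀, hτ₀⟩ : ∃ τ₀, G τ₀ ≠ 0 := by
    by_contra hcon
    exact hG0 (funext fun τ => by_contra fun h => hcon ⟨τ, h⟩)
  ext γ
  have h1 := congrFun ((h γ).symm.trans (h' γ)) τ₀
  rw [Pi.smul_apply, Pi.smul_apply, smul_eq_mul, smul_eq_mul] at h1
  exact mul_right_cancel₀ hτ₀ h1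

/-- division: if `G₁ G₂` and `G₂ ≠ 0` have characters, so has `G₁` -/
theorem of_mul_right (hG₁ : MDiff G₁) (hG₂ : MDiff G₂) (hG₂0 : G₂ ≠ 0)
    (h : HasChar Γ (k₁ + k₂) (G₁ * G₂) ψ) (h₂ : HasChar Γ k₂ G₂ ψ₂) :
    HasChar Γ k₁ G₁ (ψ * ψ₂⁻¹) := by
  intro γ
  have h1 := h γ
  rw [mul_slash_SL2, h₂ γ] at h1
  have h2 : (((ψ₂ γ : ℂˣ) : ℂ) • G₁ ∣[k₁] (γ : SL(2, ℤ))) * G₂ =
      (((ψ γ : ℂˣ) : ℂ) • G₁) * G₂ := by
    rw [smul_mul_assoc, ← mul_smul_comm, h1, smul_mul_assoc]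
  have h3 : ((ψ₂ γ : ℂˣ) : ℂ) • G₁ ∣[k₁] (γ : SL(2, ℤ)) = ((ψ γ : ℂˣ) : ℂ) • G₁ :=
    mul_right_cancel_of_ne_zero
      (((hG₁.slash k₁ (γ : SL(2, ℤ))).const_smul ((ψ₂ γ : ℂˣ) : ℂ))) (hG₁.const_smul _) hG₂ hG₂0 h2
  rw [MonoidHom.mul_apply, MonoidHom.inv_apply, Units.val_mul, Units.val_inv_eq_inv_val, mul_comm,
    mul_smul, ← h3, smul_smul, inv_mul_cancel₀ (Units.ne_zero _), one_smul]

end HasChar

theorem hasChar_one_iff {Γ : Subgroup SL(2, ℤ)} {k : ℤ} {G : ℍ → ℂ} :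
    HasChar Γ k G 1 ↔ ∀ γ ∈ Γ, G ∣[k] γ = G := by
  constructor
  · intro h γ hγ
    have := h ⟨γ, hγ⟩
    rwa [MonoidHom.one_apply, Units.val_one, one_smul] at this
  · intro h γ
    rw [MonoidHom.one_apply, Units.val_one, one_smul]
    exact h γ γ.2

/-- **Roots of invariant functions are forms with character.** -/
theorem exists_hasChar_of_pow {Γ : Subgroup SL(2, ℤ)} {k : ℤ} {G : ℍ → ℂ} {n : ℕ} (hn : n ≠ 0)
    (hG : MDiff G) (hG0 : G ≠ 0) (hinv : ∀ γ ∈ Γ, (G ^ n) ∣[(n : ℤ) * k] γ = G ^ n) :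
    ∃ ψ : Γ →* ℂˣ, HasChar Γ k G ψ ∧ ψ ^ n = 1 := by
  have hex : ∀ γ : Γ, ∃ ζ : ℂ, ζ ^ n = 1 ∧ G ∣[k] (γ : SL(2, ℤ)) = ζ • G := by
    intro γ
    refine exists_const_smul_of_pow_eq hn hG (hG.slash k (γ : SL(2, ℤ))) ?_ hG0
    rw [← pow_slash, hinv γ γ.2]
  choose ζ hζ hζG using hex
  have hζ0 : ∀ γ, ζ γ ≠ 0 := by
    intro γ h
    have := hζ γ
    rw [h, zero_pow hn] at this
    exact zero_ne_one this
  obtain ⟨τ₀, hτ₀⟩ : ∃ τ₀, G τ₀ ≠ 0 := by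
    by_contra hcon
    exact hG0 (funext fun τ => by_contra fun h => hcon ⟨τ, h⟩)
  have hmul : ∀ γ₁ γ₂ : Γ, ζ (γ₁ * γ₂) = ζ γ₁ * ζ γ₂ := by
    intro γ₁ γ₂
    have h1 : G ∣[k] ((γ₁ * γ₂ : Γ) : SL(2, ℤ)) = (ζ γ₁ * ζ γ₂) • G := by
      rw [Subgroup.coe_mul, SlashAction.slash_mul, hζG γ₁, SL_smul_slash, hζG γ₂, smul_smul]
    have h2 := congrFun ((hζG (γ₁ * γ₂)).symm.trans h1) τ₀
    rw [Pi.smul_apply, Pi.smul_apply, smul_eq_mul, smul_eq_mul] at h2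
    exact mul_right_cancel₀ hτ₀ h2
  refine ⟨MonoidHom.mk' (fun γ => Units.mk0 (ζ γ) (hζ0 γ)) fun γ₁ γ₂ => ?_, fun γ => ?_, ?_⟩
  · apply Units.ext
    rw [Units.val_mk0, Units.val_mul, Units.val_mk0, Units.val_mk0, hmul]
  · rw [MonoidHom.mk'_apply, Units.val_mk0]
    exact hζG γ
  · ext γ
    rw [MonoidHom.pow_apply, MonoidHom.mk'_apply, MonoidHom.one_apply, Units.val_pow_eq_pow_val,
      Units.val_mk0, hζ γ, Units.val_one]

/-! ### growth -/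

theorem isBoundedAtImInfty_of_pow {G : ℍ → ℂ} {n : ℕ} (hn : n ≠ 0)
    (h : IsBoundedAtImInfty (G ^ n)) : IsBoundedAtImInfty G := by
  rw [isBoundedAtImInfty_iff] at h ⊢
  obtain ⟨M, A, hMA⟩ := h
  refine ⟨max 1 M, A, fun z hz => ?_⟩
  have h1 := hMA z hz
  rw [Pi.pow_apply, norm_pow] at h1
  by_cases h2 : ‖G z‖ ≤ 1
  · exact h2.trans (le_max_left _ _)
  · exact ((le_self_pow₀ (not_le.mp h2).le hn).trans h1).trans (le_max_right _ _)

/-- `G` is bounded at a cusp if `G ^ n` is. -/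
theorem isBoundedAt_of_pow {G : ℍ → ℂ} {n : ℕ} (hn : n ≠ 0) {k : ℤ} {c : OnePoint ℝ}
    (h : c.IsBoundedAt (G ^ n) (k * n)) : c.IsBoundedAt G k := by
  intro g hg
  have h1 := h g hg
  have h2 : (G ^ n) ∣[k * n] g =
      (|g.det.val| ^ ((n : ℤ) - 1) : ℝ) • (G ∣[k] g) ^ n := by
    have := ModularForm.prod_slash (k := k) (g := g) (f := fun _ : ℕ => G) (s := Finset.range n)
    simpa [Finset.prod_const, Finset.card_range] using this
  rw [h2] at h1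
  apply isBoundedAtImInfty_of_pow hn
  have hdet : (|g.det.val| ^ ((n : ℤ) - 1) : ℝ) ≠ 0 :=
    zpow_ne_zero _ (abs_ne_zero.mpr (Matrix.GeneralLinearGroup.det_ne_zero g))
  have h3 : (G ∣[k] g) ^ n =
      ((|g.det.val| ^ ((n : ℤ) - 1) : ℝ)⁻¹ : ℝ) • ((|g.det.val| ^ ((n : ℤ) - 1) : ℝ) •
        (G ∣[k] g) ^ n) := by
    rw [smul_smul, inv_mul_cancel₀ hdet, one_smul]
  rw [h3]
  exact h1.const_smul_left _

/-! ### the root character of an invariant function -/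

/-- `ψ` is the character of the holomorphic `n`-th roots of `F` (in weight `k`) -/
def IsRootChar (Γ : Subgroup SL(2, ℤ)) (n : ℕ) (k : ℤ) (F : ℍ → ℂ) (ψ : Γ →* ℂˣ) : Prop :=
  ∃ G : ℍ → ℂ, MDiff G ∧ G ^ n = F ∧ HasChar Γ k G ψ

namespace IsRootChar

variable {Γ : Subgroup SL(2, ℤ)} {n : ℕ} {k k₁ k₂ : ℤ} {F F₁ F₂ : ℍ → ℂ} {ψ ψ' ψ₁ ψ₂ : Γ →* ℂˣ}

theorem unique (hn : n ≠ 0) (hF0 : F ≠ 0) (h : IsRootChar Γ n k F ψ)
    (h' : IsRootChar Γ n k F ψ') : ψ = ψ' := by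
  obtain ⟨G, hG, hGF, hGψ⟩ := h
  obtain ⟨G', hG', hG'F, hG'ψ⟩ := h'
  have hG0 : G ≠ 0 := by
    rintro rfl
    rw [zero_pow hn] at hGF
    exact hF0 hGF.symm
  have hG'0 : G' ≠ 0 := by
    rintro rfl
    rw [zero_pow hn] at hG'F
    exact hF0 hG'F.symm
  obtain ⟨ζ, -, hζ⟩ := exists_const_smul_of_pow_eq hn hG hG' (hG'F.trans hGF.symm) hG0
  exact HasChar.unique hG'0 (hζ ▸ hGψ.const_smul ζ) hG'ψ

theorem mul (h₁ : IsRootChar Γ n k₁ F₁ ψ₁) (h₂ : IsRootChar Γ n k₂ F₂ ψ₂) :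
    IsRootChar Γ n (k₁ + k₂) (F₁ * F₂) (ψ₁ * ψ₂) := by
  obtain ⟨G₁, hG₁, hGF₁, hGψ₁⟩ := h₁
  obtain ⟨G₂, hG₂, hGF₂, hGψ₂⟩ := h₂
  exact ⟨G₁ * G₂, hG₁.mul hG₂, by rw [mul_pow, hGF₁, hGF₂], hGψ₁.mul hGψ₂⟩

theorem const_smul (c : ℂ) (h : IsRootChar Γ n k F ψ) : IsRootChar Γ n k (c ^ n • F) ψ := by
  obtain ⟨G, hG, hGF, hGψ⟩ := h
  exact ⟨c • G, hG.const_smul c, by rw [smul_pow, hGF], hGψ.const_smul c⟩

/-- the root character of an `n`-th power of an invariant function is trivial -/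
theorem of_pow {H : ℍ → ℂ} (hH : MDiff H) (hinv : ∀ γ ∈ Γ, H ∣[k] γ = H) :
    IsRootChar Γ n k (H ^ n) 1 :=
  ⟨H, hH, rfl, hasChar_one_iff.mpr hinv⟩

theorem pow_eq_one (hn : n ≠ 0) (hF0 : F ≠ 0) (hinv : ∀ γ ∈ Γ, F ∣[(n : ℤ) * k] γ = F)
    (h : IsRootChar Γ n k F ψ) : ψ ^ n = 1 := by
  obtain ⟨G, hG, hGF, hGψ⟩ := h
  have hG0 : G ≠ 0 := by
    rintro rfl
    rw [zero_pow hn] at hGF
    exact hF0 hGF.symm
  obtain ⟨ψ', hψ', hψ'n⟩ := exists_hasChar_of_pow (Γ := Γ) (k := k) hn hG hG0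
    (fun γ hγ => by rw [hGF]; exact hinv γ hγ)
  rw [HasChar.unique hG0 hGψ hψ']
  exact hψ'n

end IsRootChar

/-- **Existence of the root character**: a holomorphic `F ≠ 0`, invariant of weight `n * k` under
`Γ`, all of whose orders are divisible by `n`, has a root character. -/
theorem exists_isRootChar {Γ : Subgroup SL(2, ℤ)} {n : ℕ} (hn : n ≠ 0) {k : ℤ} {F : ℍ → ℂ}
    (hF : MDiff F) (hF0 : F ≠ 0) (hinv : ∀ γ ∈ Γ, F ∣[(n : ℤ) * k] γ = F)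
    (hdiv : ∀ τ : ℍ, ∃ m : ℕ, ordAt F τ = ((n * m : ℕ) : ℕ∞)) :
    ∃ ψ : Γ →* ℂˣ, IsRootChar Γ n k F ψ ∧ ψ ^ n = 1 := by
  obtain ⟨G, hG, hGF⟩ := exists_root hF hF0 hn hdiv
  have hG0 : G ≠ 0 := by
    rintro rfl
    rw [zero_pow hn] at hGF
    exact hF0 hGF.symm
  obtain ⟨ψ, hψ, hψn⟩ := exists_hasChar_of_pow (Γ := Γ) (k := k) hn hG hG0
    (fun γ hγ => by rw [hGF]; exact hinv γ hγ)
  exact ⟨ψ, ⟨G, hG, hGF, hψ⟩, hψn⟩

/-- **Injectivity at function level**: if the root character of a modular form `F` of weight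
`k * n` is trivial, then `F = G ^ n` for a modular form `G` of weight `k`. -/
theorem exists_modularForm_of_isRootChar_one {Γ : Subgroup SL(2, ℤ)} {n : ℕ} (hn : n ≠ 0) {k : ℤ}
    (F : ModularForm (Γ.map (Matrix.SpecialLinearGroup.mapGL ℝ)) (k * n))
    (h : IsRootChar Γ n k (F : ℍ → ℂ) 1) :
    ∃ G : ModularForm (Γ.map (Matrix.SpecialLinearGroup.mapGL ℝ)) k, (G : ℍ → ℂ) ^ n = F := by
  obtain ⟨G, hG, hGF, hGψ⟩ := h
  rw [hasChar_one_iff] at hGψ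
  refine ⟨{ toFun := G
            slash_action_eq' := ?_
            holo' := hG
            bdd_at_cusps' := ?_ }, hGF⟩
  · rintro γ' ⟨γ, hγ, rfl⟩
    exact hGψ γ hγ
  · intro c hc
    apply isBoundedAt_of_pow hn
    rw [hGF]
    exact F.bdd_at_cusps' hc

end Fermat.Agent.S30.Analytic.Character
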