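import Mathlib
import Fermat.Agent.S24.PlaceCount

/-!
# PROJECT J (S30), slice J-1 (D), generic half: exact ramification in the place dictionary

Setting of `S24.PlaceCount` (Lemma B): `F/K` a field extension, `y : F`, `Om` a field with a
`ℤᵐ⁰`-valued valuation `w`, and a finite family `L q : F →+* Om` of embeddings such that every
place of `F/K` at which `y` vanishes is the pull-back of `w` along some `L q`.

* `exists_log_eq` (G1): if `O_v` is the pull-back of `w` along `ℓ`, then `log w(ℓ f) = - e · ord_v f`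
  for a positive integer `e` (the ramification index of `ℓ` at `v`);
* `mul_ord_eq` (G2): in the setting of `PlaceCount.card_places_eq_card_quotient`, the local bound
  `s q · ord_v y ≤ m` is an EQUALITY for every pair `(v, q)` with `O_v = (L q)⁻¹ O_w`: the exact
  ramification falls out of the global count `∑_v ord_v y = #Q`;
* `log_eq_neg_mul_ord` : hence `log w(L q f) = - s q · ord_v f` for every `f ≠ 0`;
* `card_orbit_mul_log_eq` : the same in the orbit form of `card_places_eq_card_orbits`;
* `mul_dvd_log_of_dvd_ord`, `dvd_ord_of_mul_dvd_log` (G3): the two divisibility transfers used by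
  the analytic description of torsion (`n ∣ ord_v f ↔ n · s q ∣ log w(L q f)`).
-/

set_option autoImplicit false

open AlgebraicCurve WithZero

namespace Fermat.Agent.S30.Analytic.PlaceDict

open Fermat.Agent.S24.PlaceCount

variable {K F Om : Type*} [Field K] [Field F] [Algebra K F] [Field Om]

/-! ### (G1) proportionality -/

/-- **(G1)** If `O_v` is the pull-back of `w` along `ℓ`, the `w`-order of `ℓ f` is a fixed
positive multiple of `ord_v f`. -/
theorem exists_log_eq (v : Place K F) (w : Valuation Om ℤᵐ⁰) (ℓ : F →+* Om)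
    (hv : v.toValuationSubring = w.valuationSubring.comap ℓ) :
    ∃ e : ℕ, 0 < e ∧ ∀ f : F, f ≠ 0 → log (w (ℓ f)) = -((e : ℤ) * v.ord f) := by
  have hmem : ∀ z : F, z ∈ v.toValuationSubring ↔ w (ℓ z) ≤ 1 := by
    intro z
    rw [hv, ValuationSubring.mem_comap, Valuation.mem_valuationSubring_iff]
  have hne : ∀ z : F, z ≠ 0 → w (ℓ z) ≠ 0 := by
    intro z hz
    rw [ne_eq, Valuation.zero_iff]
    exact (map_ne_zero ℓ).mpr hz
  obtain ⟨π, hπ⟩ := IsDiscreteValuationRing.exists_irreducible v.toValuationSubring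
  have hπ0 : (π : F) ≠ 0 := coe_irreducible_ne_zero _ hπ
  -- `w (ℓ u) = 1` for units
  have hu1 : ∀ u : v.toValuationSubringˣ, w (ℓ ((u : v.toValuationSubring) : F)) = 1 := by
    intro u
    apply le_antisymm
    · exact (hmem _).mp (Subtype.mem _)
    · have h2 := (hmem _).mp (Subtype.mem ((u⁻¹ : v.toValuationSubringˣ) : v.toValuationSubring))
      rw [coe_units_inv, map_inv₀, map_inv₀] at h2
      have hu0 : w (ℓ ((u : v.toValuationSubring) : F)) ≠ 0 :=
        hne _ (by simp [ne_eq, ZeroMemClass.coe_eq_zero])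
      exact (inv_le_one₀ (zero_lt_iff.mpr hu0)).mp h2
  -- `w (ℓ π) < 1`
  have hπ1 : w (ℓ (π : F)) < 1 := by
    refine lt_of_le_of_ne ((hmem _).mp π.2) ?_
    intro h1
    have h3 : ((π : F))⁻¹ ∈ v.toValuationSubring := by
      rw [hmem, map_inv₀, map_inv₀, h1, inv_one]
    apply hπ.not_isUnit
    refine IsUnit.of_mul_eq_one (⟨((π : F))⁻¹, h3⟩ : v.toValuationSubring) ?_
    apply Subtype.ext
    simp [hπ0]
  set t := w (ℓ (π : F)) with ht
  have ht0 : t ≠ 0 := hne _ hπ0
  have hlog : log t < 0 := by
    rw [log_lt_iff_lt_exp ht0, exp_zero]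
    exact hπ1
  refine ⟨(-log t).toNat, ?_, ?_⟩
  · have : 0 < -log t := by omega
    omega
  · intro f hf
    obtain ⟨u, hu⟩ := v.exists_unit_mul_zpow hf hπ
    have h4 : w (ℓ f) = t ^ (v.ord f) := by
      conv_lhs => rw [hu]
      rw [map_mul, map_mul, hu1 u, one_mul, map_zpow₀, map_zpow₀]
    rw [h4, log_zpow, smul_eq_mul]
    have : (((-log t).toNat : ℕ) : ℤ) = -log t := Int.toNat_of_nonneg (by omega)
    rw [this]
    ring

/-! ### (G2) exactness from the global count -/

section Count

variable (w : Valuation Om ℤᵐ⁰) {Q : Type*} [Fintype Q] (L : Q → F →+* Om) (y : F)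

/-- the exact local equality for a given choice function `qv` -/
theorem mul_ord_eq_of_choice
    [Finite {v : Place K F // y ∈ v.toValuationSubring.nonunits}]
    (hFI : ∑ᶠ v : {v : Place K F // y ∈ v.toValuationSubring.nonunits}, v.1.ord y
      = Fintype.card Q)
    (m : ℕ) (hm : ∀ q, w (L q y) = exp (-(m : ℤ)))
    (r : Setoid Q) (hsame : ∀ q q', r q q' →
      w.valuationSubring.comap (L q) = w.valuationSubring.comap (L q'))
    (s : Q → ℕ) (hs : ∀ q f, f ≠ 0 → ((s q : ℕ) : ℤ) ∣ log (w (L q f)))
    (hclass : ∀ q, s q * Nat.card {q' // r q q'} = m) (hm0 : 0 < m)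
    (qv : {v : Place K F // y ∈ v.toValuationSubring.nonunits} → Q)
    (hqv : ∀ v : {v : Place K F // y ∈ v.toValuationSubring.nonunits},
      v.1.toValuationSubring = w.valuationSubring.comap (L (qv v)))
    (v : {v : Place K F // y ∈ v.toValuationSubring.nonunits}) :
    ((s (qv v) : ℕ) : ℤ) * v.1.ord y = m := by
  classical
  have hy0 : y ≠ 0 := by
    rintro rfl
    have := hm (qv v)
    rw [map_zero, map_zero] at this
    exact exp_ne_zero this.symm
  let _ : Fintype {v : Place K F // y ∈ v.toValuationSubring.nonunits} := Fintype.ofFinite _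
  let g : {v : Place K F // y ∈ v.toValuationSubring.nonunits} → Quotient r :=
    fun v => Quotient.mk r (qv v)
  have hg : Function.Injective g := by
    intro v v' h
    have h1 : r (qv v) (qv v') := Quotient.exact h
    have h2 := hsame _ _ h1
    apply Subtype.ext
    apply Place.ext
    rw [hqv v, hqv v', h2]
  let cs : Quotient r → ℕ := fun C => Fintype.card {q : Q // Quotient.mk r q = C}
  have hcs_sum : ∑ C, cs C = Fintype.card Q := by
    rw [← Fintype.card_sigma]
    exact Fintype.card_congr (Equiv.sigmaFiberEquiv (Quotient.mk r))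
  have hcs_eq : ∀ q, Nat.card {q' // r q q'} = cs (Quotient.mk r q) := by
    intro q
    rw [Nat.card_eq_fintype_card]
    refine Fintype.card_congr (Equiv.subtypeEquivRight fun q' => ?_)
    constructor
    · intro h; exact (Quotient.sound h).symm
    · intro h; exact Quotient.exact h.symm
  have hs0 : ∀ q, 0 < s q := by
    intro q
    rcases Nat.eq_zero_or_pos (s q) with h | h
    · have := hclass q
      rw [h, zero_mul] at this
      omega
    · exact h
  -- local bound
  have hloc : ∀ v : {v : Place K F // y ∈ v.toValuationSubring.nonunits},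
      v.1.ord y ≤ (cs (g v) : ℤ) := by
    intro v
    have h1 := mul_ord_le v.1 w (L (qv v)) (hqv v) hy0 v.2 m (s (qv v)) (hm _) (hs _)
    have h2 := hclass (qv v)
    rw [hcs_eq] at h2
    have h3 : ((s (qv v) : ℕ) : ℤ) * v.1.ord y ≤ (s (qv v) : ℤ) * (cs (g v) : ℤ) := by
      rw [← h2] at h1
      push_cast at h1
      exact h1
    exact le_of_mul_le_mul_left h3 (by exact_mod_cast hs0 _)
  -- global count
  rw [finsum_eq_sum_of_fintype] at hFI
  have hsum2 : ∑ v : {v : Place K F // y ∈ v.toValuationSubring.nonunits}, (cs (g v) : ℤ) =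
      ∑ C ∈ Finset.univ.image g, (cs C : ℤ) := by
    rw [Finset.sum_image (fun v _ v' _ h => hg h)]
  have hsum3 : ∑ C ∈ Finset.univ.image g, (cs C : ℤ) ≤ ∑ C, (cs C : ℤ) :=
    Finset.sum_le_sum_of_subset_of_nonneg (Finset.subset_univ _) (fun C _ _ => by positivity)
  have hsum4 : (∑ C, (cs C : ℤ)) = Fintype.card Q := by exact_mod_cast hcs_sum
  have hzero : ∑ v : {v : Place K F // y ∈ v.toValuationSubring.nonunits},
      ((cs (g v) : ℤ) - v.1.ord y) = 0 := by
    rw [Finset.sum_sub_distrib, hFI]
    have h5 : (Fintype.card Q : ℤ) ≤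
        ∑ v : {v : Place K F // y ∈ v.toValuationSubring.nonunits}, (cs (g v) : ℤ) := by
      rw [← hFI]
      exact Finset.sum_le_sum fun v _ => hloc v
    linarith
  have hall0 := (Finset.sum_eq_zero_iff_of_nonneg (fun v _ => sub_nonneg.mpr (hloc v))).mp hzero
  have hv : v.1.ord y = (cs (g v) : ℤ) := by
    have := hall0 v (Finset.mem_univ v)
    linarith
  have h2 := hclass (qv v)
  rw [hcs_eq] at h2
  rw [hv, ← h2]
  push_cast
  rfl

/-- **(G2)** In the setting of `PlaceCount.card_places_eq_card_quotient`, the local bound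
`s q · ord_v y ≤ m` is an equality, for EVERY pair `(v, q)` with `O_v = (L q)⁻¹ O_w`. -/
theorem mul_ord_eq
    [Finite {v : Place K F // y ∈ v.toValuationSubring.nonunits}]
    (hFI : ∑ᶠ v : {v : Place K F // y ∈ v.toValuationSubring.nonunits}, v.1.ord y
      = Fintype.card Q)
    (hall : ∀ v : Place K F, y ∈ v.toValuationSubring.nonunits →
      ∃ q, v.toValuationSubring = w.valuationSubring.comap (L q))
    (m : ℕ) (hm0 : 0 < m) (hm : ∀ q, w (L q y) = exp (-(m : ℤ)))
    (r : Setoid Q) (hsame : ∀ q q', r q q' →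
      w.valuationSubring.comap (L q) = w.valuationSubring.comap (L q'))
    (s : Q → ℕ) (hs : ∀ q f, f ≠ 0 → ((s q : ℕ) : ℤ) ∣ log (w (L q f)))
    (hclass : ∀ q, s q * Nat.card {q' // r q q'} = m)
    (v : Place K F) (hy : y ∈ v.toValuationSubring.nonunits) (q : Q)
    (hq : v.toValuationSubring = w.valuationSubring.comap (L q)) :
    ((s q : ℕ) : ℤ) * v.ord y = m := by
  classical
  choose qv₀ hqv₀ using fun v : {v : Place K F // y ∈ v.toValuationSubring.nonunits} =>
    hall v.1 v.2
  set v' : {v : Place K F // y ∈ v.toValuationSubring.nonunits} := ⟨v, hy⟩ with hv'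
  have hqv : ∀ u : {v : Place K F // y ∈ v.toValuationSubring.nonunits},
      u.1.toValuationSubring = w.valuationSubring.comap (L (Function.update qv₀ v' q u)) := by
    intro u
    by_cases hu : u = v'
    · subst hu
      rw [Function.update_self]
      exact hq
    · rw [Function.update_of_ne hu]
      exact hqv₀ u
  have h := mul_ord_eq_of_choice (K := K) w L y hFI m hm r hsame s hs hclass hm0
    (Function.update qv₀ v' q) hqv v'
  rwa [Function.update_self] at h

/-- **Exact ramification**: in the setting of `PlaceCount.card_places_eq_card_quotient`,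
`log w(L q f) = - s q · ord_v f` for every `f ≠ 0` and every pair `(v, q)` with
`O_v = (L q)⁻¹ O_w`, `y ∈ m_v`. -/
theorem log_eq_neg_mul_ord
    [Finite {v : Place K F // y ∈ v.toValuationSubring.nonunits}]
    (hFI : ∑ᶠ v : {v : Place K F // y ∈ v.toValuationSubring.nonunits}, v.1.ord y
      = Fintype.card Q)
    (hall : ∀ v : Place K F, y ∈ v.toValuationSubring.nonunits →
      ∃ q, v.toValuationSubring = w.valuationSubring.comap (L q))
    (m : ℕ) (hm0 : 0 < m) (hm : ∀ q, w (L q y) = exp (-(m : ℤ)))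
    (r : Setoid Q) (hsame : ∀ q q', r q q' →
      w.valuationSubring.comap (L q) = w.valuationSubring.comap (L q'))
    (s : Q → ℕ) (hs : ∀ q f, f ≠ 0 → ((s q : ℕ) : ℤ) ∣ log (w (L q f)))
    (hclass : ∀ q, s q * Nat.card {q' // r q q'} = m)
    (v : Place K F) (hy : y ∈ v.toValuationSubring.nonunits) (q : Q)
    (hq : v.toValuationSubring = w.valuationSubring.comap (L q)) (f : F) (hf : f ≠ 0) :
    log (w (L q f)) = -(((s q : ℕ) : ℤ) * v.ord f) := by
  have hy0 : y ≠ 0 := by
    rintro rfl
    have := hm q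
    rw [map_zero, map_zero] at this
    exact exp_ne_zero this.symm
  obtain ⟨e, he0, he⟩ := exists_log_eq v w (L q) hq
  have h1 := mul_ord_eq (K := K) w L y hFI hall m hm0 hm r hsame s hs hclass v hy q hq
  have h2 := he y hy0
  rw [hm q, log_exp] at h2
  have hpos : 0 < v.ord y := ord_pos_of_mem_nonunits v hy0 hy
  have hes : (e : ℤ) = (s q : ℤ) := by
    have h3 : (e : ℤ) * v.ord y = (s q : ℤ) * v.ord y := by linarith
    exact mul_right_cancel₀ hpos.ne' h3
  rw [he f hf, hes]

/-- **Exact ramification, orbit form**: in the setting of `PlaceCount.card_places_eq_card_orbits`,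
`#orbit(q) · log w(L q f) = - m · ord_v f`. -/
theorem card_orbit_mul_log_eq {G : Type*} [Group G] [MulAction G Q] (d : G)
    [Finite {v : Place K F // y ∈ v.toValuationSubring.nonunits}]
    (hFI : ∑ᶠ v : {v : Place K F // y ∈ v.toValuationSubring.nonunits}, v.1.ord y
      = Fintype.card Q)
    (hall : ∀ v : Place K F, y ∈ v.toValuationSubring.nonunits →
      ∃ q, v.toValuationSubring = w.valuationSubring.comap (L q))
    (m : ℕ) (hm0 : 0 < m) (hm : ∀ q, w (L q y) = exp (-(m : ℤ)))
    (hsame : ∀ q : Q, w.valuationSubring.comap (L (d • q)) = w.valuationSubring.comap (L q))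
    (hdvd : ∀ q : Q, Nat.card (MulAction.orbit (Subgroup.zpowers d) q) ∣ m)
    (hs : ∀ (q : Q) (f : F), f ≠ 0 →
      (m : ℤ) ∣ (Nat.card (MulAction.orbit (Subgroup.zpowers d) q) : ℤ) * log (w (L q f)))
    (v : Place K F) (hy : y ∈ v.toValuationSubring.nonunits) (q : Q)
    (hq : v.toValuationSubring = w.valuationSubring.comap (L q)) (f : F) (hf : f ≠ 0) :
    (Nat.card (MulAction.orbit (Subgroup.zpowers d) q) : ℤ) * log (w (L q f)) =
      -((m : ℤ) * v.ord f) := by
  classical
  have hsameZ : ∀ (k : ℤ) (q : Q),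
      w.valuationSubring.comap (L (d ^ k • q)) = w.valuationSubring.comap (L q) := by
    intro k
    induction k using Int.induction_on with
    | zero => intro q; simp
    | succ i ih => intro q; rw [zpow_add_one, mul_smul, ih, hsame]
    | pred i ih =>
      intro q
      rw [zpow_sub_one, mul_smul, ih]
      have := hsame (d⁻¹ • q)
      rw [smul_inv_smul] at this
      exact this.symm
  have horb_pos : ∀ q : Q, 0 < Nat.card (MulAction.orbit (Subgroup.zpowers d) q) := fun q =>
    Nat.card_pos_iff.mpr ⟨⟨⟨q, MulAction.mem_orbit_self q⟩⟩, inferInstance⟩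
  have key := log_eq_neg_mul_ord (K := K) w L y hFI hall m hm0 hm
    (MulAction.orbitRel (Subgroup.zpowers d) Q)
    (by
      intro q q' h
      rw [MulAction.orbitRel_apply] at h
      obtain ⟨⟨g, hg⟩, rfl⟩ := h
      obtain ⟨k, rfl⟩ := Subgroup.mem_zpowers_iff.mp hg
      exact hsameZ k q')
    (fun q => m / Nat.card (MulAction.orbit (Subgroup.zpowers d) q))
    (by
      intro q f hf
      obtain ⟨c, hc⟩ := hdvd q
      have h1 := hs q f hf
      have hdiv : m / Nat.card (MulAction.orbit (Subgroup.zpowers d) q) = c := by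
        rw [hc]; exact Nat.mul_div_cancel_left c (horb_pos q)
      rw [hdiv]
      rw [hc] at h1
      push_cast at h1
      exact (mul_dvd_mul_iff_left (by exact_mod_cast (horb_pos q).ne')).mp h1)
    (by
      intro q
      have hcard : Nat.card {q' // (MulAction.orbitRel (Subgroup.zpowers d) Q) q q'}
          = Nat.card (MulAction.orbit (Subgroup.zpowers d) q) := by
        refine Nat.card_congr (Equiv.subtypeEquivRight fun q' => ?_)
        rw [MulAction.orbitRel_apply]
        constructor
        · intro h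
          exact (MulAction.orbitRel (Subgroup.zpowers d) Q).symm
            (show (MulAction.orbitRel (Subgroup.zpowers d) Q) q q' from h)
        · intro h
          exact (MulAction.orbitRel (Subgroup.zpowers d) Q).symm
            (show (MulAction.orbitRel (Subgroup.zpowers d) Q) q' q from h)
      rw [hcard]
      exact Nat.div_mul_cancel (hdvd q))
    v hy q hq f hf
  rw [key]
  obtain ⟨c, hc⟩ := hdvd q
  have hdiv : m / Nat.card (MulAction.orbit (Subgroup.zpowers d) q) = c := by
    rw [hc]; exact Nat.mul_div_cancel_left c (horb_pos q)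
  rw [hdiv]
  conv_rhs => rw [hc]
  push_cast
  ring

end Count

/-! ### (G3) the two divisibility transfers -/

/-- injectivity side: `n ∣ ord_v f` gives `n · s ∣ log w(ℓ f)` -/
theorem mul_dvd_log_of_dvd_ord {v : Place K F} {w : Valuation Om ℤᵐ⁰} {ℓ : F →+* Om} {s : ℕ}
    {f : F} (h : log (w (ℓ f)) = -(((s : ℕ) : ℤ) * v.ord f)) {n : ℤ} (hn : n ∣ v.ord f) :
    n * (s : ℤ) ∣ log (w (ℓ f)) := by
  obtain ⟨c, hc⟩ := hn
  rw [h, hc]
  exact ⟨-c, by ring⟩

/-- surjectivity side: `n · s ∣ log w(ℓ f)` gives `n ∣ ord_v f` -/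
theorem dvd_ord_of_mul_dvd_log {v : Place K F} {w : Valuation Om ℤᵐ⁰} {ℓ : F →+* Om} {s : ℕ}
    (hs : 0 < s) {f : F} (h : log (w (ℓ f)) = -(((s : ℕ) : ℤ) * v.ord f)) {n : ℤ}
    (hn : n * (s : ℤ) ∣ log (w (ℓ f))) : n ∣ v.ord f := by
  obtain ⟨c, hc⟩ := hn
  rw [h] at hc
  have hs' : ((s : ℕ) : ℤ) ≠ 0 := by exact_mod_cast hs.ne'
  refine ⟨-c, ?_⟩
  have : ((s : ℕ) : ℤ) * v.ord f = (s : ℤ) * (n * -c) := by linarith
  exact mul_left_cancel₀ hs' this

end Fermat.Agent.S30.Analytic.PlaceDict
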