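import Mathlib
import Fermat.Prelude.Def_AlgebraicCurve_DivisorClassGroup

/-!
# PROJECT J (S30), slice J-1 (D0): places obtained by pulling back a discrete valuation (helper27)

Generic (Mathlib + the Prelude's `AlgebraicCurve.Place`).  `F/K` a field extension, `Om` a field with
a `ℤᵐ⁰`-valued valuation `w`, `ℓ : F →+* Om` a ring homomorphism with `w ∘ ℓ ≤ 1` on `K` and
`w (ℓ f) ≠ 1` for some `f ≠ 0`.

* `comapPlace w ℓ hK hnt : Place K F`, with valuation subring `w.valuationSubring.comap ℓ`;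
* `exists_ramification` : if `O_v = w.valuationSubring.comap ℓ` there is `e ≥ 1` with
  `log (w (ℓ f)) = -(e * ord_v f)` for all `f ≠ 0` (and `log (w (ℓ π)) = -e` for some `π`);
* `ord_eq_zero_iff_of_comap`.
-/

set_option autoImplicit false

noncomputable section

open AlgebraicCurve WithZero

namespace Fermat.Agent.S30.Analytic.ComapPlace

variable {K F Om : Type*} [Field K] [Field F] [Algebra K F] [Field Om]

theorem coe_units_inv' (A : ValuationSubring F) (u : Aˣ) :
    (((u⁻¹ : Aˣ) : A) : F) = ((u : A) : F)⁻¹ := by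
  have h : ((u : A) : F) * (((u⁻¹ : Aˣ) : A) : F) = 1 := by
    have h1 : ((u : A) * ((u⁻¹ : Aˣ) : A) : A) = 1 := u.mul_inv
    have h2 := congrArg (fun z : A => (z : F)) h1
    simpa only [MulMemClass.coe_mul, OneMemClass.coe_one] using h2
  exact eq_inv_of_mul_eq_one_right h

/-- the pulled-back valuation is nontrivial -/
theorem nontrivial_valueGroup_comap (w : Valuation Om ℤᵐ⁰) (ℓ : F →+* Om)
    (hnt : ∃ f : F, f ≠ 0 ∧ w (ℓ f) ≠ 1) :
    Nontrivial (MonoidWithZeroHom.valueGroup (.ofClass (w.comap ℓ))) := by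
  obtain ⟨f, hf0, hf1⟩ := hnt
  have hne : (w.comap ℓ) f ≠ 0 := by
    rw [Valuation.comap_apply, ne_eq, Valuation.zero_iff]
    exact (map_ne_zero ℓ).mpr hf0
  refine ⟨⟨⟨Units.mk0 ((w.comap ℓ) f) hne,
    MonoidWithZeroHom.mem_valueGroup _ ⟨f, rfl⟩⟩, 1, ?_⟩⟩
  intro h
  apply hf1
  have h1 := congrArg (fun x : MonoidWithZeroHom.valueGroup (.ofClass (w.comap ℓ)) =>
    ((x : (ℤᵐ⁰)ˣ) : ℤᵐ⁰)) h
  simpa using h1

/-- **The place of `F` obtained by pulling back the valuation `w` along `ℓ`.** -/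
def comapPlace (w : Valuation Om ℤᵐ⁰) (ℓ : F →+* Om)
    (hK : ∀ c : K, w (ℓ (algebraMap K F c)) ≤ 1) (hnt : ∃ f : F, f ≠ 0 ∧ w (ℓ f) ≠ 1) :
    Place K F where
  toValuationSubring := w.valuationSubring.comap ℓ
  algebraMap_mem' := fun c => by
    rw [ValuationSubring.mem_comap, Valuation.mem_valuationSubring_iff]
    exact hK c
  ne_top' := by
    obtain ⟨f, hf0, hf1⟩ := hnt
    intro htop
    have hmem : ∀ z : F, w (ℓ z) ≤ 1 := by
      intro z
      have : z ∈ w.valuationSubring.comap ℓ := by rw [htop]; trivial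
      rwa [ValuationSubring.mem_comap, Valuation.mem_valuationSubring_iff] at this
    have h1 := hmem f
    have h2 := hmem f⁻¹
    rw [map_inv₀, map_inv₀] at h2
    have hne : w (ℓ f) ≠ 0 := by
      rw [ne_eq, Valuation.zero_iff]
      exact (map_ne_zero ℓ).mpr hf0
    have h3 : 1 ≤ w (ℓ f) := (inv_le_one₀ (zero_lt_iff.mpr hne)).mp h2
    exact hf1 (le_antisymm h1 h3)
  isPrincipalIdealRing' := by
    have := nontrivial_valueGroup_comap w ℓ hnt
    exact Valuation.valuationSubring_isPrincipalIdealRing (w.comap ℓ)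

@[simp]
theorem comapPlace_toValuationSubring (w : Valuation Om ℤᵐ⁰) (ℓ : F →+* Om)
    (hK : ∀ c : K, w (ℓ (algebraMap K F c)) ≤ 1) (hnt : ∃ f : F, f ≠ 0 ∧ w (ℓ f) ≠ 1) :
    (comapPlace w ℓ hK hnt).toValuationSubring = w.valuationSubring.comap ℓ := rfl

/-- **The ramification index of a pulled-back place.** -/
theorem exists_ramification (v : Place K F) (w : Valuation Om ℤᵐ⁰) (ℓ : F →+* Om)
    (hv : v.toValuationSubring = w.valuationSubring.comap ℓ) :
    ∃ e : ℕ, 0 < e ∧ (∃ π : F, π ≠ 0 ∧ log (w (ℓ π)) = -(e : ℤ)) ∧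
      ∀ f : F, f ≠ 0 → log (w (ℓ f)) = -((e : ℤ) * v.ord f) := by
  have hmem : ∀ z : F, z ∈ v.toValuationSubring ↔ w (ℓ z) ≤ 1 := by
    intro z
    rw [hv, ValuationSubring.mem_comap, Valuation.mem_valuationSubring_iff]
  have hne : ∀ z : F, z ≠ 0 → w (ℓ z) ≠ 0 := by
    intro z hz
    rw [ne_eq, Valuation.zero_iff]
    exact (map_ne_zero ℓ).mpr hz
  obtain ⟨π, hπ⟩ := IsDiscreteValuationRing.exists_irreducible v.toValuationSubring
  have hπ0 : (π : F) ≠ 0 := by
    simpa [ne_eq, ZeroMemClass.coe_eq_zero] using hπ.ne_zero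
  -- units have valuation one
  have hu1 : ∀ u : v.toValuationSubringˣ, w (ℓ ((u : v.toValuationSubring) : F)) = 1 := by
    intro u
    apply le_antisymm
    · exact (hmem _).mp (Subtype.mem _)
    · have h2 := (hmem _).mp (Subtype.mem ((u⁻¹ : v.toValuationSubringˣ) : v.toValuationSubring))
      rw [coe_units_inv', map_inv₀, map_inv₀] at h2
      have hu0 : w (ℓ ((u : v.toValuationSubring) : F)) ≠ 0 :=
        hne _ (by simp [ne_eq, ZeroMemClass.coe_eq_zero])
      exact (inv_le_one₀ (zero_lt_iff.mpr hu0)).mp h2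
  -- `w (ℓ π) < 1`
  have hπ1 : w (ℓ (π : F)) < 1 := by
    refine lt_of_le_of_ne ((hmem _).mp π.2) ?_
    intro h1
    have h3 : ((π : F))⁻¹ ∈ v.toValuationSubring := by
      rw [hmem, map_inv₀, map_inv₀, h1, inv_one]
    apply hπ.not_isUnit
    refine IsUnit.of_mul_eq_one (⟨((π : F))⁻¹, h3⟩ : v.toValuationSubring) ?_
    apply Subtype.ext
    simp [hπ0]
  set t := w (ℓ (π : F)) with ht
  have ht0 : t ≠ 0 := hne _ hπ0
  have hlog : log t < 0 := by
    rw [log_lt_iff_lt_exp ht0, exp_zero]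
    exact hπ1
  obtain ⟨e, he⟩ : ∃ e : ℕ, -log t = (e : ℤ) :=
    Int.eq_ofNat_of_zero_le (by omega)
  refine ⟨e, by omega, ⟨(π : F), hπ0, by rw [← he, ← ht, neg_neg]⟩, fun f hf => ?_⟩
  obtain ⟨u, hu⟩ := v.exists_unit_mul_zpow hf hπ
  have h4 : w (ℓ f) = t ^ (v.ord f) := by
    conv_lhs => rw [hu]
    rw [map_mul, map_mul, hu1, one_mul, map_zpow₀, map_zpow₀]
  rw [h4, log_zpow, smul_eq_mul, ← he]
  ring

/-- orders vanish exactly at the `w`-units -/
theorem ord_eq_zero_iff_of_comap (v : Place K F) (w : Valuation Om ℤᵐ⁰) (ℓ : F →+* Om)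
    (hv : v.toValuationSubring = w.valuationSubring.comap ℓ) {f : F} (hf : f ≠ 0) :
    v.ord f = 0 ↔ w (ℓ f) = 1 := by
  obtain ⟨e, he, -, hef⟩ := exists_ramification v w ℓ hv
  have hne : w (ℓ f) ≠ 0 := by
    rw [ne_eq, Valuation.zero_iff]
    exact (map_ne_zero ℓ).mpr hf
  have h1 := hef f hf
  constructor
  · intro h0
    rw [h0, mul_zero, neg_zero] at h1
    have := congrArg exp h1
    rwa [exp_log hne, exp_zero] at this
  · intro h0
    rw [h0, log_one] at h1
    have : (e : ℤ) * v.ord f = 0 := by omega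
    rcases mul_eq_zero.mp this with h2 | h2
    · omega
    · exact h2

end Fermat.Agent.S30.Analytic.ComapPlace
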