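import Mathlib
import Fermat.Agent.S30.Analytic.Character

/-!
# PROJECT J (S30), slice J-1 (L): the value of a character at elliptic and parabolic elements
(helper27)

Function-level, Mathlib-only (+ `Analytic/Roots`, `Analytic/Character`).

* `coe_smul_sub_coe_smul` : `σ z - σ w = (z - w) / (denom σ z * denom σ w)`;
* **`eq_denom_zpow_of_fixed`** : `G` holomorphic on `ℍ` of finite order `m` at `τ`,
  `G ∣[k] σ = c • G`, `σ τ = τ` `⟹ c = (denom σ τ) ^ (-k - 2 * m)`;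
* `denom_mul_SL`, `denom_pow_of_fixed`, `denom_pow_two_mul_eq_one` (`σ ^ e = ± 1`),
  `eq_of_denom_eq_of_fixed` (the automorphy factor is injective on the stabiliser);
* `HasChar.apply_eq_of_fixed`, **`IsRootChar.apply_eq_one_of_fixed`** : the root character of
  `a * b ^ (n - 1)` is trivial at an elliptic `γ` fixing `τ` when `n e ∣ ord_τ a - ord_τ b`;
* `cuspOrd h f` (order at `i∞` in the parameter `q_h`), `cuspOrd_ne_top`, `cuspOrd_mul`,
  `cuspOrd_pow`;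
* **`eq_exp_of_vadd`** : `G (z + h) = c * G z`, `c ^ n = 1`, `G` bounded at `i∞`
  `⟹ c = exp (2 π i r / n)`, `r = cuspOrd h (G ^ n)`;
* `HasChar.apply_eq_exp_of_parabolic`, **`IsRootChar.apply_eq_one_of_parabolic`** : the root
  character of `a * b ^ (n - 1)` is trivial at `γ = σ T ^ w σ⁻¹` when
  `n ∣ cuspOrd w (a ∣[k] σ) - cuspOrd w (b ∣[k] σ)`;
* `HasChar.apply_neg_one`.
-/

set_option autoImplicit false

noncomputable section

namespace Fermat.Agent.S30.Analytic.Local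

open UpperHalfPlane ModularForm Filter Topology Function
open scoped Manifold MatrixGroups ModularForm Real

open Fermat.Agent.S30.Analytic.Character

/-! ### Möbius transformations -/

theorem denom_SL_apply (σ : SL(2, ℤ)) (z : ℂ) :
    denom (σ : GL (Fin 2) ℝ) z = ((σ 1 0 : ℤ) : ℂ) * z + ((σ 1 1 : ℤ) : ℂ) := by
  simp [denom]

theorem det_SL_complex (σ : SL(2, ℤ)) :
    ((σ 0 0 : ℤ) : ℂ) * ((σ 1 1 : ℤ) : ℂ) - ((σ 0 1 : ℤ) : ℂ) * ((σ 1 0 : ℤ) : ℂ) = 1 := by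
  have h := σ.det_coe
  rw [Matrix.det_fin_two] at h
  exact_mod_cast h

/-- the difference formula for Möbius transformations -/
theorem coe_smul_sub_coe_smul (σ : SL(2, ℤ)) (z w : ℍ) :
    ((σ • z : ℍ) : ℂ) - ((σ • w : ℍ) : ℂ) =
      ((z : ℂ) - w) / (denom (σ : GL (Fin 2) ℝ) z * denom (σ : GL (Fin 2) ℝ) w) := by
  have hz : denom (σ : GL (Fin 2) ℝ) z ≠ 0 := denom_ne_zero _ z
  have hw : denom (σ : GL (Fin 2) ℝ) w ≠ 0 := denom_ne_zero _ w
  rw [denom_SL_apply] at hz hw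
  rw [coe_specialLinearGroup_apply, coe_specialLinearGroup_apply, denom_SL_apply, denom_SL_apply]
  simp only [algebraMap_int_eq, eq_intCast, Complex.ofReal_intCast]
  rw [div_sub_div _ _ hz hw]
  congr 1
  linear_combination ((z : ℂ) - w) * det_SL_complex σ

/-- the Möbius transformation as a function on `ℂ` -/
def mobC (σ : SL(2, ℤ)) : ℂ → ℂ := fun z => ((σ • ofComplex z : ℍ) : ℂ)

theorem mobC_coe (σ : SL(2, ℤ)) (z : ℍ) : mobC σ (z : ℂ) = ((σ • z : ℍ) : ℂ) := by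
  rw [mobC, ofComplex_apply]

theorem continuousAt_mobC (σ : SL(2, ℤ)) (τ : ℍ) : ContinuousAt (mobC σ) (τ : ℂ) := by
  have h : AnalyticAt ℂ (fun z => ((((σ : GL (Fin 2) ℝ)) • ofComplex z : ℍ) : ℂ)) (τ : ℂ) :=
    UpperHalfPlane.analyticAt_smul (by
      have hdet : ((σ : GL (Fin 2) ℝ)).val.det = 1 := by
        rw [← Matrix.GeneralLinearGroup.val_det_apply]; simp
      rw [hdet]; exact one_pos) τ
  exact h.continuousAt

theorem continuousAt_denom (σ : SL(2, ℤ)) (z₀ : ℂ) :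
    ContinuousAt (fun z : ℂ => denom (σ : GL (Fin 2) ℝ) z) z₀ := by
  simp only [denom_SL_apply]
  fun_prop

/-! ### the value of a character at an elliptic element -/

/-- **Local computation at a fixed point.**  If `G ∣[k] σ = c • G` and `σ τ = τ` then
`c = (denom σ τ) ^ (-k - 2 * ord_τ G)`. -/
theorem eq_denom_zpow_of_fixed {G : ℍ → ℂ} (hG : MDiff G) {k : ℤ} {σ : SL(2, ℤ)} {c : ℂ}
    (hσ : G ∣[k] σ = c • G) {τ : ℍ} (hfix : σ • τ = τ) {m : ℕ} (hm : ordAt G τ = (m : ℕ∞)) :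
    c = denom (σ : GL (Fin 2) ℝ) τ ^ (-k - 2 * (m : ℤ)) := by
  set A : ℂ → ℂ := G ∘ ofComplex with hA
  have hAan : AnalyticAt ℂ A (τ : ℂ) := analyticOnNhd_comp_ofComplex hG _ τ.im_pos
  obtain ⟨v, hv, hv0, hAv⟩ := (hAan.analyticOrderAt_eq_natCast (n := m)).1 hm
  set D : ℂ → ℂ := fun z => denom (σ : GL (Fin 2) ℝ) z with hD
  have hDτ : D τ ≠ 0 := denom_ne_zero _ τ
  have hDc : ContinuousAt D (τ : ℂ) := continuousAt_denom σ τ
  have hgτ : mobC σ (τ : ℂ) = τ := by rw [mobC_coe, hfix]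
  have hgc : ContinuousAt (mobC σ) (τ : ℂ) := continuousAt_mobC σ τ
  have hgt : Tendsto (mobC σ) (𝓝 (τ : ℂ)) (𝓝 (τ : ℂ)) := by
    have := hgc.tendsto
    rwa [hgτ] at this
  have hAvg : ∀ᶠ z in 𝓝 (τ : ℂ), A (mobC σ z) = (mobC σ z - τ) ^ m • v (mobC σ z) :=
    hgt.eventually hAv
  have hDne : ∀ᶠ z in 𝓝 (τ : ℂ), D z ≠ 0 := hDc.eventually_ne hDτ
  -- the key identity on a punctured neighbourhood
  have hkey : ∀ᶠ z in 𝓝[≠] (τ : ℂ),
      ((D z * D τ)⁻¹) ^ m * v (mobC σ z) * D z ^ (-k) = c * v z := by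
    filter_upwards [hAv.filter_mono nhdsWithin_le_nhds, hAvg.filter_mono nhdsWithin_le_nhds,
      hDne.filter_mono nhdsWithin_le_nhds, self_mem_nhdsWithin,
      mem_nhdsWithin_of_mem_nhds (isOpen_upperHalfPlaneSet.mem_nhds τ.im_pos)] with z h1 h2 h3 h4 h5
    have hz : 0 < z.im := h5
    have h4' : z - τ ≠ 0 := sub_ne_zero.2 h4
    have e1 : ofComplex z = ⟨z, hz⟩ := ofComplex_apply_of_im_pos hz
    have h6 := congrFun hσ (ofComplex z)
    rw [SL_slash_apply, Pi.smul_apply, smul_eq_mul] at h6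
    have h7 : G (σ • ofComplex z) = A (mobC σ z) := by
      rw [hA, Function.comp_apply, mobC, ofComplex_apply]
    have h8 : G (ofComplex z) = A z := rfl
    have h9 : mobC σ z - τ = (z - τ) / (D z * D τ) := by
      have := coe_smul_sub_coe_smul σ (ofComplex z) τ
      rw [hfix] at this
      rw [mobC, this, e1]
    have h10 : denom (σ : GL (Fin 2) ℝ) (ofComplex z) = D z := by
      rw [e1]
    rw [h7, h8, h2, h1, h9, h10, smul_eq_mul, smul_eq_mul, div_pow] at h6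
    have h11 : (z - τ) ^ m ≠ 0 := pow_ne_zero m h4'
    apply mul_left_cancel₀ h11
    rw [show (z - ↑τ) ^ m * (c * v z) = c * ((z - ↑τ) ^ m * v z) by ring, ← h6, inv_pow]
    field_simp
  -- limits
  have hL : Tendsto (fun z => ((D z * D τ)⁻¹) ^ m * v (mobC σ z) * D z ^ (-k)) (𝓝[≠] (τ : ℂ))
      (𝓝 (((D τ * D τ)⁻¹) ^ m * v (τ : ℂ) * D τ ^ (-k))) := by
    have h1 : ContinuousAt (fun z => ((D z * D τ)⁻¹) ^ m) (τ : ℂ) :=
      ((hDc.mul continuousAt_const).inv₀ (mul_ne_zero hDτ hDτ)).pow m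
    have h2 : ContinuousAt (fun z => v (mobC σ z)) (τ : ℂ) := by
      have : ContinuousAt v (mobC σ (τ : ℂ)) := by rw [hgτ]; exact hv.continuousAt
      exact ContinuousAt.comp (g := v) this hgc
    have h3 : ContinuousAt (fun z => D z ^ (-k)) (τ : ℂ) :=
      (continuousAt_zpow₀ (D τ) (-k) (Or.inl hDτ)).comp hDc
    have h4 : ContinuousAt (fun z => ((D z * D τ)⁻¹) ^ m * v (mobC σ z) * D z ^ (-k)) (τ : ℂ) :=
      (h1.mul h2).mul h3
    have h5 := h4.tendsto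
    simp only [hgτ] at h5
    exact h5.mono_left nhdsWithin_le_nhds
  have hR : Tendsto (fun z => c * v z) (𝓝[≠] (τ : ℂ)) (𝓝 (c * v (τ : ℂ))) :=
    ((continuousAt_const.mul hv.continuousAt).tendsto).mono_left nhdsWithin_le_nhds
  have huniq := tendsto_nhds_unique (hL.congr' hkey) hR
  have h12 : c = ((D τ * D τ)⁻¹) ^ m * D τ ^ (-k) := by
    apply mul_right_cancel₀ hv0
    rw [← huniq]
    ring
  rw [h12, sub_eq_add_neg, zpow_add₀ hDτ, mul_comm]
  congr 1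
  rw [← mul_neg, zpow_mul, zpow_neg, ← zpow_natCast, ← inv_zpow]
  congr 2
  rw [zpow_ofNat, sq]


/-! ### cocycle lemmas -/

theorem coe_mul_GL (g h : SL(2, ℤ)) :
    ((g * h : SL(2, ℤ)) : GL (Fin 2) ℝ) = (g : GL (Fin 2) ℝ) * (h : GL (Fin 2) ℝ) := by
  simp

theorem denom_mul_SL (g h : SL(2, ℤ)) (z : ℍ) :
    denom ((g * h : SL(2, ℤ)) : GL (Fin 2) ℝ) z =
      denom (g : GL (Fin 2) ℝ) ((h • z : ℍ) : ℂ) * denom (h : GL (Fin 2) ℝ) z := by
  rw [coe_mul_GL, denom_cocycle _ _ z.im_ne_zero]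
  congr 2
  have hdet : 0 < ((h : GL (Fin 2) ℝ)).det.val := by simp
  exact (coe_smul_of_det_pos hdet z).symm

theorem denom_one_SL (z : ℂ) : denom ((1 : SL(2, ℤ)) : GL (Fin 2) ℝ) z = 1 := by
  simp [denom]

theorem denom_neg_one_SL (z : ℂ) : denom ((-1 : SL(2, ℤ)) : GL (Fin 2) ℝ) z = -1 := by
  simp [denom]

theorem pow_smul_of_fixed {σ : SL(2, ℤ)} {τ : ℍ} (hfix : σ • τ = τ) (e : ℕ) : (σ ^ e) • τ = τ := by
  induction e with
  | zero => rw [pow_zero, one_smul]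
  | succ m ih => rw [pow_succ, mul_smul, hfix, ih]

/-- at a fixed point the automorphy factor is multiplicative -/
theorem denom_pow_of_fixed {σ : SL(2, ℤ)} {τ : ℍ} (hfix : σ • τ = τ) (e : ℕ) :
    denom ((σ ^ e : SL(2, ℤ)) : GL (Fin 2) ℝ) τ = denom (σ : GL (Fin 2) ℝ) τ ^ e := by
  induction e with
  | zero => rw [pow_zero, pow_zero, denom_one_SL]
  | succ m ih => rw [pow_succ, denom_mul_SL, hfix, ih, pow_succ]

/-- if `σ ^ e = ± 1` and `σ τ = τ` then `(denom σ τ) ^ (2 e) = 1` -/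
theorem denom_pow_two_mul_eq_one {σ : SL(2, ℤ)} {τ : ℍ} (hfix : σ • τ = τ) {e : ℕ}
    (he : σ ^ e = 1 ∨ σ ^ e = -1) : denom (σ : GL (Fin 2) ℝ) τ ^ (2 * e) = 1 := by
  rw [mul_comm, pow_mul, ← denom_pow_of_fixed hfix]
  rcases he with he | he
  · rw [he, denom_one_SL, one_pow]
  · rw [he, denom_neg_one_SL]
    norm_num

/-- the automorphy factor at `τ` determines an element of the stabiliser of `τ` -/
theorem eq_of_denom_eq_of_fixed {σ σ' : SL(2, ℤ)} {τ : ℍ} (hfix : σ • τ = τ) (hfix' : σ' • τ = τ)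
    (h : denom (σ : GL (Fin 2) ℝ) τ = denom (σ' : GL (Fin 2) ℝ) τ) : σ = σ' := by
  have him : (τ : ℂ).im ≠ 0 := τ.im_ne_zero
  -- the lower rows agree
  rw [denom_SL_apply, denom_SL_apply] at h
  have hc : σ 1 0 = σ' 1 0 := by
    have h1 := congrArg Complex.im h
    simp only [Complex.add_im, Complex.mul_im, Complex.intCast_re, Complex.intCast_im, zero_mul,
      add_zero] at h1
    have h2 : ((σ 1 0 : ℤ) : ℝ) = ((σ' 1 0 : ℤ) : ℝ) := by
      have := mul_right_cancel₀ him h1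
      exact this
    exact_mod_cast h2
  have hd : σ 1 1 = σ' 1 1 := by
    rw [hc] at h
    have h1 := add_left_cancel h
    exact_mod_cast h1
  -- the upper rows agree, from the fixed point equations
  have e1 := congrArg (fun w : ℍ => (w : ℂ)) hfix
  have e2 := congrArg (fun w : ℍ => (w : ℂ)) hfix'
  simp only [coe_specialLinearGroup_apply, algebraMap_int_eq, eq_intCast, Complex.ofReal_intCast]
    at e1 e2
  have hden : ((σ 1 0 : ℤ) : ℂ) * τ + ((σ 1 1 : ℤ) : ℂ) ≠ 0 := by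
    rw [← denom_SL_apply]; exact denom_ne_zero _ τ
  have hden' : ((σ' 1 0 : ℤ) : ℂ) * τ + ((σ' 1 1 : ℤ) : ℂ) ≠ 0 := by
    rw [← denom_SL_apply]; exact denom_ne_zero _ τ
  rw [div_eq_iff hden] at e1
  rw [div_eq_iff hden'] at e2
  rw [← hc, ← hd] at e2
  have e3 : ((σ 0 0 : ℤ) : ℂ) * τ + ((σ 0 1 : ℤ) : ℂ) = ((σ' 0 0 : ℤ) : ℂ) * τ + ((σ' 0 1 : ℤ) : ℂ) := by
    rw [e1, e2]
  have ha : σ 0 0 = σ' 0 0 := by
    have h1 := congrArg Complex.im e3
    simp only [Complex.add_im, Complex.mul_im, Complex.intCast_re, Complex.intCast_im, zero_mul,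
      add_zero] at h1
    have h2 : ((σ 0 0 : ℤ) : ℝ) = ((σ' 0 0 : ℤ) : ℝ) := mul_right_cancel₀ him h1
    exact_mod_cast h2
  have hb : σ 0 1 = σ' 0 1 := by
    rw [ha] at e3
    have h1 := add_left_cancel e3
    exact_mod_cast h1
  ext i j
  fin_cases i <;> fin_cases j
  · exact ha
  · exact hb
  · exact hc
  · exact hd

/-! ### triviality of characters at elliptic elements -/

section elliptic

variable {Γ : Subgroup SL(2, ℤ)} {k : ℤ} {G : ℍ → ℂ} {ψ : Γ →* ℂˣ}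

theorem ordAt_ne_top {f : ℍ → ℂ} (hf : MDiff f) (hf0 : f ≠ 0) (τ : ℍ) : ordAt f τ ≠ ⊤ := by
  obtain ⟨τ₀, hτ₀⟩ : ∃ τ₀, f τ₀ ≠ 0 := by
    by_contra hcon
    exact hf0 (funext fun τ => by_contra fun h => hcon ⟨τ, h⟩)
  exact Roots.analyticOrderAt_ne_top isPreconnected_upperHalfPlaneSet
    (analyticOnNhd_comp_ofComplex hf) ⟨(τ₀ : ℂ), τ₀.im_pos, by rwa [comp_ofComplex_coe]⟩ τ.im_pos

theorem ordAt_mul {f g : ℍ → ℂ} (hf : MDiff f) (hg : MDiff g) (τ : ℍ) :
    ordAt (f * g) τ = ordAt f τ + ordAt g τ :=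
  analyticOrderAt_mul (analyticOnNhd_comp_ofComplex hf _ τ.im_pos)
    (analyticOnNhd_comp_ofComplex hg _ τ.im_pos)

theorem ordAt_pow {f : ℍ → ℂ} (hf : MDiff f) (n : ℕ) (τ : ℍ) :
    ordAt (f ^ n) τ = n • ordAt f τ :=
  analyticOrderAt_pow (analyticOnNhd_comp_ofComplex hf _ τ.im_pos) n

/-- The value of the character at an element fixing `τ`. -/
theorem _root_.Fermat.Agent.S30.Analytic.Character.HasChar.apply_eq_of_fixed
    (h : HasChar Γ k G ψ) (hG : MDiff G) (γ : Γ) {τ : ℍ}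
    (hfix : (γ : SL(2, ℤ)) • τ = τ) {m : ℕ} (hm : ordAt G τ = (m : ℕ∞)) :
    ((ψ γ : ℂˣ) : ℂ) = denom ((γ : SL(2, ℤ)) : GL (Fin 2) ℝ) τ ^ (-k - 2 * (m : ℤ)) :=
  eq_denom_zpow_of_fixed hG (h γ) hfix hm

/-- **The root character is trivial at elliptic elements**: if `γ ∈ Γ` fixes `τ`,
`(denom γ τ) ^ (2 e) = 1`, `b` is `γ`-invariant of weight `k` and `n e ∣ ord_τ a - ord_τ b`, then the
root character of `a * b ^ (n - 1)` is trivial at `γ`. -/
theorem _root_.Fermat.Agent.S30.Analytic.Character.IsRootChar.apply_eq_one_of_fixed {n : ℕ}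
    (hn : n ≠ 0) {a b : ℍ → ℂ} (ha : MDiff a) (hb : MDiff b) (ha0 : a ≠ 0) (hb0 : b ≠ 0) (h : IsRootChar Γ n k (a * b ^ (n - 1)) ψ) (γ : Γ)
    (hbγ : b ∣[k] (γ : SL(2, ℤ)) = b) {τ : ℍ} (hfix : (γ : SL(2, ℤ)) • τ = τ) {e : ℕ}
    (he : denom ((γ : SL(2, ℤ)) : GL (Fin 2) ℝ) τ ^ (2 * e) = 1)
    (hdiv : ((n * e : ℕ) : ℤ) ∣ ((ordAt a τ).toNat : ℤ) - ((ordAt b τ).toNat : ℤ)) :
    ψ γ = 1 := by
  obtain ⟨G, hG, hGF, hχ⟩ := h
  obtain ⟨ma, hma⟩ := ENat.ne_top_iff_exists.1 (ordAt_ne_top ha ha0 τ)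
  obtain ⟨mb, hmb⟩ := ENat.ne_top_iff_exists.1 (ordAt_ne_top hb hb0 τ)
  have hG0 : G ≠ 0 := by
    intro h0
    have h1 : a * b ^ (n - 1) = 0 := by rw [← hGF, h0, zero_pow hn]
    rcases eq_zero_or_eq_zero_of_mul_eq_zero ha (hb.pow _) h1 with h2 | h2
    · exact ha0 h2
    · have h3 : ∀ z, b z = 0 := fun z => by
        have := congrFun h2 z
        rw [Pi.pow_apply, Pi.zero_apply] at this
        exact eq_zero_of_pow_eq_zero this
      exact hb0 (funext h3)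
  obtain ⟨mG, hmG⟩ := ENat.ne_top_iff_exists.1 (ordAt_ne_top hG hG0 τ)
  -- the orders
  have hord : n * mG = ma + (n - 1) * mb := by
    have h1 : ordAt (G ^ n) τ = ordAt (a * b ^ (n - 1)) τ := by rw [hGF]
    rw [ordAt_pow hG, ordAt_mul ha (hb.pow _), ordAt_pow hb, ← hmG, ← hma, ← hmb] at h1
    have h2 : ((n * mG : ℕ) : ℕ∞) = ((ma + (n - 1) * mb : ℕ) : ℕ∞) := by
      push_cast
      simpa [nsmul_eq_mul] using h1
    exact_mod_cast h2
  rw [← hma, ← hmb, ENat.toNat_natCast, ENat.toNat_natCast] at hdiv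
  obtain ⟨t, ht⟩ := hdiv
  -- `mG - mb = e * t`
  have hn1 : ((n - 1 : ℕ) : ℤ) = (n : ℤ) - 1 := by
    have : 1 ≤ n := Nat.one_le_iff_ne_zero.mpr hn
    push_cast [Nat.cast_sub this]
    ring
  have hkey : (mG : ℤ) - mb = e * t := by
    have h1 : (n : ℤ) * mG = ma + ((n : ℤ) - 1) * mb := by
      rw [← hn1]
      exact_mod_cast hord
    have hnz : (n : ℤ) ≠ 0 := by exact_mod_cast hn
    apply mul_left_cancel₀ hnz
    have : (n : ℤ) * ((mG : ℤ) - mb) = (ma : ℤ) - mb := by linarith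
    rw [this, ht]
    push_cast
    ring
  -- the two local formulas
  have h1 := hχ.apply_eq_of_fixed hG γ hfix hmG.symm
  have h2 : (1 : ℂ) = denom ((γ : SL(2, ℤ)) : GL (Fin 2) ℝ) τ ^ (-k - 2 * (mb : ℤ)) :=
    eq_denom_zpow_of_fixed hb (c := 1) (by rw [one_smul]; exact hbγ) hfix hmb.symm
  have hD : denom ((γ : SL(2, ℤ)) : GL (Fin 2) ℝ) τ ≠ 0 := denom_ne_zero _ τ
  have h3 : ((ψ γ : ℂˣ) : ℂ) = 1 := by
    have h4 : (-k - 2 * (mG : ℤ)) = (-k - 2 * (mb : ℤ)) + ((2 * e : ℕ) : ℤ) * (-t) := by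
      have : (mG : ℤ) = mb + e * t := by linarith
      rw [this]
      push_cast
      ring
    rw [h1, h4, zpow_add₀ hD, ← h2, one_mul, zpow_mul, zpow_natCast, he, one_zpow]
  exact Units.ext h3

end elliptic

local notation "𝕢" => Function.Periodic.qParam

/-! ### the value of a character at a parabolic element -/

theorem ofComplex_add_real {z : ℂ} (hz : 0 < z.im) (r : ℝ) :
    ofComplex (z + r) = r +ᵥ ofComplex z := by
  have hz' : 0 < (z + (r : ℂ)).im := by simpa using hz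
  apply UpperHalfPlane.ext
  rw [ofComplex_apply_of_im_pos hz', UpperHalfPlane.coe_vadd, ofComplex_apply_of_im_pos hz]
  simp [add_comm]

/-- a function on `ℍ` invariant under `z ↦ z + h` gives a periodic function on `ℂ` -/
theorem periodic_comp_ofComplex {f : ℍ → ℂ} {h : ℝ} (hf : ∀ z : ℍ, f (h +ᵥ z) = f z) :
    Periodic (f ∘ ofComplex) (h : ℂ) := by
  intro z
  by_cases hz : 0 < z.im
  · rw [comp_apply, comp_apply, ofComplex_add_real hz, hf]
  · have hz0 : z.im ≤ 0 := not_lt.mp hz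
    have hz' : (z + (h : ℂ)).im ≤ 0 := by simpa using hz0
    rw [comp_apply, comp_apply, ofComplex_apply_of_im_nonpos hz', ofComplex_apply_of_im_nonpos hz0]

/-- the order at the cusp `i∞` in the parameter `q_h` -/
def cuspOrd (h : ℝ) (f : ℍ → ℂ) : ℕ∞ := analyticOrderAt (cuspFunction h f) 0

theorem qParam_vadd (H h : ℝ) (z : ℍ) :
    𝕢 H ((h +ᵥ z : ℍ) : ℂ) = 𝕢 H z * Complex.exp (2 * π * Complex.I * h / H) := by
  rw [Function.Periodic.qParam, Function.Periodic.qParam, ← Complex.exp_add, coe_vadd]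
  congr 1
  ring

theorem qParam_mul_pow {n : ℕ} (hn : n ≠ 0) {h : ℝ} (z : ℂ) :
    𝕢 ((n : ℝ) * h) z ^ n = 𝕢 h z := by
  rw [Function.Periodic.qParam, Function.Periodic.qParam, ← Complex.exp_nat_mul]
  congr 1
  have : (n : ℂ) ≠ 0 := by exact_mod_cast hn
  push_cast
  by_cases hh : (h : ℂ) = 0
  · rw [hh]; simp
  · field_simp

/-- every `q` in the punctured unit disc is a value of `q_h` on `ℍ` -/
theorem exists_qParam_eq {h : ℝ} (hh : 0 < h) {q : ℂ} (hq : q ≠ 0) (hq1 : ‖q‖ < 1) :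
    ∃ z : ℍ, 𝕢 h z = q :=
  ⟨⟨_, Function.Periodic.im_invQParam_pos_of_norm_lt_one hh hq1 hq⟩,
    Function.Periodic.qParam_right_inv hh.ne' hq⟩

theorem mdiff_qParam_pow (H : ℝ) (t : ℕ) : MDiff (fun z : ℍ => 𝕢 H z ^ t) := by
  rw [UpperHalfPlane.mdifferentiable_iff]
  have h1 : Differentiable ℂ (fun z : ℂ => 𝕢 H z ^ t) :=
    (Function.Periodic.differentiable_qParam (h := H)).pow t
  refine h1.differentiableOn.congr fun z hz => ?_
  rw [comp_apply, ofComplex_apply_of_im_pos hz]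

theorem isBoundedAtImInfty_pow {G : ℍ → ℂ} (h : IsBoundedAtImInfty G) (n : ℕ) :
    IsBoundedAtImInfty (G ^ n) := by
  induction n with
  | zero =>
    rw [pow_zero]
    exact Filter.const_boundedAtFilter _ (1 : ℂ)
  | succ m ih =>
    rw [pow_succ]
    exact ih.mul h

/-- **Local computation at the cusp `i∞`.**  If `G (z + h) = c * G z`, `c ^ n = 1` and `G` is
bounded at `i∞`, then `c = exp (2 π i r / n)` where `r` is the order of `G ^ n` at the cusp in the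
parameter `q_h`. -/
theorem eq_exp_of_vadd {G : ℍ → ℂ} (hG : MDiff G) (hbdd : IsBoundedAtImInfty G) {h : ℝ}
    (hh : 0 < h) {c : ℂ} {n : ℕ} (hn : n ≠ 0) (hc : c ^ n = 1)
    (hper : ∀ z : ℍ, G (h +ᵥ z) = c * G z) {r : ℕ} (hr : cuspOrd h (G ^ n) = (r : ℕ∞)) :
    c = Complex.exp (2 * π * Complex.I * r / n) := by
  have : NeZero n := ⟨hn⟩
  have hnC : (n : ℂ) ≠ 0 := by exact_mod_cast hn
  have hc0 : c ≠ 0 := by
    intro h0
    rw [h0, zero_pow hn] at hc
    exact zero_ne_one hc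
  obtain ⟨i, hi, hic⟩ := (Complex.mem_rootsOfUnity n (Units.mk0 c hc0)).1 (by
    rw [_root_.mem_rootsOfUnity]
    ext
    simpa using hc)
  rw [Units.val_mk0] at hic
  set t : ℕ := n - i with ht
  have hti : t + i = n := by omega
  have hnh : 0 < (n : ℝ) * h := mul_pos (by exact_mod_cast Nat.pos_of_ne_zero hn) hh
  -- the auxiliary exponential
  set E : ℍ → ℂ := fun z => 𝕢 ((n : ℝ) * h) z ^ t with hE
  have hE1 : ∀ z : ℍ, E (h +ᵥ z) = Complex.exp (2 * π * Complex.I * (t / n)) * E z := by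
    intro z
    show 𝕢 ((n : ℝ) * h) ((h +ᵥ z : ℍ) : ℂ) ^ t = _ * 𝕢 ((n : ℝ) * h) z ^ t
    rw [qParam_vadd, mul_pow, mul_comm, ← Complex.exp_nat_mul]
    congr 2
    have hhC : (h : ℂ) ≠ 0 := by exact_mod_cast hh.ne'
    push_cast
    field_simp
  have hE2 : ∀ z : ℍ, E z ^ n = 𝕢 h z ^ t := by
    intro z
    show (𝕢 ((n : ℝ) * h) z ^ t) ^ n = 𝕢 h z ^ t
    rw [← pow_mul, mul_comm t n, pow_mul, qParam_mul_pow hn]
  have hE3 : ∀ z : ℍ, ‖E z‖ ≤ 1 := by
    intro z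
    show ‖𝕢 ((n : ℝ) * h) z ^ t‖ ≤ 1
    rw [norm_pow]
    exact pow_le_one₀ (norm_nonneg _) (Function.Periodic.norm_qParam_lt_one hnh z.im_pos).le
  have hE4 : MDiff E := mdiff_qParam_pow _ t
  -- the periodic function `W`
  set W : ℍ → ℂ := G * E with hW
  have hcE : c * Complex.exp (2 * π * Complex.I * (t / n)) = 1 := by
    rw [← hic, ← Complex.exp_add, Complex.exp_eq_one_iff]
    refine ⟨1, ?_⟩
    have : (t : ℂ) + i = n := by exact_mod_cast hti
    rw [← mul_add, ← add_div, add_comm, this, div_self hnC]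
    ring
  have hW1 : ∀ z : ℍ, W (h +ᵥ z) = W z := by
    intro z
    simp only [hW, Pi.mul_apply]
    rw [hper, hE1, mul_mul_mul_comm, hcE, one_mul]
  have hW2 : IsBoundedAtImInfty W := by
    rw [isBoundedAtImInfty_iff] at hbdd ⊢
    obtain ⟨M, A, hMA⟩ := hbdd
    refine ⟨M, A, fun z hz => ?_⟩
    simp only [hW, Pi.mul_apply]
    rw [norm_mul]
    calc ‖G z‖ * ‖E z‖ ≤ ‖G z‖ * 1 := mul_le_mul_of_nonneg_left (hE3 z) (norm_nonneg _)
      _ = ‖G z‖ := mul_one _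
      _ ≤ M := hMA z hz
  have hW3 : MDiff W := hG.mul hE4
  have hWper : Periodic (W ∘ ofComplex) h := periodic_comp_ofComplex hW1
  have hwan : AnalyticAt ℂ (cuspFunction h W) 0 := analyticAt_cuspFunction_zero hh hWper hW3 hW2
  -- the invariant function `F = G ^ n`
  have hF1 : ∀ z : ℍ, (G ^ n) (h +ᵥ z) = (G ^ n) z := by
    intro z
    rw [Pi.pow_apply, Pi.pow_apply, hper, mul_pow, hc, one_mul]
  have hFper : Periodic ((G ^ n) ∘ ofComplex) h := periodic_comp_ofComplex hF1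
  have hFbdd : IsBoundedAtImInfty (G ^ n) := isBoundedAtImInfty_pow hbdd n
  have hφan : AnalyticAt ℂ (cuspFunction h (G ^ n)) 0 :=
    analyticAt_cuspFunction_zero hh hFper (hG.pow n) hFbdd
  -- the identity `w ^ n = φ * q ^ t` near `0`
  have hpunct : ∀ q : ℂ, q ≠ 0 → ‖q‖ < 1 →
      (cuspFunction h W ^ n) q = (cuspFunction h (G ^ n) * (fun q : ℂ => q ^ t)) q := by
    intro q hq hq1
    obtain ⟨z, rfl⟩ := exists_qParam_eq hh hq hq1
    rw [Pi.pow_apply, Pi.mul_apply, eq_cuspFunction z hh.ne' hWper, eq_cuspFunction z hh.ne' hFper]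
    simp only [hW, Pi.mul_apply, Pi.pow_apply]
    rw [mul_pow, hE2]
  have hidan : AnalyticAt ℂ (fun q : ℂ => q ^ t) 0 := (analyticAt_id).pow t
  have hev : ∀ᶠ q in 𝓝 (0 : ℂ),
      (cuspFunction h W ^ n) q = (cuspFunction h (G ^ n) * (fun q : ℂ => q ^ t)) q := by
    rw [← AnalyticAt.frequently_eq_iff_eventually_eq (hwan.pow n) (hφan.mul hidan)]
    apply Filter.Eventually.frequently
    have h1 : ∀ᶠ q in 𝓝 (0 : ℂ), ‖q‖ < 1 := by
      have : Metric.ball (0 : ℂ) 1 ∈ 𝓝 (0 : ℂ) := Metric.ball_mem_nhds _ one_pos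
      filter_upwards [this] with q hq
      simpa using hq
    filter_upwards [h1.filter_mono nhdsWithin_le_nhds, self_mem_nhdsWithin] with q hq1 hq
    exact hpunct q hq hq1
  have hord := analyticOrderAt_congr hev
  rw [analyticOrderAt_pow hwan, analyticOrderAt_mul hφan hidan] at hord
  have hidord : analyticOrderAt (fun q : ℂ => q ^ t) 0 = (t : ℕ∞) := by
    have : (fun q : ℂ => q ^ t) = id ^ t := rfl
    rw [this, analyticOrderAt_pow analyticAt_id, analyticOrderAt_id]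
    simp
  have hr' : analyticOrderAt (cuspFunction h (G ^ n)) 0 = (r : ℕ∞) := hr
  rw [hidord, hr'] at hord
  -- the order of `w` is finite
  obtain ⟨s, hs⟩ : ∃ s : ℕ, analyticOrderAt (cuspFunction h W) 0 = (s : ℕ∞) := by
    by_cases htop : analyticOrderAt (cuspFunction h W) 0 = ⊤
    · exfalso
      rw [htop] at hord
      have : n • (⊤ : ℕ∞) = ⊤ := by
        rw [nsmul_eq_mul]
        exact ENat.mul_top (by exact_mod_cast hn)
      rw [this] at hord
      exact ENat.natCast_ne_top (r + t) (by rw [hord]; push_cast; rfl)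
    · obtain ⟨s, hs⟩ := ENat.ne_top_iff_exists.1 htop
      exact ⟨s, hs.symm⟩
  rw [hs] at hord
  have hnat : n * s = r + t := by
    have : ((n * s : ℕ) : ℕ∞) = ((r + t : ℕ) : ℕ∞) := by
      push_cast
      rw [← nsmul_eq_mul]
      exact hord
    exact_mod_cast this
  -- conclusion
  rw [← hic, Complex.exp_eq_exp_iff_exists_int]
  refine ⟨1 - s, ?_⟩
  have h2 : (r : ℂ) = n * s - n + i := by
    have h3 : (r : ℤ) = n * s - n + i := by
      have : (n : ℤ) * s = r + t := by exact_mod_cast hnat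
      have : (t : ℤ) + i = n := by exact_mod_cast hti
      linarith
    exact_mod_cast h3
  rw [h2]
  push_cast
  field_simp
  ring


/-! ### orders at the cusp -/

section cuspOrd

variable {h : ℝ} {f g : ℍ → ℂ}

theorem cuspOrd_ne_top (hh : 0 < h) (hper : Periodic (f ∘ ofComplex) h) (hf : MDiff f)
    (hbdd : IsBoundedAtImInfty f) (hf0 : f ≠ 0) : cuspOrd h f ≠ ⊤ := by
  intro htop
  apply hf0
  have hdiff := differentiableOn_cuspFunction_ball hh hper hf hbdd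
  have han : AnalyticOnNhd ℂ (cuspFunction h f) (Metric.ball 0 1) :=
    hdiff.analyticOnNhd Metric.isOpen_ball
  have hzero := han.eqOn_zero_of_preconnected_of_eventuallyEq_zero
    (convex_ball (0 : ℂ) 1).isPreconnected (Metric.mem_ball_self one_pos)
    (analyticOrderAt_eq_top.mp htop)
  funext z
  rw [← eq_cuspFunction z hh.ne' hper]
  apply hzero
  rw [mem_ball_zero_iff]
  exact Function.Periodic.norm_qParam_lt_one hh z.im_pos

theorem cuspOrd_mul (hh : 0 < h) (hfper : Periodic (f ∘ ofComplex) h) (hf : MDiff f)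
    (hfbdd : IsBoundedAtImInfty f) (hgper : Periodic (g ∘ ofComplex) h) (hg : MDiff g)
    (hgbdd : IsBoundedAtImInfty g) : cuspOrd h (f * g) = cuspOrd h f + cuspOrd h g := by
  have h1 := analyticAt_cuspFunction_zero hh hfper hf hfbdd
  have h2 := analyticAt_cuspFunction_zero hh hgper hg hgbdd
  rw [cuspOrd, cuspFunction_mul h1.continuousAt h2.continuousAt, analyticOrderAt_mul h1 h2]
  rfl

theorem periodic_pow (hfper : Periodic (f ∘ ofComplex) h) (n : ℕ) :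
    Periodic ((f ^ n) ∘ ofComplex) h := by
  intro z
  have := hfper z
  simp only [comp_apply, Pi.pow_apply] at this ⊢
  rw [this]

theorem cuspOrd_pow (hh : 0 < h) (hfper : Periodic (f ∘ ofComplex) h) (hf : MDiff f)
    (hfbdd : IsBoundedAtImInfty f) (n : ℕ) : cuspOrd h (f ^ n) = n • cuspOrd h f := by
  induction n with
  | zero =>
    rw [pow_zero, zero_smul, cuspOrd]
    have h1 : cuspFunction h (1 : ℍ → ℂ) = 1 := by
      ext q
      rcases eq_or_ne q 0 with rfl | hq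
      · simpa [cuspFunction, Function.Periodic.cuspFunction] using! tendsto_const_nhds.limUnder_eq
      · simp [cuspFunction, Function.Periodic.cuspFunction_eq_of_nonzero h _ hq]
    rw [h1, analyticOrderAt_eq_zero]
    right
    simp
  | succ m ih =>
    rw [pow_succ, cuspOrd_mul hh (periodic_pow hfper m) (hf.pow m) (isBoundedAtImInfty_pow hfbdd m)
      hfper hf hfbdd, ih, succ_nsmul]

end cuspOrd

/-! ### triviality of characters at parabolic elements -/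

section parabolic

variable {Γ : Subgroup SL(2, ℤ)} {k : ℤ} {G : ℍ → ℂ} {ψ : Γ →* ℂˣ}

theorem slash_T_zpow_apply (F : ℍ → ℂ) (k : ℤ) (n : ℤ) (τ : ℍ) :
    (F ∣[k] (ModularGroup.T ^ n : SL(2, ℤ))) τ = F ((n : ℝ) +ᵥ τ) := by
  rw [SL_slash_apply, ModularGroup.denom_apply, ModularGroup.coe_T_zpow, modular_T_zpow_smul]
  simp

/-- if `f` is `γ`-invariant and `γ σ = σ T ^ w`, then `f ∣[k] σ` is invariant under `z ↦ z + w` up
to the constant -/
theorem slash_vadd_of_conj {f : ℍ → ℂ} {c : ℂ} {γ σ : SL(2, ℤ)} {w : ℕ}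
    (hγ : γ * σ = σ * ModularGroup.T ^ (w : ℤ)) (hf : f ∣[k] γ = c • f) (z : ℍ) :
    (f ∣[k] σ) (((w : ℕ) : ℝ) +ᵥ z) = c * (f ∣[k] σ) z := by
  have h1 : (f ∣[k] σ) ∣[k] (ModularGroup.T ^ (w : ℤ) : SL(2, ℤ)) = c • (f ∣[k] σ) := by
    rw [← SlashAction.slash_mul, ← hγ, SlashAction.slash_mul, hf, SL_smul_slash]
  have h2 := congrFun h1 z
  rw [slash_T_zpow_apply, Pi.smul_apply, smul_eq_mul] at h2
  rw [← h2]
  norm_cast

/-- **The value of the character at a parabolic element** `γ = σ T ^ w σ⁻¹`. -/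
theorem _root_.Fermat.Agent.S30.Analytic.Character.HasChar.apply_eq_exp_of_parabolic
    (h : HasChar Γ k G ψ) (hG : MDiff G) {n : ℕ} (hn : n ≠ 0) (γ : Γ) (hψn : ψ γ ^ n = 1)
    {σ : SL(2, ℤ)} {w : ℕ} (hw : 0 < w) (hγ : (γ : SL(2, ℤ)) * σ = σ * ModularGroup.T ^ (w : ℤ))
    (hbdd : IsBoundedAtImInfty (G ∣[k] σ)) {r : ℕ}
    (hr : cuspOrd w ((G ∣[k] σ) ^ n) = (r : ℕ∞)) :
    ((ψ γ : ℂˣ) : ℂ) = Complex.exp (2 * π * Complex.I * r / n) := by
  have hG' : MDiff (G ∣[k] σ) := by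
    rw [SL_slash]
    exact hG.slash k _
  refine eq_exp_of_vadd hG' hbdd (h := (w : ℝ)) (by exact_mod_cast hw) hn ?_
    (fun z => slash_vadd_of_conj hγ (h γ) z) hr
  rw [← Units.val_pow_eq_pow_val, hψn, Units.val_one]

theorem slash_ne_zero_SL {f : ℍ → ℂ} (hf : f ≠ 0) (k : ℤ) (σ : SL(2, ℤ)) : f ∣[k] σ ≠ 0 := by
  intro h0
  apply hf
  have : (f ∣[k] σ) ∣[k] σ⁻¹ = f := by
    rw [← SlashAction.slash_mul, mul_inv_cancel, SlashAction.slash_one]
  rw [← this, h0, SlashAction.zero_slash]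

theorem mdiff_slash_SL {f : ℍ → ℂ} (hf : MDiff f) (k : ℤ) (σ : SL(2, ℤ)) : MDiff (f ∣[k] σ) := by
  rw [SL_slash]
  exact hf.slash k _

/-- **The root character is trivial at parabolic elements** `γ = σ T ^ w σ⁻¹`, if `n` divides the
difference of the orders of `a ∣[k] σ` and `b ∣[k] σ` at `i∞` (in the parameter `q_w`). -/
theorem _root_.Fermat.Agent.S30.Analytic.Character.IsRootChar.apply_eq_one_of_parabolic {n : ℕ}
    (hn : n ≠ 0) {a b : ℍ → ℂ} (ha : MDiff a) (hb : MDiff b) (ha0 : a ≠ 0) (hb0 : b ≠ 0)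
    (h : IsRootChar Γ n k (a * b ^ (n - 1)) ψ) (γ : Γ) (haγ : a ∣[k] (γ : SL(2, ℤ)) = a)
    (hbγ : b ∣[k] (γ : SL(2, ℤ)) = b) {σ : SL(2, ℤ)} {w : ℕ} (hw : 0 < w)
    (hγ : (γ : SL(2, ℤ)) * σ = σ * ModularGroup.T ^ (w : ℤ))
    (habdd : IsBoundedAtImInfty (a ∣[k] σ)) (hbbdd : IsBoundedAtImInfty (b ∣[k] σ))
    (hdiv : (n : ℤ) ∣ ((cuspOrd w (a ∣[k] σ)).toNat : ℤ) - ((cuspOrd w (b ∣[k] σ)).toNat : ℤ)) :
    ψ γ = 1 := by
  obtain ⟨G, hG, hGF, hχ⟩ := h
  have hwR : (0 : ℝ) < (w : ℝ) := by exact_mod_cast hw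
  have hn1 : 1 ≤ n := Nat.one_le_iff_ne_zero.mpr hn
  set a' := a ∣[k] σ with ha'
  set b' := b ∣[k] σ with hb'
  set G' := G ∣[k] σ with hG'
  have ha'd : MDiff a' := mdiff_slash_SL ha k σ
  have hb'd : MDiff b' := mdiff_slash_SL hb k σ
  have hG'd : MDiff G' := mdiff_slash_SL hG k σ
  have ha'0 : a' ≠ 0 := slash_ne_zero_SL ha0 k σ
  have hb'0 : b' ≠ 0 := slash_ne_zero_SL hb0 k σ
  have ha'per : Periodic (a' ∘ ofComplex) (w : ℝ) := periodic_comp_ofComplex fun z => by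
    have := slash_vadd_of_conj (c := 1) hγ (by rw [one_smul]; exact haγ) z
    rwa [one_mul] at this
  have hb'per : Periodic (b' ∘ ofComplex) (w : ℝ) := periodic_comp_ofComplex fun z => by
    have := slash_vadd_of_conj (c := 1) hγ (by rw [one_smul]; exact hbγ) z
    rwa [one_mul] at this
  -- `G' ^ n = a' * b' ^ (n - 1)`
  have hpow : G' ^ n = a' * b' ^ (n - 1) := by
    have h1 : (G ^ n) ∣[(n : ℤ) * k] σ = G' ^ n := pow_slash G k n σ
    have h2 : ((n : ℤ) * k) = k + ((n - 1 : ℕ) : ℤ) * k := by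
      push_cast [Nat.cast_sub hn1]
      ring
    rw [← h1, hGF, h2, mul_slash_SL2, pow_slash]
  have hG'0 : G' ≠ 0 := by
    intro h0
    have h1 : a' * b' ^ (n - 1) = 0 := by rw [← hpow, h0, zero_pow hn]
    rcases eq_zero_or_eq_zero_of_mul_eq_zero ha'd (hb'd.pow _) h1 with h2 | h2
    · exact ha'0 h2
    · have h3 : ∀ z, b' z = 0 := fun z => by
        have := congrFun h2 z
        rw [Pi.pow_apply, Pi.zero_apply] at this
        exact eq_zero_of_pow_eq_zero this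
      exact hb'0 (funext h3)
  have hG'bdd : IsBoundedAtImInfty G' := by
    apply isBoundedAtImInfty_of_pow hn
    rw [hpow]
    exact habdd.mul (isBoundedAtImInfty_pow hbbdd _)
  -- `ψ γ ^ n = 1`
  have hψn : ψ γ ^ n = 1 := by
    obtain ⟨z₀, hz₀⟩ : ∃ z₀, G' z₀ ≠ 0 := by
      by_contra hcon
      exact hG'0 (funext fun τ => by_contra fun h => hcon ⟨τ, h⟩)
    have h1 : G' (((w : ℕ) : ℝ) +ᵥ z₀) = ((ψ γ : ℂˣ) : ℂ) * G' z₀ :=
      slash_vadd_of_conj hγ (hχ γ) z₀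
    have h2 : (G' ^ n) (((w : ℕ) : ℝ) +ᵥ z₀) = (G' ^ n) z₀ := by
      have e1 := ha'per (z₀ : ℂ)
      have e2 := hb'per (z₀ : ℂ)
      rw [comp_apply, comp_apply, ofComplex_add_real z₀.im_pos, ofComplex_apply] at e1 e2
      rw [hpow, Pi.mul_apply, Pi.mul_apply, Pi.pow_apply, Pi.pow_apply, e1, e2]
    rw [Pi.pow_apply, Pi.pow_apply, h1, mul_pow] at h2
    have h3 : ((ψ γ : ℂˣ) : ℂ) ^ n = 1 := by
      have h4 : G' z₀ ^ n ≠ 0 := pow_ne_zero n hz₀
      exact mul_right_cancel₀ h4 (by rw [h2, one_mul])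
    apply Units.ext
    rw [Units.val_pow_eq_pow_val, h3, Units.val_one]
  -- the orders at the cusp
  obtain ⟨ra, hra⟩ := ENat.ne_top_iff_exists.1 (cuspOrd_ne_top hwR ha'per ha'd habdd ha'0)
  obtain ⟨rb, hrb⟩ := ENat.ne_top_iff_exists.1 (cuspOrd_ne_top hwR hb'per hb'd hbbdd hb'0)
  have hr : cuspOrd w (G' ^ n) = ((ra + (n - 1) * rb : ℕ) : ℕ∞) := by
    rw [hpow, cuspOrd_mul hwR ha'per ha'd habdd (periodic_pow hb'per _) (hb'd.pow _)
      (isBoundedAtImInfty_pow hbbdd _), cuspOrd_pow hwR hb'per hb'd hbbdd, ← hra, ← hrb]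
    push_cast
    simp [nsmul_eq_mul]
  have h5 := hχ.apply_eq_exp_of_parabolic hG hn γ hψn hw hγ hG'bdd hr
  rw [← hra, ← hrb, ENat.toNat_natCast, ENat.toNat_natCast] at hdiv
  obtain ⟨t, ht⟩ := hdiv
  apply Units.ext
  rw [h5, Units.val_one, Complex.exp_eq_one_iff]
  refine ⟨t + rb, ?_⟩
  have hnC : (n : ℂ) ≠ 0 := by exact_mod_cast hn
  have h6 : ((ra + (n - 1) * rb : ℕ) : ℂ) = (n : ℂ) * ((t : ℂ) + rb) := by
    have h7 : ((ra + (n - 1) * rb : ℕ) : ℤ) = (n : ℤ) * (t + rb) := by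
      push_cast [Nat.cast_sub hn1]
      linarith
    exact_mod_cast h7
  rw [h6]
  push_cast
  field_simp

end parabolic

/-! ### the element `-1` -/

section negOne

variable {Γ : Subgroup SL(2, ℤ)} {k : ℤ} {G : ℍ → ℂ} {ψ : Γ →* ℂˣ}

theorem slash_neg_one_SL (f : ℍ → ℂ) (k : ℤ) :
    f ∣[k] (-1 : SL(2, ℤ)) = ((-1 : ℂ) ^ (-k)) • f := by
  funext z
  rw [SL_slash_apply, denom_neg_one_SL, ModularGroup.SL_neg_smul, one_smul, Pi.smul_apply,
    smul_eq_mul, mul_comm]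

/-- a character of a form of weight `k` is trivial at `-1` as soon as there is a non-zero
invariant function of weight `k` -/
theorem _root_.Fermat.Agent.S30.Analytic.Character.HasChar.apply_neg_one (h : HasChar Γ k G ψ)
    (hG0 : G ≠ 0) {b : ℍ → ℂ} (hb0 : b ≠ 0) (hm : (-1 : SL(2, ℤ)) ∈ Γ)
    (hb : b ∣[k] (-1 : SL(2, ℤ)) = b) : ψ ⟨-1, hm⟩ = 1 := by
  obtain ⟨z₁, hz₁⟩ : ∃ z₁, b z₁ ≠ 0 := by
    by_contra hcon
    exact hb0 (funext fun τ => by_contra fun h => hcon ⟨τ, h⟩)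
  obtain ⟨z₀, hz₀⟩ : ∃ z₀, G z₀ ≠ 0 := by
    by_contra hcon
    exact hG0 (funext fun τ => by_contra fun h => hcon ⟨τ, h⟩)
  have h1 : ((-1 : ℂ) ^ (-k)) = 1 := by
    have := congrFun hb z₁
    rw [slash_neg_one_SL, Pi.smul_apply, smul_eq_mul] at this
    exact mul_right_cancel₀ hz₁ (by rw [this, one_mul])
  have h2 := congrFun (h ⟨-1, hm⟩) z₀
  rw [slash_neg_one_SL, h1, Pi.smul_apply, Pi.smul_apply, smul_eq_mul, smul_eq_mul, one_mul] at h2
  apply Units.ext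
  rw [Units.val_one]
  exact (mul_right_cancel₀ hz₀ (by rw [← h2, one_mul])).symm

end negOne

end Fermat.Agent.S30.Analytic.Local
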