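import Mathlib
import Fermat.Agent.S30.Analytic.Local
import Fermat.Agent.S24.RepHom
import Fermat.Agent.S24.LmapTaylor

/-!
# PROJECT J (S30), slice J-1 (T1): the root character of an element of the function field
(helper27)

`repField N` is the field of `Γ₀(N)`-modular functions (S24), given by `q`-expansions of quotients
`a / b` of modular forms of the same weight.  For `g ∈ repField N`, `g ≠ 0`, and `n ≥ 1`:

* `RootCharOf n g ψ` : `ψ` is the root character (for `Γ₀(N)`) of `a * b ^ (n - 1)` in weight `k`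
  for SOME representation `g = a / b` in weight `k`, i.e. the character of the `n`-th roots of `g`
  on `ℍ`;
* `RootCharOf.unique` : it does not depend on the representation;
* `RootCharOf.mul`, `RootCharOf.inv`, `RootCharOf.pow_self` (`n`-th powers have trivial character),
  `RootCharOf.const`, `RootCharOf.pow_eq_one`.
-/

set_option autoImplicit false
set_option linter.unusedSectionVars false

noncomputable section

namespace Fermat.Agent.S30.Analytic.RepChar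

open UpperHalfPlane ModularForm CongruenceSubgroup
open Fermat.Agent.S20 Fermat.Agent.S23.QRing Fermat.Agent.S24.RepHom
open Fermat.Agent.S30.Analytic.Character
open scoped Manifold MatrixGroups ModularForm

variable {N : ℕ} [NeZero N]

/-- forms for `Γ₀(N)` are invariant under the slash action of `Γ₀(N)` -/
theorem slash_eq_of_isMF {k : ℤ} {a : ℍ → ℂ} (ha : IsMF (G0 N) k a) {γ : SL(2, ℤ)}
    (hγ : γ ∈ Gamma0 N) : a ∣[k] γ = a := by
  obtain ⟨A, rfl⟩ := ha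
  rw [ModularForm.SL_slash]
  exact SlashInvariantFormClass.slash_action_eq A _ ⟨γ, hγ, rfl⟩

theorem pow_ne_zero_fun {b : ℍ → ℂ} (hb : b ≠ 0) (n : ℕ) : b ^ n ≠ 0 := by
  obtain ⟨z, hz⟩ : ∃ z, b z ≠ 0 := by
    by_contra hcon
    exact hb (funext fun τ => by_contra fun h => hcon ⟨τ, h⟩)
  intro h0
  have := congrFun h0 z
  rw [Pi.pow_apply, Pi.zero_apply] at this
  exact hz (eq_zero_of_pow_eq_zero this)

theorem mul_ne_zero_fun {a b : ℍ → ℂ} (ha : MDiff a) (hb : MDiff b) (ha0 : a ≠ 0) (hb0 : b ≠ 0) :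
    a * b ≠ 0 := by
  intro h0
  rcases eq_zero_or_eq_zero_of_mul_eq_zero ha hb h0 with h | h
  · exact ha0 h
  · exact hb0 h

/-- the numerator form `a * b ^ (n - 1)` of the `n`-th roots of `a / b` -/
theorem rootForm_ne_zero {g : LaurentSeries ℂ} {k : ℤ} {a b : ℍ → ℂ} (h : IsRepOf N g k a b)
    (hg : g ≠ 0) (n : ℕ) : a * b ^ (n - 1) ≠ 0 :=
  mul_ne_zero_fun (mdiff_of_isMF h.ha) ((mdiff_of_isMF h.hb).pow _)
    (Fermat.Agent.S24.LmapTaylor.num_ne_zero_of_isRepOf h hg) (pow_ne_zero_fun h.hb0 _)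

theorem rootForm_mdiff {g : LaurentSeries ℂ} {k : ℤ} {a b : ℍ → ℂ} (h : IsRepOf N g k a b)
    (n : ℕ) : MDiff (a * b ^ (n - 1)) :=
  (mdiff_of_isMF h.ha).mul ((mdiff_of_isMF h.hb).pow _)

theorem rootForm_isMF {g : LaurentSeries ℂ} {k : ℤ} {a b : ℍ → ℂ} (h : IsRepOf N g k a b)
    {n : ℕ} (hn : n ≠ 0) : IsMF (G0 N) ((n : ℤ) * k) (a * b ^ (n - 1)) := by
  have h1 := h.ha.mul (h.hb.pow (n - 1))
  refine h1.cast ?_
  have : 1 ≤ n := Nat.one_le_iff_ne_zero.mpr hn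
  push_cast [Nat.cast_sub this]
  ring

theorem rootForm_slash {g : LaurentSeries ℂ} {k : ℤ} {a b : ℍ → ℂ} (h : IsRepOf N g k a b)
    {n : ℕ} (hn : n ≠ 0) {γ : SL(2, ℤ)} (hγ : γ ∈ Gamma0 N) :
    (a * b ^ (n - 1)) ∣[(n : ℤ) * k] γ = a * b ^ (n - 1) :=
  slash_eq_of_isMF (rootForm_isMF h hn) hγ

/-- `ψ` is the character of the `n`-th roots of the modular function `g` -/
def RootCharOf (N : ℕ) [NeZero N] (n : ℕ) (g : LaurentSeries ℂ) (ψ : Gamma0 N →* ℂˣ) : Prop :=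
  ∃ (k : ℤ) (a b : ℍ → ℂ), IsRepOf N g k a b ∧ IsRootChar (Gamma0 N) n k (a * b ^ (n - 1)) ψ

/-- Independence of the representation. -/
theorem isRootChar_unique {n : ℕ} (hn : n ≠ 0) {g : LaurentSeries ℂ} (hg : g ≠ 0) {k k' : ℤ}
    {a b a' b' : ℍ → ℂ} (h : IsRepOf N g k a b) (h' : IsRepOf N g k' a' b')
    {ψ ψ' : Gamma0 N →* ℂˣ} (hψ : IsRootChar (Gamma0 N) n k (a * b ^ (n - 1)) ψ)
    (hψ' : IsRootChar (Gamma0 N) n k' (a' * b' ^ (n - 1)) ψ') : ψ = ψ' := by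
  obtain ⟨m, rfl⟩ : ∃ m, n = m + 1 := ⟨n - 1, (Nat.succ_pred_eq_of_ne_zero hn).symm⟩
  simp only [Nat.add_sub_cancel] at hψ hψ'
  have hcross := h.cross h'
  have hb : IsRootChar (Gamma0 N) (m + 1) k (b ^ (m + 1)) 1 :=
    IsRootChar.of_pow (mdiff_of_isMF h.hb) (fun γ hγ => slash_eq_of_isMF h.hb hγ)
  have hb' : IsRootChar (Gamma0 N) (m + 1) k' (b' ^ (m + 1)) 1 :=
    IsRootChar.of_pow (mdiff_of_isMF h'.hb) (fun γ hγ => slash_eq_of_isMF h'.hb hγ)
  have h1 := hψ.mul hb'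
  have h2 := hψ'.mul hb
  have heq : a * b ^ m * b' ^ (m + 1) = a' * b' ^ m * b ^ (m + 1) := by
    linear_combination (b ^ m * b' ^ m) * hcross
  have e1 : ψ * 1 = ψ := mul_one ψ
  have e2 : ψ' * 1 = ψ' := mul_one ψ'
  rw [e1] at h1
  rw [e2] at h2
  rw [heq, add_comm k k'] at h1
  refine IsRootChar.unique (Nat.succ_ne_zero m) ?_ h1 h2
  have e1 := rootForm_ne_zero h' hg (m + 1)
  simp only [Nat.add_sub_cancel] at e1
  exact mul_ne_zero_fun ((mdiff_of_isMF h'.ha).mul ((mdiff_of_isMF h'.hb).pow _))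
    ((mdiff_of_isMF h.hb).pow _) e1 (pow_ne_zero_fun h.hb0 _)

namespace RootCharOf

variable {n : ℕ} {g g' : LaurentSeries ℂ} {ψ ψ' : Gamma0 N →* ℂˣ}

theorem unique (hn : n ≠ 0) (hg : g ≠ 0) (h : RootCharOf N n g ψ) (h' : RootCharOf N n g ψ') :
    ψ = ψ' := by
  obtain ⟨k, a, b, hr, hψ⟩ := h
  obtain ⟨k', a', b', hr', hψ'⟩ := h'
  exact isRootChar_unique hn hg hr hr' hψ hψ'

/-- for every representation of `g`, `ψ` is the root character of `a * b ^ (n - 1)` -/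
theorem isRootChar (hn : n ≠ 0) (hg : g ≠ 0) (h : RootCharOf N n g ψ) {k : ℤ} {a b : ℍ → ℂ}
    (hr : IsRepOf N g k a b) (hex : ∃ ψ', IsRootChar (Gamma0 N) n k (a * b ^ (n - 1)) ψ') :
    IsRootChar (Gamma0 N) n k (a * b ^ (n - 1)) ψ := by
  obtain ⟨ψ', hψ'⟩ := hex
  rwa [h.unique hn hg ⟨k, a, b, hr, hψ'⟩]

theorem mul (h : RootCharOf N n g ψ) (h' : RootCharOf N n g' ψ') :
    RootCharOf N n (g * g') (ψ * ψ') := by
  obtain ⟨k, a, b, hr, hψ⟩ := h
  obtain ⟨k', a', b', hr', hψ'⟩ := h'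
  refine ⟨k + k', a * a', b * b', hr.mul hr', ?_⟩
  have := hψ.mul hψ'
  have e : a * b ^ (n - 1) * (a' * b' ^ (n - 1)) = a * a' * (b * b') ^ (n - 1) := by
    rw [mul_pow]; ring
  rwa [e] at this

theorem pow_eq_one (hn : n ≠ 0) (hg : g ≠ 0) (h : RootCharOf N n g ψ) : ψ ^ n = 1 := by
  obtain ⟨k, a, b, hr, hψ⟩ := h
  exact hψ.pow_eq_one hn (rootForm_ne_zero hr hg n) (fun γ hγ => rootForm_slash hr hn hγ)

end RootCharOf

theorem IsRepOf_pow {g : LaurentSeries ℂ} {k : ℤ} {a b : ℍ → ℂ} (h : IsRepOf N g k a b) (n : ℕ) :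
    IsRepOf N (g ^ n) ((n : ℤ) * k) (a ^ n) (b ^ n) where
  ha := h.ha.pow n
  hb := h.hb.pow n
  hb0 := pow_ne_zero_fun h.hb0 n
  eq := by
    rw [qx_pow (isQ_of_isMF h.ha), qx_pow (isQ_of_isMF h.hb), map_pow, map_pow, h.eq, mul_pow]

/-- `n`-th powers have trivial root character -/
theorem rootCharOf_pow_self {n : ℕ} (hn : n ≠ 0) {g : LaurentSeries ℂ} (hg : IsRepC N g) :
    RootCharOf N n (g ^ n) 1 := by
  obtain ⟨k, a, b, hr⟩ := hg
  refine ⟨(n : ℤ) * k, a ^ n, b ^ n, IsRepOf_pow hr n, ?_⟩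
  have e : a ^ n * (b ^ n) ^ (n - 1) = (a * b ^ (n - 1)) ^ n := by
    rw [mul_pow, ← pow_mul, ← pow_mul, mul_comm n (n - 1)]
  rw [e]
  exact IsRootChar.of_pow (rootForm_mdiff hr n) (fun γ hγ => rootForm_slash hr hn hγ)

/-- non-zero constants have trivial root character -/
theorem rootCharOf_const {n : ℕ} (hn : n ≠ 0) (c : ℂ) :
    RootCharOf N n (HahnSeries.C c) 1 := by
  obtain ⟨c', hc'⟩ : ∃ c' : ℂ, c' ^ n = c := IsAlgClosed.exists_pow_nat_eq c (Nat.pos_of_ne_zero hn)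
  refine ⟨0, fun _ => c, 1, IsRepOf.const c, ?_⟩
  have e : (fun _ : ℍ => c) * (1 : ℍ → ℂ) ^ (n - 1) = (fun _ : ℍ => c') ^ n := by
    funext z
    simp [hc']
  rw [e]
  exact IsRootChar.of_pow mdifferentiable_const
    (fun γ _ => ModularForm.is_invariant_const γ c')

end Fermat.Agent.S30.Analytic.RepChar
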