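import Mathlib
import Fermat.Agent.S30.Analytic.PlaceDict
import Fermat.Agent.S30.Analytic.PointPlace
import Fermat.Agent.S24.OrbitCount
import Fermat.Agent.S24.OrbitsPt
import Fermat.Agent.S24.OrbitsCusp
import Fermat.Agent.S24.OrbitsPtGlue

/-!
# PROJECT J (S30), slice J-1 (D2): EVERY place of the function field over `ℂ` is a point of `ℍ`
or a cusp, with the exact ramification (helper11)

## Generic part (`K` algebraically closed of characteristic zero)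

In the setting of `S24.OrbitCount.card_zeros_eq_card_orbits` / `card_poles_eq_card_orbits`
(`x : F` with `IsFF K x`, a family `L q : F →+* Ω` of `[F : K(x)]` embeddings into a discretely
valued field, permuted by `d` up to equivalence of the pulled back valuation):

* `exists_dict_zero` : every place `v` of `F/K` with `x - a ∈ m_v` is `O_v = (L q)⁻¹ O_w` for some `q`,
  and `#orbit(q) · log w(L q f) = - m · ord_v f` for every `f ≠ 0`;
* `exists_dict_pole` : the same at the poles of `x`.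

## The instance over `ℂ`

`F` a field with `[Algebra ℂ F]`, `ρ : F →+* repField N` surjective and compatible with the
constants (helper27's interface `PointPlace.ConstCompat`), `jF : F` with `ρ jF = jrep N`,
`IsFF ℂ jF` and `[F : ℂ(jF)] = [SL(2, ℤ) : Γ₀(N)]`.

* `exists_point_or_cusp` : every place `P` of `F/ℂ` is a point of `ℍ` or a cusp, with the exact
  formula for `ord_P`;
* `dvd_ord_of_local` : the surjectivity-side transfer "`n ∣` local orders everywhere (with the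
  extra factors at the elliptic points and at the cusps) `⟹ n ∣ ord_P g` for every place `P`".
-/

set_option autoImplicit false
set_option linter.unusedSectionVars false
set_option linter.style.haveILetI false

open AlgebraicCurve WithZero IntermediateField Module

noncomputable section

namespace Fermat.Agent.S30.Analytic.AllPlacesC

open Fermat.Agent.S24.FF Fermat.Agent.S24

/-! ### Generic part -/

section Generic

variable {K F Ω : Type*} [Field K] [IsAlgClosed K] [CharZero K] [Field F] [Algebra K F] [Field Ω]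

/-- **Zeros of `x - a`, exact dictionary.** -/
theorem exists_dict_zero {x : F} (hx : IsFF K x) (a : K)
    (w : Valuation Ω ℤᵐ⁰) {Q : Type*} [Fintype Q] {G : Type*} [Group G] [MulAction G Q] (d : G)
    (L : Q → F →+* Ω)
    (hcard : Fintype.card Q = finrank K⟮x⟯ F) (hinj : Function.Injective L)
    (hconst : ∀ q q' (c : K), L q (algebraMap K F c) = L q' (algebraMap K F c))
    (hLx : ∀ q q', L q x = L q' x)
    (hK : ∀ q (c : K), w (L q (algebraMap K F c)) ≤ 1)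
    (m : ℕ) (hm0 : 0 < m) (hm : ∀ q, w (L q (x - algebraMap K F a)) = exp (-(m : ℤ)))
    (hsame : ∀ q : Q, w.valuationSubring.comap (L (d • q)) = w.valuationSubring.comap (L q))
    (hdvd : ∀ q : Q, Nat.card (MulAction.orbit (Subgroup.zpowers d) q) ∣ m)
    (hs : ∀ (q : Q) (f : F), f ≠ 0 →
      (m : ℤ) ∣ (Nat.card (MulAction.orbit (Subgroup.zpowers d) q) : ℤ) * log (w (L q f)))
    (v : Place K F) (hv : x - algebraMap K F a ∈ v.toValuationSubring.nonunits) :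
    ∃ q : Q, v.toValuationSubring = w.valuationSubring.comap (L q) ∧
      ∀ f : F, f ≠ 0 →
        (Nat.card (MulAction.orbit (Subgroup.zpowers d) q) : ℤ) * log (w (L q f)) =
          -((m : ℤ) * v.ord f) := by
  haveI := Hurwitz.finite_zeros hx a
  have hall : ∀ v : Place K F, x - algebraMap K F a ∈ v.toValuationSubring.nonunits →
      ∃ q, v.toValuationSubring = w.valuationSubring.comap (L q) := fun v hv =>
    LemmaA.exists_place_eq_comap_sub w.valuationSubring L hx a hcard hinj hconst hLx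
      (fun q c => hK q c) (fun q => OrbitCount.mem_nonunits_of_eq_exp w hm0 (hm q)) v hv
  obtain ⟨q, hq⟩ := hall v hv
  refine ⟨q, hq, fun f hf => ?_⟩
  exact PlaceDict.card_orbit_mul_log_eq (K := K) w L (x - algebraMap K F a) d
    (by rw [Hurwitz.finsum_ord_zeros hx a, hcard]) hall m hm0 hm hsame hdvd hs v hv q hq f hf

/-- **Poles of `x`, exact dictionary.** -/
theorem exists_dict_pole {x : F} (hx : IsFF K x)
    (w : Valuation Ω ℤᵐ⁰) {Q : Type*} [Fintype Q] {G : Type*} [Group G] [MulAction G Q] (d : G)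
    (L : Q → F →+* Ω)
    (hcard : Fintype.card Q = finrank K⟮x⟯ F) (hinj : Function.Injective L)
    (hconst : ∀ q q' (c : K), L q (algebraMap K F c) = L q' (algebraMap K F c))
    (hLx : ∀ q q', L q x = L q' x)
    (hK : ∀ q (c : K), w (L q (algebraMap K F c)) ≤ 1)
    (m : ℕ) (hm0 : 0 < m) (hm : ∀ q, w (L q x⁻¹) = exp (-(m : ℤ)))
    (hsame : ∀ q : Q, w.valuationSubring.comap (L (d • q)) = w.valuationSubring.comap (L q))
    (hdvd : ∀ q : Q, Nat.card (MulAction.orbit (Subgroup.zpowers d) q) ∣ m)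
    (hs : ∀ (q : Q) (f : F), f ≠ 0 →
      (m : ℤ) ∣ (Nat.card (MulAction.orbit (Subgroup.zpowers d) q) : ℤ) * log (w (L q f)))
    (v : Place K F) (hv : x ∉ v.toValuationSubring) :
    ∃ q : Q, v.toValuationSubring = w.valuationSubring.comap (L q) ∧
      ∀ f : F, f ≠ 0 →
        (Nat.card (MulAction.orbit (Subgroup.zpowers d) q) : ℤ) * log (w (L q f)) =
          -((m : ℤ) * v.ord f) := by
  haveI := Hurwitz.finite_inv_zeros hx
  have hv' : x⁻¹ ∈ v.toValuationSubring.nonunits := (Hurwitz.inv_mem_nonunits_iff hx v).mpr hv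
  have hall : ∀ v : Place K F, x⁻¹ ∈ v.toValuationSubring.nonunits →
      ∃ q, v.toValuationSubring = w.valuationSubring.comap (L q) := fun v hv =>
    LemmaA.exists_place_eq_comap_inv w.valuationSubring L hx hcard hinj hconst hLx
      (fun q c => hK q c) (fun q => OrbitCount.mem_nonunits_of_eq_exp w hm0 (hm q)) v hv
  obtain ⟨q, hq⟩ := hall v hv'
  refine ⟨q, hq, fun f hf => ?_⟩
  exact PlaceDict.card_orbit_mul_log_eq (K := K) w L x⁻¹ d
    (by rw [Hurwitz.finsum_ord_inv hx, hcard]) hall m hm0 hm hsame hdvd hs v hv' q hq f hf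

/-- every place is a pole of `x` or a zero of `x - a` (subtype-free form) -/
theorem pole_or_zero {x : F} (hx : IsFF K x) (v : Place K F) :
    x ∉ v.toValuationSubring ∨ ∃ a : K, x - algebraMap K F a ∈ v.toValuationSubring.nonunits := by
  obtain ⟨a, h | h⟩ := Hurwitz.mem_poles_or_mem_zeros hx v
  · left
    rw [Hurwitz.not_mem_iff]
    exact (Hurwitz.mem_poles hx v).mp h
  · right
    refine ⟨a, ?_⟩
    rw [Hurwitz.mem_nonunits_iff]
    exact (Hurwitz.mem_zeros hx a v).mp h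

end Generic


/-! ### The instance over `ℂ` -/

section Complex

open UpperHalfPlane hiding I
open CongruenceSubgroup MulAction ModularGroup ModularForm
open Fermat.Agent.S20 Fermat.Agent.S24.RepHom Fermat.Agent.S24.LaurentPt Fermat.Agent.S24.LaurentCusp
  Fermat.Agent.S24.OrbitDefs Fermat.Agent.LevelOne.JBasic Fermat.Agent.S24.LmapJ
  Fermat.Agent.S30.Analytic.PointPlace
open scoped MatrixGroups ModularForm Manifold

variable {N : ℕ} [NeZero N] {F : Type*} [Field F] [Algebra ℂ F] (ρ : F →+* repField N)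

/-- the point embeddings: Laurent expansion at `τ` of `f ∘ γ⁻¹`, `q = γ Γ₀(N)` -/
def Lp (τ : ℍ) (q : SL(2, ℤ) ⧸ Gamma0 N) : F →+* LaurentSeries ℂ := (LptQ N τ q).comp ρ

/-- the cusp embeddings: `q_N`-expansion at `i∞` of `f ∘ γ⁻¹`, `q = γ Γ₀(N)` -/
def Lc (q : SL(2, ℤ) ⧸ Gamma0 N) : F →+* LaurentSeries ℂ :=
  (OrbitsCusp.Λrep N (Quotient.out q)⁻¹).comp ρ

theorem Lp_apply (τ : ℍ) (q : SL(2, ℤ) ⧸ Gamma0 N) (f : F) : Lp ρ τ q f = LptQ N τ q (ρ f) := rfl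

theorem Lc_apply (q : SL(2, ℤ) ⧸ Gamma0 N) (f : F) :
    Lc ρ q f = OrbitsCusp.Λrep N (Quotient.out q)⁻¹ (ρ f) := rfl

variable {ρ}

/-! #### points -/

theorem Lp_injective {jNF : F} (hjN : ρ jNF = LmapSep.jNrep N) (τ : ℍ) :
    Function.Injective (Lp ρ τ) := by
  intro q q' h
  have h1 := congrArg (fun φ => φ jNF) h
  simp only [Lp_apply, hjN] at h1
  exact LmapSep.quot_eq_of_Lmap_out_inv_eq_mdiff (taylorHolHom τ) q q' h1

theorem Lp_algebraMap (hρ : ConstCompat ρ) (τ : ℍ) (q : SL(2, ℤ) ⧸ Gamma0 N) (c : ℂ) :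
    Lp ρ τ q (algebraMap ℂ F c) = HahnSeries.C c := by
  rw [Lp_apply, hρ c]
  exact Lpt_const τ _ c _

theorem Lp_jF {jF : F} (hj : ρ jF = jrep N) (τ : ℍ) (q : SL(2, ℤ) ⧸ Gamma0 N) :
    Lp ρ τ q jF = ofPS (Taylor.taylorAt τ (⇑LevelRaise.E4cube))
      / ofPS (Taylor.taylorAt τ (⇑LevelRaise.DeltaMF)) := by
  rw [Lp_apply, hj]
  exact Lpt_levelOne τ _ (jrep N) (isRepOf_jC N) ⟨LevelRaise.E4cube, rfl⟩
    ⟨LevelRaise.DeltaMF, rfl⟩

theorem v_Lp_algebraMap_le (hρ : ConstCompat ρ) (τ : ℍ) (q : SL(2, ℤ) ⧸ Gamma0 N) (c : ℂ) :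
    v (Lp ρ τ q (algebraMap ℂ F c)) ≤ 1 := by
  rw [Lp_apply, hρ c]
  exact valuation_Lpt_const_le_one τ _ c _

theorem v_Lp_jF_sub (hρ : ConstCompat ρ) {jF : F} (hj : ρ jF = jrep N) (τ : ℍ)
    (q : SL(2, ℤ) ⧸ Gamma0 N) :
    v (Lp ρ τ q (jF - algebraMap ℂ F (jFun τ)))
      = exp (-((if jFun τ = 0 then 3 else if jFun τ = 1728 then 2 else 1 : ℕ) : ℤ)) := by
  rw [Lp_apply, map_sub, hj, hρ]
  exact valued_Lmap_jrep_sub (N := N) (taylorHolHom τ) (fun _ _ => rfl)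
    (Quotient.out q)⁻¹ (slashP_mdiff N _)

theorem comap_Lp_smul (τ : ℍ) {d : SL(2, ℤ)} (hd : d • τ = τ) (q : SL(2, ℤ) ⧸ Gamma0 N) :
    v.valuationSubring.comap (Lp ρ τ (d • q)) = v.valuationSubring.comap (Lp ρ τ q) := by
  ext f
  have h := comap_LptQ_smul (N := N) τ hd q
  have h1 : ρ f ∈ v.valuationSubring.comap (LptQ N τ (d • q)) ↔
      ρ f ∈ v.valuationSubring.comap (LptQ N τ q) := by rw [h]
  exact h1

/-- **The dictionary at a point `τ` with stabiliser generated by `d`, ramification `m`.** -/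
theorem exists_point_of (hρ : ConstCompat ρ) {jF jNF : F} (hj : ρ jF = jrep N)
    (hjN : ρ jNF = LmapSep.jNrep N) (hx : IsFF ℂ jF)
    (hdeg : finrank ℂ⟮jF⟯ F = Nat.card (SL(2, ℤ) ⧸ Gamma0 N))
    (τ : ℍ) (d : SL(2, ℤ)) (hd : d • τ = τ) (m : ℕ)
    (hm : (if jFun τ = 0 then 3 else if jFun τ = 1728 then 2 else 1 : ℕ) = m)
    (hdvd : ∀ q : SL(2, ℤ) ⧸ Gamma0 N, Nat.card (orbit (Subgroup.zpowers d) q) ∣ m)
    (hs : ∀ (q : SL(2, ℤ) ⧸ Gamma0 N) (g : repField N), g ≠ 0 →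
      (m : ℤ) ∣ (Nat.card (orbit (Subgroup.zpowers d) q) : ℤ) * log (v (LptQ N τ q g)))
    (P : Place ℂ F)
    (hP : jF - algebraMap ℂ F (jFun τ) ∈ P.toValuationSubring.nonunits) :
    ∃ q : SL(2, ℤ) ⧸ Gamma0 N, P.toValuationSubring = v.valuationSubring.comap (Lp ρ τ q) ∧
      ∀ f : F, f ≠ 0 →
        (Nat.card (orbit (Subgroup.zpowers d) q) : ℤ) * log (v (LptQ N τ q (ρ f))) =
          -((m : ℤ) * P.ord f) := by
  classical
  let _ : Fintype (SL(2, ℤ) ⧸ Gamma0 N) := Fintype.ofFinite _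
  have hm0 : 0 < m := by
    rw [← hm]; split_ifs <;> norm_num
  refine exists_dict_zero hx (jFun τ) v d (Lp ρ τ) ?_ (Lp_injective hjN τ) ?_ ?_
    (fun q c => v_Lp_algebraMap_le hρ τ q c) m hm0 ?_ (comap_Lp_smul τ hd) hdvd ?_ P hP
  · rw [hdeg, Nat.card_eq_fintype_card]
  · intro q q' c
    rw [Lp_algebraMap hρ, Lp_algebraMap hρ]
  · intro q q'
    rw [Lp_jF hj, Lp_jF hj]
  · intro q
    rw [v_Lp_jF_sub hρ hj τ q, hm]
  · intro q f hf
    exact hs q (ρ f) ((map_ne_zero ρ).mpr hf)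

/-- **Every zero of `j - a` is a point of `ℍ`**, with the exact ramification `e ∈ {1, 2, 3}`:
`e = 2` only at `τ = i` with `S` fixing the coset, `e = 3` only at `τ = ρ` with `S T` fixing the
coset. -/
theorem exists_point (hρ : ConstCompat ρ) {jF jNF : F} (hj : ρ jF = jrep N)
    (hjN : ρ jNF = LmapSep.jNrep N) (hx : IsFF ℂ jF)
    (hdeg : finrank ℂ⟮jF⟯ F = Nat.card (SL(2, ℤ) ⧸ Gamma0 N)) (a : ℂ) (P : Place ℂ F)
    (hP : jF - algebraMap ℂ F a ∈ P.toValuationSubring.nonunits) :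
    ∃ (τ : ℍ) (q : SL(2, ℤ) ⧸ Gamma0 N) (e : ℕ), jFun τ = a ∧
      P.toValuationSubring = v.valuationSubring.comap (Lp ρ τ q) ∧
      (∀ f : F, f ≠ 0 → log (v (LptQ N τ q (ρ f))) = -((e : ℤ) * P.ord f)) ∧
      (e = 1 ∨ (e = 2 ∧ τ = UpperHalfPlane.I ∧ (S : SL(2, ℤ)) • q = q) ∨
        (e = 3 ∧ τ = rho ∧ (S * T : SL(2, ℤ)) • q = q)) := by
  classical
  by_cases h1728 : a = 1728
  · -- the point `i`
    subst h1728
    have hP' : jF - algebraMap ℂ F (jFun UpperHalfPlane.I) ∈ P.toValuationSubring.nonunits := by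
      rw [jFun_I]; exact hP
    obtain ⟨q, hq, hf⟩ := exists_point_of hρ hj hjN hx hdeg UpperHalfPlane.I S
      LmapTaylor.S_smul_I 2 (by rw [jFun_I]; norm_num)
      (fun q => Count.card_orbit_zpowers_dvd S q 2 (Count.S_sq_smul N q))
      (by
        intro q g hg
        rw [Count.card_orbit_S N q]
        split_ifs with hq
        · rw [Nat.cast_one, one_mul]
          exact_mod_cast two_dvd_log_valuation_LptQ hq hg
        · exact dvd_mul_right _ _) P hP'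
    rw [Count.card_orbit_S N q] at hf
    by_cases hfix : (S : SL(2, ℤ)) • q = q
    · refine ⟨UpperHalfPlane.I, q, 2, jFun_I, hq, fun f hf0 => ?_, Or.inr (Or.inl ⟨rfl, rfl, hfix⟩)⟩
      have := hf f hf0
      rw [if_pos hfix, Nat.cast_one, one_mul] at this
      exact_mod_cast this
    · refine ⟨UpperHalfPlane.I, q, 1, jFun_I, hq, fun f hf0 => ?_, Or.inl rfl⟩
      have := hf f hf0
      rw [if_neg hfix] at this
      push_cast at this ⊢
      linarith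
  by_cases h0 : a = 0
  · -- the point `ρ`
    subst h0
    have hP' : jF - algebraMap ℂ F (jFun rho) ∈ P.toValuationSubring.nonunits := by
      rw [jFun_rho]; exact hP
    obtain ⟨q, hq, hf⟩ := exists_point_of hρ hj hjN hx hdeg rho (S * T)
      ST_smul_rho 3 (by rw [jFun_rho]; norm_num)
      (fun q => Count.card_orbit_zpowers_dvd (S * T) q 3 (Count.ST_cube_smul N q))
      (by
        intro q g hg
        rw [Count.card_orbit_ST N q]
        split_ifs with hq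
        · rw [Nat.cast_one, one_mul]
          exact_mod_cast three_dvd_log_valuation_LptQ hq hg
        · exact dvd_mul_right _ _) P hP'
    rw [Count.card_orbit_ST N q] at hf
    by_cases hfix : (S * T : SL(2, ℤ)) • q = q
    · refine ⟨rho, q, 3, jFun_rho, hq, fun f hf0 => ?_, Or.inr (Or.inr ⟨rfl, rfl, hfix⟩)⟩
      have := hf f hf0
      rw [if_pos hfix, Nat.cast_one, one_mul] at this
      exact_mod_cast this
    · refine ⟨rho, q, 1, jFun_rho, hq, fun f hf0 => ?_, Or.inl rfl⟩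
      have := hf f hf0
      rw [if_neg hfix] at this
      push_cast at this ⊢
      linarith
  · -- a generic point
    obtain ⟨τ, rfl⟩ := jFun_surjective a
    obtain ⟨q, hq, hf⟩ := exists_point_of hρ hj hjN hx hdeg τ 1 (one_smul _ _) 1
      (by rw [if_neg h0, if_neg h1728])
      (fun q => by rw [OrbitsPt.card_orbit_one N q])
      (fun q g _ => by rw [Nat.cast_one]; exact one_dvd _) P hP
    refine ⟨τ, q, 1, rfl, hq, fun f hf0 => ?_, Or.inl rfl⟩
    have := hf f hf0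
    rw [OrbitsPt.card_orbit_one N q] at this
    push_cast at this ⊢
    linarith

/-! #### cusps -/

variable (ρ) in
/-- expansion of `f ∘ γ` at `i∞` -/
def Λc (γ : SL(2, ℤ)) : F →+* LaurentSeries ℂ := (OrbitsCusp.Λrep N γ).comp ρ

theorem Λc_apply (γ : SL(2, ℤ)) (f : F) : Λc ρ γ f = OrbitsCusp.Λrep N γ (ρ f) := rfl

theorem Λc_mul_left : ∀ δ ∈ Gamma0 N, ∀ γ : SL(2, ℤ), Λc ρ (δ * γ) = Λc ρ γ := by
  intro δ hδ γ
  unfold Λc
  rw [OrbitsCusp.Λrep_mul_left N hδ γ]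

theorem Lc_eq (q : SL(2, ℤ) ⧸ Gamma0 N) : Lc ρ q = Lq (Gamma0 N) (Λc ρ) q := rfl

theorem comap_Lc_T_smul (q : SL(2, ℤ) ⧸ Gamma0 N) :
    v.valuationSubring.comap (Lc ρ ((ModularGroup.T : SL(2, ℤ)) • q)) =
      v.valuationSubring.comap (Lc ρ q) := by
  have h1 : Lc ρ ((ModularGroup.T : SL(2, ℤ)) • q) =
      Λc ρ ((Quotient.out q)⁻¹ * (ModularGroup.T : SL(2, ℤ)) ^ (-1 : ℤ)) := by
    rw [zpow_neg_one, Lc_eq]
    exact Lq_smul Λc_mul_left _ q
  ext f
  rw [ValuationSubring.mem_comap, ValuationSubring.mem_comap, Valuation.mem_valuationSubring_iff,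
    Valuation.mem_valuationSubring_iff, h1, Lc_apply, Λc_apply, OrbitsCusp.v_Λrep_mul_T_zpow]

/-- **`hs`** at the cusps, for an arbitrary element of `repField N`. -/
theorem dvd_width_mul_log_Λrep (q : SL(2, ℤ) ⧸ Gamma0 N) (g : repField N) (hg : g ≠ 0) :
    (N : ℤ) ∣ (OrbitsCusp.width N q : ℤ) *
      log (v (OrbitsCusp.Λrep N (Quotient.out q)⁻¹ g)) := by
  have hne : OrbitsCusp.Λrep N (Quotient.out q)⁻¹ g ≠ 0 := (map_ne_zero _).mpr hg
  obtain ⟨k, a, b, h⟩ := g.2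
  obtain ⟨A, rfl⟩ := h.ha
  obtain ⟨B, rfl⟩ := h.hb
  have e : OrbitsCusp.Λrep N (Quotient.out q)⁻¹ g =
      cuspExp N (⇑A ∣[k] (Quotient.out q)⁻¹) / cuspExp N (⇑B ∣[k] (Quotient.out q)⁻¹) :=
    OrbitsCusp.Λrep_eq_div N _ _ h
  rw [e] at hne ⊢
  have hA : cuspExp N (⇑A ∣[k] (Quotient.out q)⁻¹) ≠ 0 := fun h0 => hne (by rw [h0, zero_div])
  have hB : cuspExp N (⇑B ∣[k] (Quotient.out q)⁻¹) ≠ 0 := fun h0 => hne (by rw [h0, div_zero])
  exact dvd_width_mul_log_valuation A B _ (OrbitsCusp.width_dvd N q) (OrbitsCusp.width_pos N q)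
    (OrbitsCusp.conj_T_width_mem N q) hA hB

theorem Lc_algebraMap (hρ : ConstCompat ρ) (q : SL(2, ℤ) ⧸ Gamma0 N) (c : ℂ) :
    Lc ρ q (algebraMap ℂ F c) = algebraMap ℂ (LaurentSeries ℂ) c := by
  rw [Lc_apply, hρ c]
  exact Lmap_const (OrbitsCusp.slashP_cusp N _) c _

theorem v_Lc_algebraMap_le (hρ : ConstCompat ρ) (q : SL(2, ℤ) ⧸ Gamma0 N) (c : ℂ) :
    v (Lc ρ q (algebraMap ℂ F c)) ≤ 1 := by
  rw [Lc_algebraMap hρ, algebraMap_eq_ofPS_C]
  exact v_ofPS_le_one _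

theorem Lc_jF {jF : F} (hj : ρ jF = jrep N) (q : SL(2, ℤ) ⧸ Gamma0 N) :
    Lc ρ q jF = (cuspExp N (⇑E₄)) ^ 3 / cuspExp N ModularForm.discriminant := by
  have h4 : IsCuspHol N (⇑E₄) := (isCuspHol_one_of_class E₄).of_one
  have e1 : (⇑LevelRaise.E4cube : ℍ → ℂ) = (⇑E₄ : ℍ → ℂ) ^ 3 := by
    funext z
    rw [LevelRaise.E4cube_apply, Pi.pow_apply]
  have e2 : (⇑LevelRaise.DeltaMF : ℍ → ℂ) = ModularForm.discriminant := rfl
  have := Lmap_levelOne (T := OrbitsCusp.cuspHom N) (OrbitsCusp.slashP_cusp N (Quotient.out q)⁻¹)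
    (jrep N) (isRepOf_jC N) (IsMF.coe LevelRaise.E4cube) (IsMF.coe LevelRaise.DeltaMF)
  rw [Lc_apply, hj]
  show Lmap (OrbitsCusp.cuspHom N) (Quotient.out q)⁻¹ _ (jrep N) = _
  rw [this]
  show cuspExp N _ / cuspExp N _ = _
  rw [e1, e2, cuspExp_pow h4]

theorem v_Lc_jF_inv {jF : F} (hj : ρ jF = jrep N) (q : SL(2, ℤ) ⧸ Gamma0 N) :
    v (Lc ρ q jF⁻¹) = exp (-(N : ℤ)) := by
  rw [map_inv₀, Lc_jF hj, inv_div]
  exact valuation_discriminant_div_E₄_cube

theorem Lc_injective {jNF : F} (hjN : ρ jNF = LmapSep.jNrep N) : Function.Injective (Lc ρ) := by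
  intro q q' h
  have h1 := congrArg (fun φ => φ jNF) h
  simp only [Lc_apply, hjN] at h1
  exact LmapSep.quot_eq_of_Lmap_out_inv_eq (OrbitsCusp.cuspHom N) (OrbitsCusp.isCuspHol_sub_closed N)
    q q' (OrbitsCusp.slashP_cusp N _) (OrbitsCusp.slashP_cusp N _) h1

/-- **Every pole of `j` is a cusp**, with the exact ramification. -/
theorem exists_cusp (hρ : ConstCompat ρ) {jF jNF : F} (hj : ρ jF = jrep N)
    (hjN : ρ jNF = LmapSep.jNrep N) (hx : IsFF ℂ jF)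
    (hdeg : finrank ℂ⟮jF⟯ F = Nat.card (SL(2, ℤ) ⧸ Gamma0 N)) (P : Place ℂ F)
    (hP : jF ∉ P.toValuationSubring) :
    ∃ q : SL(2, ℤ) ⧸ Gamma0 N, P.toValuationSubring = v.valuationSubring.comap (Lc ρ q) ∧
      ∀ f : F, f ≠ 0 →
        (OrbitsCusp.width N q : ℤ) * log (v (OrbitsCusp.Λrep N (Quotient.out q)⁻¹ (ρ f))) =
          -((N : ℤ) * P.ord f) := by
  classical
  let _ : Fintype (SL(2, ℤ) ⧸ Gamma0 N) := Fintype.ofFinite _
  have hN0 : 0 < N := Nat.pos_of_ne_zero (NeZero.ne N)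
  obtain ⟨q, hq, hf⟩ := exists_dict_pole hx v (ModularGroup.T : SL(2, ℤ)) (Lc ρ)
    (by rw [hdeg, Nat.card_eq_fintype_card]) (Lc_injective hjN)
    (fun q q' c => by rw [Lc_algebraMap hρ, Lc_algebraMap hρ])
    (fun q q' => by rw [Lc_jF hj, Lc_jF hj])
    (fun q c => v_Lc_algebraMap_le hρ q c) N hN0 (v_Lc_jF_inv hj) comap_Lc_T_smul
    (fun q => by rw [OrbitsCusp.card_orbit_zpowers]; exact OrbitsCusp.width_dvd N q)
    (fun q f hf => by
      rw [OrbitsCusp.card_orbit_zpowers]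
      exact dvd_width_mul_log_Λrep q (ρ f) ((map_ne_zero ρ).mpr hf)) P hP
  refine ⟨q, hq, fun f hf0 => ?_⟩
  have := hf f hf0
  rw [OrbitsCusp.card_orbit_zpowers] at this
  exact this

/-! #### every place -/

/-- **Every place of `F/ℂ` is a point of `ℍ` or a cusp**, with the exact formula for `ord_P`. -/
theorem exists_point_or_cusp (hρ : ConstCompat ρ) {jF jNF : F} (hj : ρ jF = jrep N)
    (hjN : ρ jNF = LmapSep.jNrep N) (hx : IsFF ℂ jF)
    (hdeg : finrank ℂ⟮jF⟯ F = Nat.card (SL(2, ℤ) ⧸ Gamma0 N)) (P : Place ℂ F) :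
    (∃ (τ : ℍ) (q : SL(2, ℤ) ⧸ Gamma0 N) (e : ℕ),
      P.toValuationSubring = v.valuationSubring.comap (Lp ρ τ q) ∧
      (∀ f : F, f ≠ 0 → log (v (LptQ N τ q (ρ f))) = -((e : ℤ) * P.ord f)) ∧
      (e = 1 ∨ (e = 2 ∧ τ = UpperHalfPlane.I ∧ (S : SL(2, ℤ)) • q = q) ∨
        (e = 3 ∧ τ = rho ∧ (S * T : SL(2, ℤ)) • q = q))) ∨
    (∃ q : SL(2, ℤ) ⧸ Gamma0 N, P.toValuationSubring = v.valuationSubring.comap (Lc ρ q) ∧
      ∀ f : F, f ≠ 0 →
        (OrbitsCusp.width N q : ℤ) * log (v (OrbitsCusp.Λrep N (Quotient.out q)⁻¹ (ρ f))) =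
          -((N : ℤ) * P.ord f)) := by
  rcases pole_or_zero hx P with hP | ⟨a, hP⟩
  · exact Or.inr (exists_cusp hρ hj hjN hx hdeg P hP)
  · obtain ⟨τ, q, e, -, hq, hf, he⟩ := exists_point hρ hj hjN hx hdeg a P hP
    exact Or.inl ⟨τ, q, e, hq, hf, he⟩

/-- **Surjectivity-side transfer** (coset form at the cusps): if `n` divides the local order of
`ρ g` at every point of `ℍ` (with the extra factor `2`, `3` at the elliptic fixed points) and at
every cusp (in the normalisation `N n ∣ width · log v`), then `n ∣ ord_P g` at EVERY place `P`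
of `F/ℂ`. -/
theorem dvd_ord_of_local_quot (hρ : ConstCompat ρ) {jF jNF : F} (hj : ρ jF = jrep N)
    (hjN : ρ jNF = LmapSep.jNrep N) (hx : IsFF ℂ jF)
    (hdeg : finrank ℂ⟮jF⟯ F = Nat.card (SL(2, ℤ) ⧸ Gamma0 N)) {g : F} (hg : g ≠ 0) (n : ℤ)
    (hgen : ∀ (τ : ℍ) (γ : SL(2, ℤ)), n ∣ log (v (Lpt N τ γ (ρ g))))
    (hI : ∀ γ : SL(2, ℤ), γ * S * γ⁻¹ ∈ Gamma0 N →
      2 * n ∣ log (v (Lpt N UpperHalfPlane.I γ (ρ g))))
    (hrho : ∀ γ : SL(2, ℤ), γ * (S * T) * γ⁻¹ ∈ Gamma0 N →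
      3 * n ∣ log (v (Lpt N rho γ (ρ g))))
    (hcusp : ∀ q : SL(2, ℤ) ⧸ Gamma0 N, (N : ℤ) * n ∣ (OrbitsCusp.width N q : ℤ) *
      log (v (OrbitsCusp.Λrep N (Quotient.out q)⁻¹ (ρ g))))
    (P : Place ℂ F) : n ∣ P.ord g := by
  rcases exists_point_or_cusp hρ hj hjN hx hdeg P with
    ⟨τ, q, e, -, hf, he⟩ | ⟨q, -, hf⟩
  · have h1 := hf g hg
    rcases he with rfl | ⟨rfl, rfl, hfix⟩ | ⟨rfl, rfl, hfix⟩
    · -- unramified
      obtain ⟨c, hc⟩ := hgen τ (Quotient.out q)⁻¹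
      refine ⟨-c, ?_⟩
      have h2 : log (v (LptQ N τ q (ρ g))) = n * c := hc
      rw [h2] at h1
      push_cast at h1
      linarith
    · -- `i`
      obtain ⟨c, hc⟩ := hI (Quotient.out q)⁻¹ (OrbitsPtGlue.conj_S_mem N q hfix)
      refine ⟨-c, ?_⟩
      have h2 : log (v (LptQ N UpperHalfPlane.I q (ρ g))) = 2 * n * c := hc
      rw [h2] at h1
      push_cast at h1
      linarith
    · -- `ρ`
      obtain ⟨c, hc⟩ := hrho (Quotient.out q)⁻¹ (OrbitsPtGlue.conj_ST_mem N q hfix)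
      refine ⟨-c, ?_⟩
      have h2 : log (v (LptQ N rho q (ρ g))) = 3 * n * c := hc
      rw [h2] at h1
      push_cast at h1
      linarith
  · have h1 := hf g hg
    obtain ⟨c, hc⟩ := hcusp q
    rw [hc] at h1
    have hN0 : (N : ℤ) ≠ 0 := by exact_mod_cast NeZero.ne N
    refine ⟨-c, ?_⟩
    have h3 : (N : ℤ) * P.ord g = (N : ℤ) * (n * -c) := by linarith
    exact mul_left_cancel₀ hN0 h3

/-- **Surjectivity-side transfer**, cusps given by `(γ, w)` with `γ T ^ w γ⁻¹ ∈ Γ₀(N)`. -/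
theorem dvd_ord_of_local (hρ : ConstCompat ρ) {jF jNF : F} (hj : ρ jF = jrep N)
    (hjN : ρ jNF = LmapSep.jNrep N) (hx : IsFF ℂ jF)
    (hdeg : finrank ℂ⟮jF⟯ F = Nat.card (SL(2, ℤ) ⧸ Gamma0 N)) {g : F} (hg : g ≠ 0) (n : ℤ)
    (hgen : ∀ (τ : ℍ) (γ : SL(2, ℤ)), n ∣ log (v (Lpt N τ γ (ρ g))))
    (hI : ∀ γ : SL(2, ℤ), γ * S * γ⁻¹ ∈ Gamma0 N →
      2 * n ∣ log (v (Lpt N UpperHalfPlane.I γ (ρ g))))
    (hrho : ∀ γ : SL(2, ℤ), γ * (S * T) * γ⁻¹ ∈ Gamma0 N →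
      3 * n ∣ log (v (Lpt N rho γ (ρ g))))
    (hcusp : ∀ (γ : SL(2, ℤ)) (w : ℕ), 0 < w → w ∣ N →
      γ * ModularGroup.T ^ (w : ℤ) * γ⁻¹ ∈ Gamma0 N →
        (N : ℤ) * n ∣ (w : ℤ) * log (v (OrbitsCusp.Λrep N γ (ρ g))))
    (P : Place ℂ F) : n ∣ P.ord g :=
  dvd_ord_of_local_quot hρ hj hjN hx hdeg hg n hgen hI hrho
    (fun q => hcusp (Quotient.out q)⁻¹ (OrbitsCusp.width N q) (OrbitsCusp.width_pos N q)
      (OrbitsCusp.width_dvd N q) (OrbitsCusp.conj_T_width_mem N q)) P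

/-- **Surjectivity-side transfer**, in the shape of `TwistedSurj.LocalGlobal` (helper29): the cusp
hypothesis for every `γ`, with the width of the coset of `γ⁻¹`. -/
theorem dvd_ord_of_local_mk (hρ : ConstCompat ρ) {jF jNF : F} (hj : ρ jF = jrep N)
    (hjN : ρ jNF = LmapSep.jNrep N) (hx : IsFF ℂ jF)
    (hdeg : finrank ℂ⟮jF⟯ F = Nat.card (SL(2, ℤ) ⧸ Gamma0 N)) (g : F) (hg : g ≠ 0) (n : ℕ)
    (hgen : ∀ (τ : ℍ) (γ : SL(2, ℤ)), (n : ℤ) ∣ log (Valued.v (Lpt N τ γ (ρ g))))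
    (hI : ∀ γ : SL(2, ℤ), γ * ModularGroup.S * γ⁻¹ ∈ Gamma0 N →
      (2 * n : ℤ) ∣ log (Valued.v (Lpt N UpperHalfPlane.I γ (ρ g))))
    (hrho : ∀ γ : SL(2, ℤ), γ * (ModularGroup.S * ModularGroup.T) * γ⁻¹ ∈ Gamma0 N →
      (3 * n : ℤ) ∣ log (Valued.v (Lpt N Fermat.Agent.LevelOne.JBasic.rho γ (ρ g))))
    (hcusp : ∀ γ : SL(2, ℤ), (N : ℤ) * n ∣ ((OrbitsCusp.width N
        (QuotientGroup.mk γ⁻¹ : SL(2, ℤ) ⧸ Gamma0 N) : ℕ) : ℤ) *
          log (Valued.v (OrbitsCusp.Λrep N γ (ρ g))))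
    (P : Place ℂ F) : (n : ℤ) ∣ P.ord g := by
  refine dvd_ord_of_local_quot hρ hj hjN hx hdeg hg n hgen hI hrho (fun q => ?_) P
  have h := hcusp (Quotient.out q)⁻¹
  rw [inv_inv, QuotientGroup.out_eq'] at h
  exact h

end Complex

end Fermat.Agent.S30.Analytic.AllPlacesC
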