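import Mathlib

/-!
# PROJECT J (S30), slice J-2: twisted Eisenstein series

For a subgroup `G ≤ SL(2, ℤ)` and a unitary character `ψ : G →* ℂˣ` which is trivial on the
stabiliser of `∞` in `G` (`hψ : ∀ g : G, g 1 0 = 0 → ψ g = 1`), the twisted Eisenstein series of
weight `k ≥ 3` is

`E ψ k z = ∑' v : rows G, χ v * (v 0 * z + v 1) ^ (-k)`,

where `rows G` is the set of bottom rows of the elements of `G` and `χ v = (ψ g)⁻¹` for any `g ∈ G`
with bottom row `v` (well defined by `hψ`).  (When `-1 ∈ G` both signs of a row are counted, so this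
is twice the sum over `G_∞ \ G`.)

Main results (namespace `Fermat.Agent.S30.Analytic.TwistedEis`):

* `summable_E`, `E_slash_SL` (`E ∣[k] γ` for arbitrary `γ : SL(2, ℤ)`),
* **`E_slash`** : `E ψ k ∣[k] δ = ψ δ • E ψ k` for `δ ∈ G`,
* **`mdifferentiable_E`** : `E ψ k` is holomorphic on `ℍ`,
* **`isBoundedAtImInfty_E_slash`** : `E ψ k ∣[k] γ` is bounded at `i∞` for all `γ : SL(2, ℤ)`,
* **`tendsto_E_imAxis`**, **`E_ne_zero`** : for even `k`, `E ψ k (i y) → 1 or 2` as `y → ∞`, hence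
  `E ψ k ≠ 0`.
-/

set_option autoImplicit false

noncomputable section

namespace Fermat.Agent.S30.Analytic.TwistedEis

open ModularForm UpperHalfPlane Complex Matrix EisensteinSeries Filter Topology
open scoped MatrixGroups Manifold

/-! ### bottom rows -/

/-- the bottom row of a matrix of `SL(2, ℤ)` -/
def bot (g : SL(2, ℤ)) : Fin 2 → ℤ := (g : Matrix (Fin 2) (Fin 2) ℤ) 1

@[simp] lemma bot_apply (g : SL(2, ℤ)) (i : Fin 2) : bot g i = g 1 i := rfl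

lemma bot_mul (g h : SL(2, ℤ)) : bot (g * h) = bot g ᵥ* (h : Matrix (Fin 2) (Fin 2) ℤ) := by
  ext i
  simp [bot, Matrix.mul_apply, Matrix.vecMul, dotProduct]

@[simp] lemma bot_one : bot 1 = ![0, 1] := by
  ext i
  fin_cases i <;> simp [bot]

lemma bot_ne_zero (g : SL(2, ℤ)) : bot g ≠ 0 := by
  intro h
  have hdet := g.det_coe
  rw [Matrix.det_fin_two] at hdet
  have h0 : g 1 0 = 0 := congrFun h 0
  have h1 : g 1 1 = 0 := congrFun h 1
  rw [h0, h1] at hdet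
  simp at hdet

variable {G : Subgroup SL(2, ℤ)}

/-- the set of bottom rows of the elements of `G` -/
def rows (G : Subgroup SL(2, ℤ)) : Set (Fin 2 → ℤ) := Set.range fun g : G => bot (g : SL(2, ℤ))

lemma bot_mem_rows (g : G) : bot (g : SL(2, ℤ)) ∈ rows G := ⟨g, rfl⟩

lemma vecMul_mem_rows {v : Fin 2 → ℤ} (hv : v ∈ rows G) (δ : G) :
    v ᵥ* ((δ : SL(2, ℤ)) : Matrix (Fin 2) (Fin 2) ℤ) ∈ rows G := by
  obtain ⟨g, rfl⟩ := hv
  exact ⟨g * δ, by simp [bot_mul]⟩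

lemma coe_mul_coe_inv (δ : G) :
    ((δ : SL(2, ℤ)) : Matrix (Fin 2) (Fin 2) ℤ) *
      (((δ⁻¹ : G) : SL(2, ℤ)) : Matrix (Fin 2) (Fin 2) ℤ) = 1 := by
  have h : (δ : SL(2, ℤ)) * ((δ⁻¹ : G) : SL(2, ℤ)) = 1 := by
    rw [← Subgroup.coe_mul, mul_inv_cancel]
    rfl
  rw [← Matrix.SpecialLinearGroup.coe_mul, h, Matrix.SpecialLinearGroup.coe_one]

lemma coe_inv_mul_coe (δ : G) :
    (((δ⁻¹ : G) : SL(2, ℤ)) : Matrix (Fin 2) (Fin 2) ℤ) *
      ((δ : SL(2, ℤ)) : Matrix (Fin 2) (Fin 2) ℤ) = 1 := by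
  have h : ((δ⁻¹ : G) : SL(2, ℤ)) * (δ : SL(2, ℤ)) = 1 := by
    rw [← Subgroup.coe_mul, inv_mul_cancel]
    rfl
  rw [← Matrix.SpecialLinearGroup.coe_mul, h, Matrix.SpecialLinearGroup.coe_one]

/-- right multiplication by `δ ∈ G` permutes the bottom rows of `G` -/
def rowsEquiv (δ : G) : rows G ≃ rows G where
  toFun v := ⟨v.1 ᵥ* ((δ : SL(2, ℤ)) : Matrix (Fin 2) (Fin 2) ℤ), vecMul_mem_rows v.2 δ⟩
  invFun v := ⟨v.1 ᵥ* (((δ⁻¹ : G) : SL(2, ℤ)) : Matrix (Fin 2) (Fin 2) ℤ),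
    vecMul_mem_rows v.2 δ⁻¹⟩
  left_inv v := by
    apply Subtype.ext
    simp only [vecMul_vecMul]
    rw [coe_mul_coe_inv, vecMul_one]
  right_inv v := by
    apply Subtype.ext
    simp only [vecMul_vecMul]
    rw [coe_inv_mul_coe, vecMul_one]

@[simp] lemma coe_rowsEquiv (δ : G) (v : rows G) :
    ((rowsEquiv δ v : rows G) : Fin 2 → ℤ) =
      v.1 ᵥ* ((δ : SL(2, ℤ)) : Matrix (Fin 2) (Fin 2) ℤ) := rfl

/-! ### the character on bottom rows -/

variable (ψ : G →* ℂˣ)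

/-- `ψ` only depends on the bottom row -/
lemma psi_eq_of_bot_eq (hψ : ∀ g : G, (g : SL(2, ℤ)) 1 0 = 0 → ψ g = 1) {g g' : G}
    (h : bot (g : SL(2, ℤ)) = bot (g' : SL(2, ℤ))) : ψ g = ψ g' := by
  have hb : bot ((g' * g⁻¹ : G) : SL(2, ℤ)) = ![0, 1] := by
    rw [Subgroup.coe_mul, bot_mul, ← h, ← bot_mul, ← Subgroup.coe_mul, mul_inv_cancel]
    simp
  have h1 : ψ (g' * g⁻¹) = 1 := by
    apply hψ
    have := congrFun hb 0
    simpa using this
  rw [map_mul, map_inv, mul_inv_eq_one] at h1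
  exact h1.symm

/-- the coefficient `χ v = (ψ g)⁻¹` for any `g` with bottom row `v` -/
def chi (v : rows G) : ℂ := ((ψ (Classical.choose v.2))⁻¹ : ℂˣ)

lemma chi_eq (hψ : ∀ g : G, (g : SL(2, ℤ)) 1 0 = 0 → ψ g = 1) (v : rows G) (g : G)
    (hg : bot (g : SL(2, ℤ)) = v.1) : chi ψ v = ((ψ g)⁻¹ : ℂˣ) := by
  rw [chi, psi_eq_of_bot_eq ψ hψ ((Classical.choose_spec v.2).trans hg.symm)]

lemma norm_chi (hnorm : ∀ g : G, ‖(ψ g : ℂ)‖ = 1) (v : rows G) : ‖chi ψ v‖ = 1 := by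
  rw [chi, Units.val_inv_eq_inv_val, norm_inv, hnorm, inv_one]

/-- `χ (v δ) = χ v * (ψ δ)⁻¹` -/
lemma chi_rowsEquiv (hψ : ∀ g : G, (g : SL(2, ℤ)) 1 0 = 0 → ψ g = 1) (δ : G) (v : rows G) :
    chi ψ v = (ψ δ : ℂ) * chi ψ (rowsEquiv δ v) := by
  obtain ⟨g, hg⟩ := v.2
  have h1 : bot ((g * δ : G) : SL(2, ℤ)) = (rowsEquiv δ v).1 := by
    rw [Subgroup.coe_mul, bot_mul, coe_rowsEquiv, ← hg]
  have h2 : (ψ g)⁻¹ = ψ δ * (ψ g * ψ δ)⁻¹ := by
    rw [_root_.mul_inv_rev, mul_inv_cancel_left]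
  rw [chi_eq ψ hψ v g hg, chi_eq ψ hψ (rowsEquiv δ v) (g * δ) h1, map_mul, ← Units.val_mul, ← h2]

/-! ### the twisted Eisenstein series -/

/-- the twisted Eisenstein series of weight `k` -/
def E (k : ℤ) (z : ℍ) : ℂ := ∑' v : rows G, chi ψ v * eisSummand k v z

lemma E_def (k : ℤ) (z : ℍ) : E ψ k z = ∑' v : rows G, chi ψ v * eisSummand k v z := rfl

/-- right multiplication by a matrix of `SL(2, ℤ)` on row vectors, as an equivalence -/
def vecMulEquiv (γ : SL(2, ℤ)) : (Fin 2 → ℤ) ≃ (Fin 2 → ℤ) where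
  toFun v := v ᵥ* (γ : Matrix (Fin 2) (Fin 2) ℤ)
  invFun v := v ᵥ* ((γ⁻¹ : SL(2, ℤ)) : Matrix (Fin 2) (Fin 2) ℤ)
  left_inv v := by
    simp only [vecMul_vecMul]
    rw [← Matrix.SpecialLinearGroup.coe_mul, mul_inv_cancel, Matrix.SpecialLinearGroup.coe_one,
      vecMul_one]
  right_inv v := by
    simp only [vecMul_vecMul]
    rw [← Matrix.SpecialLinearGroup.coe_mul, inv_mul_cancel, Matrix.SpecialLinearGroup.coe_one,
      vecMul_one]

@[simp] lemma vecMulEquiv_apply (γ : SL(2, ℤ)) (v : Fin 2 → ℤ) :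
    vecMulEquiv γ v = v ᵥ* (γ : Matrix (Fin 2) (Fin 2) ℤ) := rfl

section Summable

variable {k : ℤ}

lemma norm_summand (hnorm : ∀ g : G, ‖(ψ g : ℂ)‖ = 1) (w : Fin 2 → ℤ) (z : ℍ) (v : rows G) :
    ‖chi ψ v * eisSummand k w z‖ = ‖eisSummand k w z‖ := by
  rw [norm_mul, norm_chi ψ hnorm, one_mul]

/-- the series `E ∣[k] γ` (and `E` itself, for `γ = 1`) converges absolutely -/
lemma summable_norm_slash (hk : 3 ≤ k) (hnorm : ∀ g : G, ‖(ψ g : ℂ)‖ = 1) (γ : SL(2, ℤ)) (z : ℍ) :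
    Summable fun v : rows G =>
      ‖chi ψ v * eisSummand k (v.1 ᵥ* (γ : Matrix (Fin 2) (Fin 2) ℤ)) z‖ := by
  simp_rw [norm_summand ψ hnorm]
  have h1 : Summable fun w : Fin 2 → ℤ => ‖eisSummand k (vecMulEquiv γ w) z‖ :=
    (vecMulEquiv γ).summable_iff.mpr (summable_norm_eisSummand hk z)
  exact h1.subtype _

lemma summable_slash (hk : 3 ≤ k) (hnorm : ∀ g : G, ‖(ψ g : ℂ)‖ = 1) (γ : SL(2, ℤ)) (z : ℍ) :
    Summable fun v : rows G =>
      chi ψ v * eisSummand k (v.1 ᵥ* (γ : Matrix (Fin 2) (Fin 2) ℤ)) z :=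
  (summable_norm_slash ψ hk hnorm γ z).of_norm

lemma summable_E (hk : 3 ≤ k) (hnorm : ∀ g : G, ‖(ψ g : ℂ)‖ = 1) (z : ℍ) :
    Summable fun v : rows G => chi ψ v * eisSummand k v z := by
  have h := summable_slash ψ hk hnorm 1 z
  simpa using h

end Summable

/-! ### the slash action -/

section Slash

variable {k : ℤ}

/-- **`E ∣[k] γ` for an arbitrary `γ : SL(2, ℤ)`** -/
theorem E_slash_SL (γ : SL(2, ℤ)) (z : ℍ) :
    (E ψ k ∣[k] γ) z =
      ∑' v : rows G, chi ψ v * eisSummand k (v.1 ᵥ* (γ : Matrix (Fin 2) (Fin 2) ℤ)) z := by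
  rw [SL_slash_apply, E_def]
  simp_rw [eisSummand_SL2_apply, ← mul_assoc, mul_comm (chi ψ _) (denom γ z ^ k), mul_assoc]
  rw [tsum_mul_left, mul_comm, ← mul_assoc, ← zpow_add₀ (denom_ne_zero γ z), neg_add_cancel,
    zpow_zero, one_mul]

/-- **the transformation law with character**: `E ∣[k] δ = ψ δ • E` for `δ ∈ G` -/
theorem E_slash (hψ : ∀ g : G, (g : SL(2, ℤ)) 1 0 = 0 → ψ g = 1) (δ : G) :
    E ψ k ∣[k] (δ : SL(2, ℤ)) = (ψ δ : ℂ) • E ψ k := by
  ext z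
  rw [E_slash_SL, Pi.smul_apply, smul_eq_mul, E_def, ← tsum_mul_left]
  rw [← (rowsEquiv δ).tsum_eq fun v => (ψ δ : ℂ) * (chi ψ v * eisSummand k v z)]
  refine tsum_congr fun v => ?_
  rw [coe_rowsEquiv, ← mul_assoc, ← chi_rowsEquiv ψ hψ δ v]

/-- the transformation law, pointwise -/
theorem E_smul (hψ : ∀ g : G, (g : SL(2, ℤ)) 1 0 = 0 → ψ g = 1) (δ : G) (z : ℍ) :
    E ψ k ((δ : SL(2, ℤ)) • z) = (ψ δ : ℂ) * denom (δ : SL(2, ℤ)) z ^ k * E ψ k z := by
  have h := congrFun (E_slash ψ (k := k) hψ δ) z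
  rw [SL_slash_apply, Pi.smul_apply, smul_eq_mul] at h
  have hd : denom (δ : SL(2, ℤ)) z ^ k ≠ 0 := zpow_ne_zero _ (denom_ne_zero _ z)
  calc E ψ k ((δ : SL(2, ℤ)) • z)
      = E ψ k ((δ : SL(2, ℤ)) • z) * denom (δ : SL(2, ℤ)) z ^ (-k) *
          denom (δ : SL(2, ℤ)) z ^ k := by
        rw [mul_assoc, ← zpow_add₀ (denom_ne_zero _ z), neg_add_cancel, zpow_zero, mul_one]
    _ = (ψ δ : ℂ) * denom (δ : SL(2, ℤ)) z ^ k * E ψ k z := by rw [h]; ring

end Slash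

/-! ### holomorphy -/

section Holo

variable {k : ℤ}

/-- the series converges locally uniformly on `ℍ` -/
theorem tendstoLocallyUniformly_E (hk : 3 ≤ k) (hnorm : ∀ g : G, ‖(ψ g : ℂ)‖ = 1) :
    TendstoLocallyUniformly
      (fun (s : Finset (rows G)) ↦ (∑ x ∈ s, chi ψ x * eisSummand k x ·))
      (E ψ k ·) Filter.atTop := by
  have hk' : (2 : ℝ) < k := by norm_cast
  have p_sum : Summable fun x : rows G ↦ ‖x.val‖ ^ (-k) :=
    mod_cast (summable_one_div_norm_rpow hk').subtype (· ∈ rows G)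
  simp only [tendstoLocallyUniformly_iff_forall_isCompact, E]
  intro K hK
  obtain ⟨A, B, hB, HABK⟩ := subset_verticalStrip_of_isCompact hK
  refine (tendstoUniformlyOn_tsum (hu := p_sum.mul_left <| r ⟨⟨A, B⟩, hB⟩ ^ (-k : ℝ))
    (fun p z hz ↦ ?_)).mono HABK
  rw [norm_summand ψ hnorm]
  simpa only [eisSummand, one_div, ← _root_.zpow_neg, norm_zpow, ← Real.rpow_intCast,
    Int.cast_neg] using summand_bound_of_mem_verticalStrip (by positivity) p hB hz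

lemma tendstoLocallyUniformlyOn_E (hk : 3 ≤ k) (hnorm : ∀ g : G, ‖(ψ g : ℂ)‖ = 1) :
    TendstoLocallyUniformlyOn (fun (s : Finset (rows G)) ↦
      ↑ₕ(fun (z : ℍ) ↦ ∑ x ∈ s, chi ψ x * eisSummand k x z)) (↑ₕ(E ψ k))
          Filter.atTop {z : ℂ | 0 < z.im} := by
  rw [← upperHalfPlaneSet, ← range_coe, ← Set.image_univ]
  apply TendstoLocallyUniformlyOn.comp (s := ⊤) _ _ _ (OpenPartialHomeomorph.continuousOn_symm _)
  · simp only [Set.top_eq_univ, tendstoLocallyUniformlyOn_univ]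
    exact tendstoLocallyUniformly_E ψ hk hnorm
  · simp only [IsOpenEmbedding.toOpenPartialHomeomorph_target, Set.top_eq_univ,
      Set.mapsTo_range_iff, Set.mem_univ, forall_const]

/-- **the twisted Eisenstein series is holomorphic on `ℍ`** -/
theorem mdifferentiable_E (hk : 3 ≤ k) (hnorm : ∀ g : G, ‖(ψ g : ℂ)‖ = 1) :
    MDiff (E ψ k) := by
  intro τ
  suffices DifferentiableAt ℂ (↑ₕ(E ψ k)) τ.1 by
    convert!
      MDifferentiableAt.comp τ (DifferentiableAt.mdifferentiableAt this) τ.mdifferentiable_coe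
    exact funext fun z ↦ (comp_ofComplex (E ψ k) z).symm
  refine DifferentiableOn.differentiableAt ?_ (isOpen_upperHalfPlaneSet.mem_nhds τ.2)
  refine (tendstoLocallyUniformlyOn_E ψ hk hnorm).differentiableOn
    (Eventually.of_forall fun s ↦ ?_) isOpen_upperHalfPlaneSet
  have h : (↑ₕ(fun (z : ℍ) ↦ ∑ x ∈ s, chi ψ x * eisSummand k x z)) =
      fun w : ℂ => ∑ x ∈ s, chi ψ x * (↑ₕ(eisSummand k x)) w := by
    ext w
    simp [Function.comp]
  rw [h]
  exact DifferentiableOn.fun_sum fun x _ ↦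
    (eisSummand_extension_differentiableOn k x.1).const_smul (chi ψ x) |>.congr
      fun w _ => by simp [smul_eq_mul]

end Holo

/-! ### boundedness at all cusps -/

section Bounded

variable {k : ℤ}

/-- `‖E ∣[k] γ‖` is bounded by the full lattice sum -/
lemma norm_E_slash_le (hk : 3 ≤ k) (hnorm : ∀ g : G, ‖(ψ g : ℂ)‖ = 1) (γ : SL(2, ℤ)) (z : ℍ) :
    ‖(E ψ k ∣[k] γ) z‖ ≤ ∑' w : Fin 2 → ℤ, ‖eisSummand k w z‖ := by
  rw [E_slash_SL]
  refine (norm_tsum_le_tsum_norm (summable_norm_slash ψ hk hnorm γ z)).trans ?_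
  simp_rw [norm_summand ψ hnorm]
  have hinj : Function.Injective fun v : rows G => vecMulEquiv γ v.1 :=
    (vecMulEquiv γ).injective.comp Subtype.val_injective
  exact tsum_comp_le_tsum_of_inj (summable_norm_eisSummand hk z) (fun _ => norm_nonneg _) hinj

/-- the full lattice sum is invariant under `z ↦ z + n` -/
lemma tsum_norm_eisSummand_T_zpow (n : ℤ) (z : ℍ) :
    ∑' w : Fin 2 → ℤ, ‖eisSummand k w (ModularGroup.T ^ n • z)‖ =
      ∑' w : Fin 2 → ℤ, ‖eisSummand k w z‖ := by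
  have hden : denom ((ModularGroup.T ^ n : SL(2, ℤ)) : GL (Fin 2) ℝ) z = 1 := by
    rw [ModularGroup.denom_apply, ModularGroup.coe_T_zpow]
    simp
  simp_rw [eisSummand_SL2_apply, hden, _root_.one_zpow, one_mul]
  exact (vecMulEquiv (ModularGroup.T ^ n)).tsum_eq fun w => ‖eisSummand k w z‖

/-- a uniform bound for the full lattice sum on `{2 ≤ im z}` -/
lemma tsum_norm_eisSummand_le (hk : 3 ≤ k) (z : ℍ) (hz : 2 ≤ z.im) :
    ∑' w : Fin 2 → ℤ, ‖eisSummand k w z‖ ≤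
      ∑' x : Fin 2 → ℤ, r ⟨⟨(1 : ℕ), 2⟩, Nat.ofNat_pos⟩ ^ (-k) * ‖x‖ ^ (-k) := by
  obtain ⟨n, hn⟩ := ModularGroup_T_zpow_mem_verticalStrip z (N := 1) one_pos
  rw [← tsum_norm_eisSummand_T_zpow ((1 : ℕ) * n) z]
  have hk' : (2 : ℝ) < k := by norm_cast
  apply (summable_norm_eisSummand hk _).tsum_le_tsum _
  · exact_mod_cast (summable_one_div_norm_rpow hk').mul_left <|
      r ⟨⟨(1 : ℕ), 2⟩, Nat.ofNat_pos⟩ ^ (-k)
  · intro x
    simp_rw [eisSummand, norm_zpow]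
    exact_mod_cast
      summand_bound_of_mem_verticalStrip (lt_trans two_pos hk').le x two_pos
      (verticalStrip_anti_right ((1 : ℕ) : ℝ) hz hn)

/-- **`E ∣[k] γ` is bounded at `i∞` for every `γ : SL(2, ℤ)`** (i.e. `E` is bounded at all cusps) -/
theorem isBoundedAtImInfty_E_slash (hk : 3 ≤ k) (hnorm : ∀ g : G, ‖(ψ g : ℂ)‖ = 1)
    (γ : SL(2, ℤ)) : IsBoundedAtImInfty (E ψ k ∣[k] γ) := by
  rw [UpperHalfPlane.isBoundedAtImInfty_iff]
  refine ⟨∑' x : Fin 2 → ℤ, r ⟨⟨(1 : ℕ), 2⟩, Nat.ofNat_pos⟩ ^ (-k) * ‖x‖ ^ (-k), 2, ?_⟩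
  intro z hz
  exact (norm_E_slash_le ψ hk hnorm γ z).trans (tsum_norm_eisSummand_le hk z hz)

end Bounded

/-! ### the value at `i∞` along the imaginary axis, and nonvanishing -/

section Limit

variable {k : ℤ}

/-- the point `i y` of the upper half plane (junk for `y ≤ 0`) -/
def zy (y : ℝ) : ℍ := ofComplex (Complex.I * y)

lemma coe_zy {y : ℝ} (hy : 0 < y) : (zy y : ℂ) = Complex.I * y := by
  have him : 0 < (Complex.I * y).im := by simpa using hy
  rw [zy, ofComplex_apply_of_im_pos him]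

lemma zy_mem_verticalStrip {y : ℝ} (hy : 1 ≤ y) : zy y ∈ verticalStrip 0 1 := by
  have hy0 : 0 < y := lt_of_lt_of_le one_pos hy
  have hre : (zy y).re = 0 := by
    show ((zy y : ℂ)).re = 0
    rw [coe_zy hy0]
    simp
  have him : (zy y).im = y := by
    show ((zy y : ℂ)).im = y
    rw [coe_zy hy0]
    simp
  rw [mem_verticalStrip_iff, hre, him]
  exact ⟨by simp, hy⟩

/-- the value of `E` at `i∞` -/
def Linfty (k : ℤ) : ℂ :=
  ∑' v : rows G, if v.1 0 = 0 then chi ψ v * ((v.1 1 : ℤ) : ℂ) ^ (-k) else 0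

/-- a summand with `v 0 ≠ 0` tends to zero along the imaginary axis -/
lemma tendsto_eisSummand_zy (hk : 3 ≤ k) {v : Fin 2 → ℤ} (hv : v 0 ≠ 0) :
    Tendsto (fun y : ℝ => eisSummand k v (zy y)) atTop (𝓝 0) := by
  have hc : (0 : ℝ) < |(v 0 : ℝ)| := abs_pos.mpr (by exact_mod_cast hv)
  have h1 : Tendsto (fun y : ℝ => (|(v 0 : ℝ)| * y) ^ (-k)) atTop (𝓝 0) :=
    (tendsto_zpow_atTop_zero (by omega : -k < 0)).comp (tendsto_id.const_mul_atTop hc)
  refine squeeze_zero_norm' ?_ h1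
  filter_upwards [eventually_ge_atTop (1 : ℝ)] with y hy
  have hy0 : 0 < y := lt_of_lt_of_le one_pos hy
  rw [eisSummand, coe_zy hy0, norm_zpow]
  have hle : |(v 0 : ℝ)| * y ≤ ‖(v 0 : ℂ) * (Complex.I * y) + v 1‖ := by
    have him : ((v 0 : ℂ) * (Complex.I * y) + v 1).im = v 0 * y := by simp
    calc |(v 0 : ℝ)| * y = |(v 0 : ℝ) * y| := by rw [abs_mul, abs_of_pos hy0]
      _ = |((v 0 : ℂ) * (Complex.I * y) + v 1).im| := by rw [him]
      _ ≤ ‖(v 0 : ℂ) * (Complex.I * y) + v 1‖ := Complex.abs_im_le_norm _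
  have hpos : 0 < |(v 0 : ℝ)| * y := mul_pos hc hy0
  rw [_root_.zpow_neg, _root_.zpow_neg]
  exact inv_anti₀ (zpow_pos hpos k) (zpow_le_zpow_left₀ (by omega) hpos.le hle)

/-- **`E (i y) → Linfty` as `y → ∞`** -/
theorem tendsto_E_zy (hk : 3 ≤ k) (hnorm : ∀ g : G, ‖(ψ g : ℂ)‖ = 1) :
    Tendsto (fun y : ℝ => E ψ k (zy y)) atTop (𝓝 (Linfty ψ k)) := by
  have hk' : (2 : ℝ) < k := by norm_cast
  have p_sum : Summable fun x : rows G ↦
      r ⟨⟨0, 1⟩, one_pos⟩ ^ (-k : ℝ) * ‖x.val‖ ^ (-k : ℝ) :=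
    ((summable_one_div_norm_rpow hk').subtype (· ∈ rows G)).mul_left _
  refine tendsto_tsum_of_dominated_convergence p_sum (fun v => ?_) ?_
  · by_cases hv : v.1 0 = 0
    · simp only [hv, if_true]
      have : ∀ y : ℝ, chi ψ v * eisSummand k v (zy y) = chi ψ v * ((v.1 1 : ℤ) : ℂ) ^ (-k) := by
        intro y
        simp [eisSummand, hv]
      simp_rw [this]
      exact tendsto_const_nhds
    · simp only [hv, if_false]
      have h := (tendsto_eisSummand_zy hk hv).const_mul (chi ψ v)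
      simpa using h
  · filter_upwards [eventually_ge_atTop (1 : ℝ)] with y hy v
    rw [norm_summand ψ hnorm]
    simpa only [eisSummand, one_div, ← _root_.zpow_neg, norm_zpow, ← Real.rpow_intCast,
      Int.cast_neg] using
      summand_bound_of_mem_verticalStrip (by positivity) v.1 one_pos (zy_mem_verticalStrip hy)

/-- a bottom row `(0, d)` has `d = ±1` -/
lemma bot_one_eq_of_bot_zero_eq (g : SL(2, ℤ)) (h : g 1 0 = 0) : g 1 1 = 1 ∨ g 1 1 = -1 := by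
  have hdet := g.det_coe
  rw [Matrix.det_fin_two, h, mul_zero, sub_zero] at hdet
  exact Int.eq_one_or_neg_one_of_mul_eq_one (by rw [mul_comm]; exact hdet)

/-- the summands of `Linfty` for even weight -/
lemma Linfty_summand (hψ : ∀ g : G, (g : SL(2, ℤ)) 1 0 = 0 → ψ g = 1) (hk2 : Even k)
    (v : rows G) (hv : v.1 0 = 0) : chi ψ v * ((v.1 1 : ℤ) : ℂ) ^ (-k) = 1 := by
  obtain ⟨g, hg⟩ := v.2
  have hg0 : (g : SL(2, ℤ)) 1 0 = 0 := by
    have := congrFun hg 0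
    simp only [bot_apply] at this
    rw [this, hv]
  have hg1 : v.1 1 = (g : SL(2, ℤ)) 1 1 := by
    have := congrFun hg 1
    simp only [bot_apply] at this
    exact this.symm
  rw [chi_eq ψ hψ v g hg, hψ g hg0, inv_one, Units.val_one, one_mul, hg1]
  rcases bot_one_eq_of_bot_zero_eq (g : SL(2, ℤ)) hg0 with h1 | h1
  · rw [h1]
    simp
  · rw [h1]
    simp [hk2.neg.neg_one_zpow]

lemma Linfty_eq (hψ : ∀ g : G, (g : SL(2, ℤ)) 1 0 = 0 → ψ g = 1) (hk2 : Even k) :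
    Linfty ψ k = ∑' v : rows G, if v.1 0 = 0 then (1 : ℂ) else 0 := by
  rw [Linfty]
  refine tsum_congr fun v => ?_
  split_ifs with hv
  · exact Linfty_summand ψ hψ hk2 v hv
  · rfl

/-- the rows `(0, d)` of `G` form a finite set -/
lemma finite_support_indicator :
    (Function.support fun v : rows G => if v.1 0 = 0 then (1 : ℝ) else 0).Finite := by
  have hfin : (Subtype.val ⁻¹' ({![0, 1], ![0, -1]} : Set (Fin 2 → ℤ)) : Set (rows G)).Finite :=
    Set.Finite.preimage Subtype.val_injective.injOn (Set.toFinite _)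
  refine hfin.subset fun v hv => ?_
  rw [Function.mem_support] at hv
  have hv0 : v.1 0 = 0 := by
    by_contra h
    exact hv (if_neg h)
  obtain ⟨g, hg⟩ := v.2
  have hg0 : (g : SL(2, ℤ)) 1 0 = 0 := by
    have := congrFun hg 0
    simp only [bot_apply] at this
    rw [this, hv0]
  have hg1 : v.1 1 = (g : SL(2, ℤ)) 1 1 := by
    have := congrFun hg 1
    simp only [bot_apply] at this
    exact this.symm
  rw [Set.mem_preimage, Set.mem_insert_iff, Set.mem_singleton_iff]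
  rcases bot_one_eq_of_bot_zero_eq (g : SL(2, ℤ)) hg0 with h1 | h1
  · left
    ext i
    fin_cases i
    · simpa using hv0
    · simpa [h1] using hg1
  · right
    ext i
    fin_cases i
    · simpa using hv0
    · simpa [h1] using hg1

/-- **the value at `i∞` is a real number `≥ 1`** (it is `1` or `2`) -/
theorem Linfty_eq_ofReal (hψ : ∀ g : G, (g : SL(2, ℤ)) 1 0 = 0 → ψ g = 1) (hk2 : Even k) :
    ∃ c : ℝ, 1 ≤ c ∧ Linfty ψ k = (c : ℂ) := by
  refine ⟨∑' v : rows G, if v.1 0 = 0 then (1 : ℝ) else 0, ?_, ?_⟩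
  · have hs : Summable fun v : rows G => if v.1 0 = 0 then (1 : ℝ) else 0 :=
      summable_of_hasFiniteSupport finite_support_indicator
    let i : rows G := ⟨bot ((1 : G) : SL(2, ℤ)), bot_mem_rows 1⟩
    have hi : (if i.1 0 = 0 then (1 : ℝ) else 0) = 1 := by
      have : i.1 0 = 0 := by simp [i]
      rw [if_pos this]
    calc (1 : ℝ) = if i.1 0 = 0 then (1 : ℝ) else 0 := hi.symm
      _ ≤ ∑' v : rows G, if v.1 0 = 0 then (1 : ℝ) else 0 :=
        hs.le_tsum i fun j _ => by split_ifs <;> norm_num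
  · rw [Linfty_eq ψ hψ hk2, Complex.ofReal_tsum]
    refine tsum_congr fun v => ?_
    split_ifs <;> simp

theorem Linfty_ne_zero (hψ : ∀ g : G, (g : SL(2, ℤ)) 1 0 = 0 → ψ g = 1) (hk2 : Even k) :
    Linfty ψ k ≠ 0 := by
  obtain ⟨c, hc, h⟩ := Linfty_eq_ofReal ψ hψ hk2
  rw [h]
  exact_mod_cast (lt_of_lt_of_le one_pos hc).ne'

/-- **the twisted Eisenstein series of even weight is not identically zero** -/
theorem E_ne_zero (hk : 3 ≤ k) (hk2 : Even k) (hnorm : ∀ g : G, ‖(ψ g : ℂ)‖ = 1)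
    (hψ : ∀ g : G, (g : SL(2, ℤ)) 1 0 = 0 → ψ g = 1) : E ψ k ≠ 0 := by
  intro h0
  have h1 := tendsto_E_zy ψ hk hnorm
  rw [h0] at h1
  have h2 : Tendsto (fun _ : ℝ => (0 : ℂ)) atTop (𝓝 (Linfty ψ k)) := h1
  exact Linfty_ne_zero ψ hψ hk2 (tendsto_nhds_unique h2 tendsto_const_nhds)

/-- there is a point where `E` does not vanish -/
theorem exists_E_ne_zero (hk : 3 ≤ k) (hk2 : Even k) (hnorm : ∀ g : G, ‖(ψ g : ℂ)‖ = 1)
    (hψ : ∀ g : G, (g : SL(2, ℤ)) 1 0 = 0 → ψ g = 1) : ∃ z : ℍ, E ψ k z ≠ 0 := by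
  by_contra h
  simp only [not_exists, not_not] at h
  exact E_ne_zero ψ hk hk2 hnorm hψ (funext h)

end Limit

end Fermat.Agent.S30.Analytic.TwistedEis
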