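import Mathlib
import Fermat.Agent.S30.Analytic.Character
import Fermat.Agent.S30.Analytic.TwistedEis

/-!
# PROJECT J (S30), slice J-2 part 2: powers of twisted Eisenstein series are modular forms (helper29)

`Γ ≤ SL(2, ℤ)` an arbitrary subgroup, `ψ : Γ →* ℂˣ` a character with `ψ ^ n = 1`, trivial on the
elements of `Γ` with lower left entry `0` (i.e. on `Γ ∩ {± T ^ m}`), `k ≥ 3` an even weight.

* `hasChar_E` : the twisted Eisenstein series `TwistedEis.E ψ k` has character `ψ` in the sense of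
  `Character.HasChar`;
* `powMF` : `(E ψ k) ^ n` as a `ModularForm (Γ.map (mapGL ℝ)) (k * n)`;
* **`exists_modularForm_isRootChar`** (surjectivity at function level): every such `ψ` is the root
  character of a nonzero modular form of weight `k * n`;
* `E_smul_mul` : the quotient `E ψ k / B` by any invariant form `B` of the same weight is
  multiplicative with character `ψ`.
-/

set_option autoImplicit false

noncomputable section

namespace Fermat.Agent.S30.Analytic.TwistedEisQuot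

open UpperHalfPlane ModularForm Filter Topology
open scoped Manifold MatrixGroups ModularForm

variable {Γ : Subgroup SL(2, ℤ)} (ψ : Γ →* ℂˣ)

/-- values of a character of finite order have norm one -/
theorem norm_eq_one_of_pow_eq_one {n : ℕ} (hn : n ≠ 0) (hψn : ψ ^ n = 1) (g : Γ) :
    ‖((ψ g : ℂˣ) : ℂ)‖ = 1 := by
  have h1 : ((ψ g : ℂˣ) : ℂ) ^ n = 1 := by
    have := congrArg (fun χ : Γ →* ℂˣ => ((χ g : ℂˣ) : ℂ)) hψn
    simpa using this
  exact Complex.norm_eq_one_of_pow_eq_one h1 hn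

/-- the twisted Eisenstein series has character `ψ` -/
theorem hasChar_E (hψ : ∀ g : Γ, (g : SL(2, ℤ)) 1 0 = 0 → ψ g = 1) (k : ℤ) :
    Character.HasChar Γ k (TwistedEis.E ψ k) ψ :=
  fun γ => TwistedEis.E_slash ψ hψ γ

/-- powers of functions bounded at `i∞` are bounded at `i∞` -/
theorem isBoundedAtImInfty_pow {f : ℍ → ℂ} (hf : IsBoundedAtImInfty f) (n : ℕ) :
    IsBoundedAtImInfty (f ^ n) := by
  induction n with
  | zero =>
    rw [pow_zero]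
    exact Filter.const_boundedAtFilter _ (1 : ℂ)
  | succ n ih =>
    rw [pow_succ]
    exact ih.mul hf

variable {k : ℤ}

/-- `(E ψ k) ^ n` is bounded at every cusp -/
theorem isBoundedAt_E_pow (hk : 3 ≤ k) (hnorm : ∀ g : Γ, ‖((ψ g : ℂˣ) : ℂ)‖ = 1) (n : ℕ)
    {c : OnePoint ℝ} (hc : IsCusp c 𝒮ℒ) : c.IsBoundedAt (TwistedEis.E ψ k ^ n) (k * n) := by
  rw [OnePoint.isBoundedAt_iff_forall_SL2Z hc]
  intro γ _
  rw [mul_comm k, Character.pow_slash]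
  exact isBoundedAtImInfty_pow (TwistedEis.isBoundedAtImInfty_E_slash ψ hk hnorm γ) n

/-- **`(E ψ k) ^ n` as a modular form** of weight `k * n` for `Γ` when `ψ ^ n = 1`. -/
def powMF (hψ : ∀ g : Γ, (g : SL(2, ℤ)) 1 0 = 0 → ψ g = 1) (hk : 3 ≤ k)
    (hnorm : ∀ g : Γ, ‖((ψ g : ℂˣ) : ℂ)‖ = 1) (n : ℕ) (hψn : ψ ^ n = 1) :
    ModularForm (Γ.map (Matrix.SpecialLinearGroup.mapGL ℝ)) (k * n) where
  toFun := TwistedEis.E ψ k ^ n
  slash_action_eq' := by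
    rintro γ' ⟨γ, hγ, rfl⟩
    have h1 := (hasChar_E ψ hψ k).pow n ⟨γ, hγ⟩
    rw [hψn, MonoidHom.one_apply, Units.val_one, one_smul] at h1
    rw [mul_comm k]
    exact h1
  holo' := (TwistedEis.mdifferentiable_E ψ hk hnorm).pow n
  bdd_at_cusps' {c} hc :=
    isBoundedAt_E_pow ψ hk hnorm n (hc.mono (Subgroup.map_le_range _ _))

@[simp]
theorem coe_powMF (hψ : ∀ g : Γ, (g : SL(2, ℤ)) 1 0 = 0 → ψ g = 1) (hk : 3 ≤ k)
    (hnorm : ∀ g : Γ, ‖((ψ g : ℂˣ) : ℂ)‖ = 1) (n : ℕ) (hψn : ψ ^ n = 1) :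
    (powMF ψ hψ hk hnorm n hψn : ℍ → ℂ) = TwistedEis.E ψ k ^ n := rfl

theorem powMF_ne_zero (hψ : ∀ g : Γ, (g : SL(2, ℤ)) 1 0 = 0 → ψ g = 1) (hk : 3 ≤ k)
    (hk2 : Even k) (hnorm : ∀ g : Γ, ‖((ψ g : ℂˣ) : ℂ)‖ = 1) (n : ℕ) (hψn : ψ ^ n = 1) :
    (powMF ψ hψ hk hnorm n hψn : ℍ → ℂ) ≠ 0 := by
  obtain ⟨z, hz⟩ := TwistedEis.exists_E_ne_zero ψ hk hk2 hnorm hψ
  intro h
  have := congrFun h z
  rw [coe_powMF, Pi.pow_apply, Pi.zero_apply] at this
  exact pow_ne_zero n hz this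

/-- **Surjectivity at function level**: every character `ψ` of `Γ` with `ψ ^ n = 1`, trivial on
the elements of `Γ` fixing `∞`, is the root character (in every even weight `k ≥ 4`) of a nonzero
modular form of weight `k * n` for `Γ`; the `n`-th root is the twisted Eisenstein series. -/
theorem exists_modularForm_isRootChar {n : ℕ} (hn : n ≠ 0) (hψn : ψ ^ n = 1)
    (hψ : ∀ g : Γ, (g : SL(2, ℤ)) 1 0 = 0 → ψ g = 1) (hk : 3 ≤ k) (hk2 : Even k) :
    ∃ F : ModularForm (Γ.map (Matrix.SpecialLinearGroup.mapGL ℝ)) (k * n),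
      (F : ℍ → ℂ) ≠ 0 ∧ Character.IsRootChar Γ n k (F : ℍ → ℂ) ψ := by
  have hnorm := norm_eq_one_of_pow_eq_one ψ hn hψn
  exact ⟨powMF ψ hψ hk hnorm n hψn, powMF_ne_zero ψ hψ hk hk2 hnorm n hψn,
    TwistedEis.E ψ k, TwistedEis.mdifferentiable_E ψ hk hnorm, rfl, hasChar_E ψ hψ k⟩

/-- the same with the root made explicit: holomorphic, with character `ψ`, bounded at all cusps
(after any `SL(2, ℤ)`-translate), and with a nonzero limit along `i y`, `y → ∞`. -/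
theorem exists_root_data {n : ℕ} (hn : n ≠ 0) (hψn : ψ ^ n = 1)
    (hψ : ∀ g : Γ, (g : SL(2, ℤ)) 1 0 = 0 → ψ g = 1) (hk : 3 ≤ k) (hk2 : Even k) :
    ∃ A : ℍ → ℂ, MDiff A ∧ Character.HasChar Γ k A ψ ∧
      (∀ γ : SL(2, ℤ), IsBoundedAtImInfty (A ∣[k] γ)) ∧
      (∃ c : ℂ, c ≠ 0 ∧ Tendsto (fun y : ℝ => A (ofComplex (Complex.I * y))) atTop (𝓝 c)) ∧
      ∃ F : ModularForm (Γ.map (Matrix.SpecialLinearGroup.mapGL ℝ)) (k * n),
        (F : ℍ → ℂ) = A ^ n ∧ (F : ℍ → ℂ) ≠ 0 := by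
  have hnorm := norm_eq_one_of_pow_eq_one ψ hn hψn
  exact ⟨TwistedEis.E ψ k, TwistedEis.mdifferentiable_E ψ hk hnorm, hasChar_E ψ hψ k,
    fun γ => TwistedEis.isBoundedAtImInfty_E_slash ψ hk hnorm γ,
    ⟨TwistedEis.Linfty ψ k, TwistedEis.Linfty_ne_zero ψ hψ hk2,
      TwistedEis.tendsto_E_zy ψ hk hnorm⟩,
    powMF ψ hψ hk hnorm n hψn, rfl, powMF_ne_zero ψ hψ hk hk2 hnorm n hψn⟩

/-! ### the multiplicative function `E ψ k / B` -/

/-- For any `Γ`-invariant `B` of weight `k`, the quotient `h = E ψ k / B` satisfies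
`h (γ • z) = ψ γ * h z`; here in the denominator-free form. -/
theorem E_smul_mul (hψ : ∀ g : Γ, (g : SL(2, ℤ)) 1 0 = 0 → ψ g = 1) {B : ℍ → ℂ}
    (hB : ∀ γ ∈ Γ, B ∣[k] γ = B) (γ : Γ) (z : ℍ) :
    TwistedEis.E ψ k ((γ : SL(2, ℤ)) • z) * B z =
      ((ψ γ : ℂˣ) : ℂ) * TwistedEis.E ψ k z * B ((γ : SL(2, ℤ)) • z) := by
  have h1 := congrFun (TwistedEis.E_slash (k := k) ψ hψ γ) z
  have h2 := congrFun (hB γ γ.2) z
  rw [SL_slash_apply] at h1 h2
  rw [Pi.smul_apply, smul_eq_mul] at h1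
  rw [← h1, ← h2]
  ring

/-- the quotient form: `h (γ • z) = ψ γ * h z` where `h = E ψ k / B`, at points where `B` does not
vanish (`B (γ • z) ≠ 0` follows from `B z ≠ 0`). -/
theorem E_div_smul (hψ : ∀ g : Γ, (g : SL(2, ℤ)) 1 0 = 0 → ψ g = 1) {B : ℍ → ℂ}
    (hB : ∀ γ ∈ Γ, B ∣[k] γ = B) (γ : Γ) (z : ℍ) (hz : B z ≠ 0) :
    B ((γ : SL(2, ℤ)) • z) ≠ 0 ∧
    TwistedEis.E ψ k ((γ : SL(2, ℤ)) • z) / B ((γ : SL(2, ℤ)) • z) =
      ((ψ γ : ℂˣ) : ℂ) * (TwistedEis.E ψ k z / B z) := by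
  have h2 := congrFun (hB γ γ.2) z
  rw [SL_slash_apply] at h2
  have hz' : B ((γ : SL(2, ℤ)) • z) ≠ 0 := by
    intro h0
    rw [h0, zero_mul] at h2
    exact hz h2.symm
  refine ⟨hz', ?_⟩
  rw [div_eq_iff hz', mul_assoc, div_mul_eq_mul_div, mul_div_assoc', eq_div_iff hz, ← mul_assoc]
  exact E_smul_mul ψ hψ hB γ z

end Fermat.Agent.S30.Analytic.TwistedEisQuot
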