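import Mathlib
import Fermat.Agent.S30.Spec
import Fermat.Agent.S30.Analytic.RepFieldEq
import Fermat.Agent.S30.Analytic.TwistedDivisor
import Fermat.Agent.S18.A.Instances
import Fermat.Agent.S24.CuspWidth

/-!
# PROJECT J (S30), slice J-2 part 4: surjectivity of the analytic dictionary, modulo the place
dictionary (helper29)

* `isFF_jFC`, `hasPrincipalDivisors_FC` : `FC N` is a function field over `ℂ` (`j` separating),
  with principal divisors;
* `hyp_of_mem_charGroup`, `parConj_of_isParChar` : the hypotheses of `TwistedDivisor` from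
  `ψ ∈ Spec.charGroup N`;
* `gFC` : the function `g_ψ = (E_ψ / E₄) ^ n` as an element of `FC N`;
* **`exists_isPsiOf_of_dvd`** : if `n ∣ ord_v g_ψ` for every place `v` of `FC N`, then `ψ` is in
  the image of the dictionary: `∃ x, Spec.IsPsiOf N x ψ`.
-/

set_option autoImplicit false
set_option linter.unusedSectionVars false

noncomputable section

namespace Fermat.Agent.S30.Analytic.TwistedSurj

open UpperHalfPlane CongruenceSubgroup ModularForm AlgebraicCurve ModularCurve WithZero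
open Fermat.Agent.S20 Fermat.Agent.S24.RepHom Fermat.Agent.S24.FF Fermat.Agent.S24.LmapJ
  Fermat.Agent.S24.DegreeAlg Fermat.Agent.S30.Spec Fermat.Agent.S30.Analytic.RepFieldEq
  Fermat.Agent.S30.Analytic.TwistedDivisor Fermat.Agent.S24.LaurentPt
  Fermat.Agent.S24.LaurentCusp Fermat.Agent.S24.OrbitsCusp

open scoped MatrixGroups ModularForm Manifold

variable (N : ℕ) [NeZero N]

/-! ### `FC N` is a function field over `ℂ` -/

/-- the function `j` as an element of `FC N` -/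
def jFC : FC N := ⟨jC, jC_mem_FC N⟩

/-- the function `j_N` as an element of `FC N` -/
def jNFC : FC N := ⟨jN N, jN_mem_FC N⟩

theorem transcendental_jFC : Transcendental ℂ (jFC N) := by
  intro halg
  apply transcendental_coeffEmb_jq ℂ
  have := halg.algebraMap (A := LaurentSeries ℂ)
  exact this

theorem adjoin_pair_eq_top :
    IntermediateField.adjoin ℂ ({jFC N, jNFC N} : Set (FC N)) = ⊤ := by
  apply IntermediateField.map_injective (FC N).val
  rw [IntermediateField.adjoin_map, ← AlgHom.fieldRange_eq_map,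
    IntermediateField.fieldRange_val, Set.image_pair]
  exact (FC_eq_adjoin_pair N).symm

theorem isIntegral_jNFC : IsIntegral (IntermediateField.adjoin ℂ ({jFC N} : Set (FC N))) (jNFC N) := by
  obtain ⟨P, hP0, -, hPr⟩ := exists_relation_of_mem_repField N
    ((mem_repField_iff N).mpr (jN_mem_FC N))
  have hinj := toSimple_injective (transcendental_jFC N)
  refine IsAlgebraic.isIntegral ⟨P.map (toSimple (jFC N)), ?_, ?_⟩
  · rwa [Ne, Polynomial.map_eq_zero_iff hinj]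
  · rw [aeval_map_toSimple]
    apply Subtype.ext
    rw [ZeroMemClass.coe_zero, ← hPr]
    have h1 := Polynomial.hom_eval₂ P
      (Polynomial.aeval (jFC N) : Polynomial ℂ →ₐ[ℂ] FC N).toRingHom
      ((FC N).val : FC N →+* LaurentSeries ℂ) (jNFC N)
    have h2 : ((FC N).val : FC N →+* LaurentSeries ℂ).comp
        (Polynomial.aeval (jFC N) : Polynomial ℂ →ₐ[ℂ] FC N).toRingHom = evJ := by
      refine Polynomial.ringHom_ext (fun a => ?_) ?_
      · simp [evJ]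
      · simp [evJ, jFC]
    rw [h2] at h1
    exact h1

theorem isFF_jFC : IsFF ℂ (jFC N) := by
  refine ⟨transcendental_jFC N, ?_⟩
  have htop : IntermediateField.adjoin (IntermediateField.adjoin ℂ ({jFC N} : Set (FC N)))
      ({jNFC N} : Set (FC N)) = ⊤ := by
    rw [← IntermediateField.restrictScalars_eq_top_iff (K := ℂ),
      IntermediateField.adjoin_adjoin_left, ← adjoin_pair_eq_top N]
    rfl
  have := IntermediateField.adjoin.finiteDimensional (isIntegral_jNFC N)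
  rw [htop] at this
  exact Module.Finite.equiv (IntermediateField.topEquiv
    (F := IntermediateField.adjoin ℂ ({jFC N} : Set (FC N))) (E := FC N)).toLinearEquiv

theorem hasPrincipalDivisors_FC : HasPrincipalDivisors ℂ (FC N) :=
  Fermat.Agent.S18.A.Instances.hasPrincipalDivisors_of_charZero (isFF_jFC N)

/-! ### the hypotheses of `TwistedDivisor` from `ψ ∈ charGroup N` -/

variable {N}

theorem trace_sq_of_bot_zero (g : SL(2, ℤ)) (h : g 1 0 = 0) :
    (g : Matrix (Fin 2) (Fin 2) ℤ).trace ^ 2 = 4 := by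
  have hdet := g.det_coe
  rw [Matrix.det_fin_two, h, mul_zero, sub_zero] at hdet
  rw [Matrix.trace_fin_two]
  rcases Int.eq_one_or_neg_one_of_mul_eq_one hdet with h1 | h1
  · have h2 : g 1 1 = 1 := by rw [h1, one_mul] at hdet; exact hdet
    show (g 0 0 + g 1 1) ^ 2 = 4
    rw [h1, h2]; norm_num
  · have h2 : g 1 1 = -1 := by rw [h1] at hdet; linarith
    show (g 0 0 + g 1 1) ^ 2 = 4
    rw [h1, h2]; norm_num

theorem trace_conj_T_zpow (γ : SL(2, ℤ)) (m : ℤ) :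
    ((γ * ModularGroup.T ^ m * γ⁻¹ : SL(2, ℤ)) : Matrix (Fin 2) (Fin 2) ℤ).trace = 2 := by
  rw [Matrix.SpecialLinearGroup.coe_mul, Matrix.SpecialLinearGroup.coe_mul,
    Matrix.trace_mul_comm, ← Matrix.mul_assoc, ← Matrix.SpecialLinearGroup.coe_mul,
    inv_mul_cancel, Matrix.SpecialLinearGroup.coe_one, Matrix.one_mul, ModularGroup.coe_T_zpow]
  simp [Matrix.trace_fin_two]

variable {ψ : Gamma0 N →* ℂˣ} {n : ℕ}

theorem hyp_of_isParChar (hpar : IsParChar ψ) (hn : n ≠ 0) (hψn : ψ ^ n = 1) : Hyp ψ n where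
  hn := hn
  pow_eq_one := hψn
  infty g hg := hpar g (trace_sq_of_bot_zero _ hg)

theorem parConj_of_isParChar (hpar : IsParChar ψ) : ParConj ψ := fun γ m hm =>
  hpar ⟨_, hm⟩ (by
    show ((γ * ModularGroup.T ^ m * γ⁻¹ : SL(2, ℤ)) : Matrix (Fin 2) (Fin 2) ℤ).trace ^ 2 = 4
    rw [trace_conj_T_zpow]; norm_num)

theorem S_pow_four : (ModularGroup.S : SL(2, ℤ)) ^ 4 = 1 := by decide

theorem ST_pow_six : (ModularGroup.S * ModularGroup.T : SL(2, ℤ)) ^ 6 = 1 := by decide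

theorem isOfFinOrder_conj {γ σ : SL(2, ℤ)} {m : ℕ} (hm : 0 < m) (hσ : σ ^ m = 1)
    (h : γ * σ * γ⁻¹ ∈ Gamma0 N) : IsOfFinOrder (⟨γ * σ * γ⁻¹, h⟩ : Gamma0 N) := by
  rw [isOfFinOrder_iff_pow_eq_one]
  refine ⟨m, hm, Subtype.ext ?_⟩
  rw [SubmonoidClass.coe_pow, Subgroup.coe_one, conj_pow, hσ, mul_one, mul_inv_cancel]

theorem apply_conj_S (hell : IsEllFree ψ) {γ : SL(2, ℤ)}
    (h : γ * ModularGroup.S * γ⁻¹ ∈ Gamma0 N) : ψ ⟨γ * ModularGroup.S * γ⁻¹, h⟩ = 1 :=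
  hell _ (isOfFinOrder_conj (by norm_num) S_pow_four h)

theorem apply_conj_ST (hell : IsEllFree ψ) {γ : SL(2, ℤ)}
    (h : γ * (ModularGroup.S * ModularGroup.T) * γ⁻¹ ∈ Gamma0 N) :
    ψ ⟨γ * (ModularGroup.S * ModularGroup.T) * γ⁻¹, h⟩ = 1 :=
  hell _ (isOfFinOrder_conj (by norm_num) ST_pow_six h)

/-! ### the function `g_ψ` in `FC N` and the surjectivity statement -/

/-- `g_ψ = (E_ψ / E₄) ^ n` as an element of `FC N` -/
def gFC (h : Hyp ψ n) : FC N := repFieldEquiv N (gfun h)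

theorem coe_gFC (h : Hyp ψ n) :
    ((gFC h : FC N) : LaurentSeries ℂ) = ((gfun h : repField N) : LaurentSeries ℂ) := rfl

theorem gFC_ne_zero (h : Hyp ψ n) : gFC h ≠ 0 :=
  (map_ne_zero (repFieldEquiv N)).mpr (gfun_ne_zero h)

/-- **Surjectivity modulo the place dictionary**: if `n` divides the order of `g_ψ` at every place
of `FC N`, then `ψ` is in the image of the analytic dictionary. -/
theorem exists_isPsiOf_of_dvd (h : Hyp ψ n)
    (hdvd : ∀ v : Place ℂ (FC N), (n : ℤ) ∣ v.ord (gFC h)) : ∃ x, IsPsiOf N x ψ := by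
  classical
  obtain ⟨D₀, hD₀, hdeg₀⟩ := (hasPrincipalDivisors_FC N).exists_divisor (gFC h) (gFC_ne_zero h)
  have hn0 : (n : ℤ) ≠ 0 := by exact_mod_cast h.hn
  set D : Divisor ℂ (FC N) := D₀.mapRange (fun m : ℤ => m / (n : ℤ)) (Int.zero_ediv _) with hD
  have hDv : ∀ v : Place ℂ (FC N), (n : ℤ) * D v = v.ord (gFC h) := by
    intro v
    rw [hD, Finsupp.mapRange_apply, hD₀ v]
    exact Int.mul_ediv_cancel' (hdvd v)
  have hnD : (n : ℤ) • D = D₀ := by
    ext v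
    rw [Finsupp.smul_apply, smul_eq_mul, hDv v, hD₀ v]
  have hdeg : Divisor.degree D = 0 := by
    have h1 : (n : ℤ) • Divisor.degree D = 0 := by rw [← map_zsmul, hnD, hdeg₀]
    rw [smul_eq_mul] at h1
    exact (mul_eq_zero.mp h1).resolve_left hn0
  refine ⟨Pic0.mk ⟨D, hdeg⟩, n, ⟨D, hdeg⟩, gFC h, 4 * n, TwistedEis.E ψ 4 ^ n,
    (⇑ModularForm.E₄ : ℍ → ℂ) ^ n, h.hn, gFC_ne_zero h, rfl, hDv, ?_, isRootChar_gfun h⟩
  rw [coe_gFC]
  exact isRepOf_gfun h


/-! ### the four local divisibility statements for `g_ψ` (the inputs of `AllPlacesC.dvd_ord_of_local`)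
-/

theorem symm_gFC (h : Hyp ψ n) : (repFieldEquiv N).symm (gFC h) = gfun h :=
  (repFieldEquiv N).symm_apply_apply _

/-- generic points: `n ∣ log v (L_{τ, γ} g_ψ)` -/
theorem dvd_log_Lpt_gfun (h : Hyp ψ n) (τ : ℍ) (γ : SL(2, ℤ)) :
    (n : ℤ) ∣ log (Valued.v (Lpt N τ γ (gfun h))) := by
  rw [log_valuation_Lpt_gfun' h τ γ]
  exact (Dvd.intro _ rfl).neg_right

open Fermat.Agent.LevelOne.JBasic in
/-- over `i`: `2 n ∣ log v (L_{i, γ} g_ψ)` when `γ S γ⁻¹ ∈ Γ₀(N)` (`ψ` trivial on torsion) -/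
theorem dvd_log_Lpt_gfun_I (h : Hyp ψ n) (hell : IsEllFree ψ) (γ : SL(2, ℤ))
    (hσ : γ * ModularGroup.S * γ⁻¹ ∈ Gamma0 N) :
    (2 * n : ℤ) ∣ log (Valued.v (Lpt N UpperHalfPlane.I γ (gfun h))) := by
  rw [log_valuation_Lpt_gfun' h _ γ]
  obtain ⟨c, hc⟩ := two_dvd_mpt h hσ (apply_conj_S hell hσ)
  rw [hc]
  exact (Dvd.intro c (by ring)).neg_right

open Fermat.Agent.LevelOne.JBasic in
/-- over `ρ`: `3 n ∣ log v (L_{ρ, γ} g_ψ)` when `γ (S T) γ⁻¹ ∈ Γ₀(N)` (`ψ` trivial on torsion) -/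
theorem dvd_log_Lpt_gfun_rho (h : Hyp ψ n) (hell : IsEllFree ψ) (γ : SL(2, ℤ))
    (hσ : γ * (ModularGroup.S * ModularGroup.T) * γ⁻¹ ∈ Gamma0 N) :
    (3 * n : ℤ) ∣ log (Valued.v (Lpt N rho γ (gfun h))) := by
  rw [log_valuation_Lpt_gfun' h _ γ]
  obtain ⟨c, hc⟩ := three_dvd_mpt h hσ (apply_conj_ST hell hσ)
  rw [hc]
  exact (Dvd.intro c (by ring)).neg_right

/-- `γ T^w γ⁻¹ ∈ Γ₀(N)` for `w` the width of the coset of `γ⁻¹` -/
theorem conj_T_width_mem_of_inv (γ : SL(2, ℤ)) :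
    γ * ModularGroup.T ^ ((Fermat.Agent.S24.OrbitsCusp.width N
      (QuotientGroup.mk γ⁻¹ : SL(2, ℤ) ⧸ Gamma0 N) : ℕ) : ℤ) * γ⁻¹ ∈ Gamma0 N := by
  have h1 := Fermat.Agent.S24.CuspWidth.width_mem_of_mk_eq N
    (QuotientGroup.mk γ⁻¹ : SL(2, ℤ) ⧸ Gamma0 N) γ⁻¹ rfl
  rw [Fermat.Agent.S24.OrbitsCusp.card_orbit, inv_inv] at h1
  exact h1

/-- cusps: `N n ∣ w · log v (Λ_γ g_ψ)`, `w` the width of the coset of `γ⁻¹` (`ψ` parabolic) -/
theorem dvd_log_Λrep_gfun (h : Hyp ψ n) (hpar : ParConj ψ) (γ : SL(2, ℤ)) :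
    (N : ℤ) * n ∣ ((Fermat.Agent.S24.OrbitsCusp.width N
      (QuotientGroup.mk γ⁻¹ : SL(2, ℤ) ⧸ Gamma0 N) : ℕ) : ℤ) *
        log (Valued.v (Λrep N γ (gfun h))) := by
  rw [log_valuation_Λrep_gfun h hpar γ]
  set w := Fermat.Agent.S24.OrbitsCusp.width N (QuotientGroup.mk γ⁻¹ : SL(2, ℤ) ⧸ Gamma0 N)
    with hw
  obtain ⟨d, hd⟩ := Fermat.Agent.S24.OrbitsCusp.width_dvd N
    (QuotientGroup.mk γ⁻¹ : SL(2, ℤ) ⧸ Gamma0 N)
  rw [← hw] at hd
  have hw0 : 0 < w := Fermat.Agent.S24.OrbitsCusp.width_pos N _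
  obtain ⟨c, hc⟩ := dvd_mcusp h hpar γ hd.symm hw0 (conj_T_width_mem_of_inv γ)
  rw [hc]
  refine ⟨-c, ?_⟩
  have hN : (N : ℤ) = (w : ℤ) * (d : ℤ) := by exact_mod_cast hd
  rw [hN]
  ring

/-! ### surjectivity of the dictionary, modulo "every place of `FC N` is a point or a cusp" -/

/-- the shape of the conclusion of `AllPlacesC.dvd_ord_of_local` for `F := FC N`,
`rho := (repFieldEquiv N).symm` -/
def LocalGlobal (N : ℕ) [NeZero N] : Prop :=
  ∀ (g : FC N), g ≠ 0 → ∀ n : ℕ,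
    (∀ (τ : ℍ) (γ : SL(2, ℤ)),
      (n : ℤ) ∣ log (Valued.v (Lpt N τ γ ((repFieldEquiv N).symm g)))) →
    (∀ γ : SL(2, ℤ), γ * ModularGroup.S * γ⁻¹ ∈ Gamma0 N →
      (2 * n : ℤ) ∣ log (Valued.v (Lpt N UpperHalfPlane.I γ ((repFieldEquiv N).symm g)))) →
    (∀ γ : SL(2, ℤ), γ * (ModularGroup.S * ModularGroup.T) * γ⁻¹ ∈ Gamma0 N →
      (3 * n : ℤ) ∣ log (Valued.v
        (Lpt N Fermat.Agent.LevelOne.JBasic.rho γ ((repFieldEquiv N).symm g)))) →
    (∀ γ : SL(2, ℤ), (N : ℤ) * n ∣ ((Fermat.Agent.S24.OrbitsCusp.width N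
        (QuotientGroup.mk γ⁻¹ : SL(2, ℤ) ⧸ Gamma0 N) : ℕ) : ℤ) *
          log (Valued.v (Λrep N γ ((repFieldEquiv N).symm g)))) →
    ∀ P : Place ℂ (FC N), (n : ℤ) ∣ P.ord g

/-- `n ∣ ord_v g_ψ` at every place, from the local-global principle -/
theorem dvd_ord_gFC (hLG : LocalGlobal N) (h : Hyp ψ n) (hpar : IsParChar ψ)
    (hell : IsEllFree ψ) (v : Place ℂ (FC N)) : (n : ℤ) ∣ v.ord (gFC h) := by
  refine hLG (gFC h) (gFC_ne_zero h) n ?_ ?_ ?_ ?_ v
  · intro τ γ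
    rw [symm_gFC]
    exact dvd_log_Lpt_gfun h τ γ
  · intro γ hσ
    rw [symm_gFC]
    exact dvd_log_Lpt_gfun_I h hell γ hσ
  · intro γ hσ
    rw [symm_gFC]
    exact dvd_log_Lpt_gfun_rho h hell γ hσ
  · intro γ
    rw [symm_gFC]
    exact dvd_log_Λrep_gfun h (parConj_of_isParChar hpar) γ

/-- **`PsiDict.surj`, modulo the local-global principle for places of `FC N`** -/
theorem psiDict_surj_of_localGlobal (hLG : LocalGlobal N) (ψ : Gamma0 N →* ℂˣ)
    (hψ : ψ ∈ charGroup N) (hfin : IsOfFinOrder ψ) : ∃ x, IsPsiOf N x ψ := by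
  obtain ⟨m, hm0, hm⟩ := (isOfFinOrder_iff_pow_eq_one).mp hfin
  have h : Hyp ψ m := hyp_of_isParChar hψ.1 hm0.ne' hm
  exact exists_isPsiOf_of_dvd h (dvd_ord_gFC hLG h hψ.1 hψ.2)


end Fermat.Agent.S30.Analytic.TwistedSurj
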