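import Mathlib
import Fermat.Agent.S30.Analytic.AllPlacesC
import Fermat.Agent.S30.Analytic.TwistedSurj

/-!
# PROJECT J (S30), slice J-1 (D2), glue: `TwistedSurj.LocalGlobal N` from the degree of `j` (helper11)

`rhoFC N : FC N →+* repField N` is the identity on series (`(RepFieldEq.repFieldEquiv N).symm`);
it is compatible with the constants and sends `jFC N`, `jNFC N` to `jrep N`, `jNrep N`.

* `localGlobal_of_finrank` : `[FC N : ℂ(j)] = [SL(2, ℤ) : Γ₀(N)]` gives `TwistedSurj.LocalGlobal N`
  (hence `PsiDict.surj` by `TwistedSurj.psiDict_surj_of_localGlobal`).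
-/

set_option autoImplicit false

noncomputable section

namespace Fermat.Agent.S30.Analytic.AllPlacesCGlue

open UpperHalfPlane CongruenceSubgroup ModularForm AlgebraicCurve ModularCurve WithZero
open Fermat.Agent.S24.RepHom Fermat.Agent.S24.FF Fermat.Agent.S24.LmapJ
  Fermat.Agent.S30.Spec Fermat.Agent.S30.Analytic.RepFieldEq
  Fermat.Agent.S30.Analytic.TwistedSurj Fermat.Agent.S30.Analytic.PointPlace
open scoped MatrixGroups

variable (N : ℕ) [NeZero N]

/-- the identity-on-series ring hom `FC N → repField N` -/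
def rhoFC : FC N →+* repField N := ((repFieldEquiv N).symm : FC N →+* repField N)

theorem rhoFC_apply (g : FC N) : rhoFC N g = (repFieldEquiv N).symm g := rfl

theorem constCompat_rhoFC : ConstCompat (rhoFC N) := by
  intro c
  apply Subtype.ext
  show algebraMap ℂ (LaurentSeries ℂ) c = HahnSeries.C c
  rw [Fermat.Agent.S24.OrbitDefs.algebraMap_eq_ofPS_C]
  exact HahnSeries.ofPowerSeries_C c

theorem rhoFC_jFC : rhoFC N (jFC N) = jrep N := by
  apply Subtype.ext
  rfl

theorem rhoFC_jNFC : rhoFC N (jNFC N) = Fermat.Agent.S24.LmapSep.jNrep N := by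
  apply Subtype.ext
  rfl

theorem localGlobal_of_finrank
    (hdeg : Module.finrank (IntermediateField.adjoin ℂ {jFC N}) (FC N)
      = Nat.card (SL(2, ℤ) ⧸ Gamma0 N)) : LocalGlobal N := by
  intro g hg n hgen hI hrho hcusp P
  exact AllPlacesC.dvd_ord_of_local_mk (ρ := rhoFC N) (constCompat_rhoFC N) (rhoFC_jFC N)
    (rhoFC_jNFC N) (isFF_jFC N) hdeg g hg n hgen hI hrho hcusp P

end Fermat.Agent.S30.Analytic.AllPlacesCGlue
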