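import Mathlib
import Fermat.Agent.S30.Analytic.PointPlace
import Fermat.Agent.S30.Analytic.RepFieldEq
import Fermat.Agent.S30.Descent.ConstExt
import Fermat.Agent.S18.A.Instances

/-!
# PROJECT J (S30), slice J-1 (D): `j` is a separating variable of `F_ℂ = ℂ(X₀(N))` of degree
`[SL₂(ℤ) : Γ₀(N)]` (helper3)

`F_ℂ := laurentBaseChange ℂ (modularFunctionFieldFull N)` (`= Spec.FC N`), `ρ := rhoC N : F_ℂ →+*
repField N` the inverse of `RepFieldEq.repFieldEquiv N` (the identity on the underlying series),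
`jFC N : F_ℂ` the element with underlying series `jC = j(q)`.

* `rhoC_jFC` : `ρ (jFC N) = jrep N`;
* `constCompat_rhoC`, `bijective_rhoC` : `(c)` of the cut of `AllPlacesC`;
* `isFF_jFC` : `(a)` `IsFF ℂ (jFC N)`;
* `finrank_jFC` : `(b)` `[F_ℂ : ℂ(j)] = [SL₂(ℤ) : Γ₀(N)]`.

The proofs of `(a)` and `(b)` transport `S24` (`ℚ̄`) along the constant field extension `ℚ̄ ⊆ ℂ`
(`Descent.ConstExt`).
-/

set_option autoImplicit false
set_option linter.unusedSectionVars false

noncomputable section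

namespace Fermat.Agent.S30.Analytic.DegreeC

open ModularCurve IntermediateField CongruenceSubgroup
open Fermat.Agent.S24.FF Fermat.Agent.S24.RepHom Fermat.Agent.S24.LmapJ
open Fermat.Agent.S24.DegreeAlg Fermat.Agent.S30.Analytic.RepFieldEq
open Fermat.Agent.S30.Descent.ConstExt Fermat.Agent.S30.Analytic.PointPlace
open scoped MatrixGroups

local notation "Kb" => AlgebraicClosure ℚ

/-! ### transport along an equality of intermediate fields -/

section Transport

variable {K L : Type*} [Field K] [Field L] [Algebra K L]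

theorem isFF_of_eq {E E' : IntermediateField K L} (h : E = E') {x : E} (hx : IsFF K x)
    (hx' : (x : L) ∈ E') :
    IsFF K (⟨(x : L), hx'⟩ : E') ∧
      Module.finrank K⟮(⟨(x : L), hx'⟩ : E')⟯ E' = Module.finrank K⟮x⟯ E := by
  subst h
  exact ⟨hx, rfl⟩

end Transport

/-! ### an embedding `ℚ̄ → ℂ` -/

/-- an embedding of `ℚ̄` into `ℂ` -/
def iotaC : Kb →+* ℂ :=
  haveI : Algebra.IsAlgebraic ℚ Kb := AlgebraicClosure.isAlgebraic ℚ
  (IsAlgClosed.lift (R := ℚ) (S := Kb) (M := ℂ) : Kb →ₐ[ℚ] ℂ).toRingHom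

/-- `ℂ` as a `ℚ̄`-algebra via `iotaC` -/
@[reducible] def algC : Algebra Kb ℂ := iotaC.toAlgebra

variable (N : ℕ) [NeZero N]

/-- `j` as an element of `F_ℂ` -/
def jFC : laurentBaseChange ℂ (modularFunctionFieldFull N) := ⟨jC, jC_mem_FC N⟩

@[simp] theorem coe_jFC :
    ((jFC N : laurentBaseChange ℂ (modularFunctionFieldFull N)) : LaurentSeries ℂ) = jC := rfl

/-- the identification `F_ℂ → repField N` (identity on the underlying series) -/
def rhoC : laurentBaseChange ℂ (modularFunctionFieldFull N) →+* repField N :=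
  ((repFieldEquiv N).symm : laurentBaseChange ℂ (modularFunctionFieldFull N) →+* repField N)

@[simp] theorem coe_rhoC (x : laurentBaseChange ℂ (modularFunctionFieldFull N)) :
    ((rhoC N x : repField N) : LaurentSeries ℂ) = (x : LaurentSeries ℂ) := rfl

theorem rhoC_jFC : rhoC N (jFC N) = jrep N := rfl

theorem jFC_eq : jFC N = repFieldEquiv N (jrep N) := rfl

/-- **(c)** `ρ` is bijective -/
theorem bijective_rhoC : Function.Bijective (rhoC N) := (repFieldEquiv N).symm.bijective

/-- `jFC N` is THE preimage of `jrep N` -/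
theorem eq_jFC_of_rhoC_eq {x : laurentBaseChange ℂ (modularFunctionFieldFull N)}
    (h : rhoC N x = jrep N) : x = jFC N :=
  (bijective_rhoC N).1 (h.trans (rhoC_jFC N).symm)

theorem ofBijective_symm_jrep :
    (RingEquiv.ofBijective (rhoC N) (bijective_rhoC N)).symm (jrep N) = jFC N := by
  rw [RingEquiv.symm_apply_eq]
  rfl

theorem surjInv_jrep :
    Function.surjInv (bijective_rhoC N).2 (jrep N) = jFC N :=
  eq_jFC_of_rhoC_eq N (Function.surjInv_eq _ _)

/-- **(c)** `ρ` is compatible with the constants -/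
theorem constCompat_rhoC : ConstCompat (rhoC N) := by
  intro c
  apply Subtype.ext
  rw [coe_rhoC]
  show algebraMap ℂ (LaurentSeries ℂ) c = HahnSeries.C c
  rw [algebraMap_laurentSeries_eq_single]
  rfl

/-! ### `(a)`, `(b)` -/

theorem isFF_finrank_jFC :
    IsFF ℂ (jFC N) ∧
      Module.finrank ℂ⟮jFC N⟯ (laurentBaseChange ℂ (modularFunctionFieldFull N)) =
        Nat.card (SL(2, ℤ) ⧸ Gamma0 N) := by
  let _ : Algebra Kb ℂ := algC
  have h1 : IsFF ℂ (bcHom ℂ (modularFunctionFieldBar N) (jgen N)) :=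
    isFF_bcHom (Fermat.Agent.S18.A.Instances.isFF_jgen N)
  have hfin := (Fermat.Agent.S18.A.Instances.isFF_jgen N).finite
  have h2 := (finrank_bcHom (K' := ℂ) (Fermat.Agent.S18.A.Instances.isFF_jgen N).transcendental).2
  have heq : constExt ℂ (modularFunctionFieldBar N) =
      laurentBaseChange ℂ (modularFunctionFieldFull N) :=
    constExt_laurentBaseChange (K := Kb) (K' := ℂ) (modularFunctionFieldFull N)
  have hc : ((bcHom ℂ (modularFunctionFieldBar N) (jgen N) :
      constExt ℂ (modularFunctionFieldBar N)) : LaurentSeries ℂ) = jC := by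
    rw [coe_bcHom, coe_jgen, bc_coeffEmb]
    rfl
  have hmem : ((bcHom ℂ (modularFunctionFieldBar N) (jgen N) :
      constExt ℂ (modularFunctionFieldBar N)) : LaurentSeries ℂ) ∈
      laurentBaseChange ℂ (modularFunctionFieldFull N) := by
    rw [hc]; exact jC_mem_FC N
  obtain ⟨h3, h4⟩ := isFF_of_eq heq h1 hmem
  have hj : (⟨_, hmem⟩ : laurentBaseChange ℂ (modularFunctionFieldFull N)) = jFC N :=
    Subtype.ext hc
  rw [hj] at h3 h4
  refine ⟨h3, ?_⟩
  rw [h4, h2, Fermat.Agent.S18.A.Instances.finrank_jgen]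

/-- **(a)** `j` is a separating variable of `F_ℂ` -/
theorem isFF_jFC : IsFF ℂ (jFC N) := (isFF_finrank_jFC N).1

/-- **(b)** `[F_ℂ : ℂ(j)] = [SL₂(ℤ) : Γ₀(N)]` -/
theorem finrank_jFC :
    Module.finrank ℂ⟮jFC N⟯ (laurentBaseChange ℂ (modularFunctionFieldFull N)) =
      Nat.card (SL(2, ℤ) ⧸ Gamma0 N) := (isFF_finrank_jFC N).2

end Fermat.Agent.S30.Analytic.DegreeC
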