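import Mathlib
import Fermat.Agent.S30.Analytic.Character
import Fermat.Agent.S30.Analytic.Local
import Fermat.Agent.S30.Analytic.RepChar
import Fermat.Agent.S30.Analytic.RepFieldEq
import Fermat.Agent.S30.Spec

/-!
# PROJECT J (S30): the root character does not depend on the data (helper5)

Function level (`Analytic/Character`, `Analytic/Local`):

* `ordAt_const_smul` : `ordAt (c • f) τ = ordAt f τ` for `c ≠ 0`;
* **`isRootChar_of_relation`** : if `a ^ n * b' ^ m * β ^ (n * m) = c • (a' ^ m * α ^ (n * m) * b ^ n)`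
  (i.e. `(a / b) ^ n = c (a' / b') ^ m (α / β) ^ (n m)`) with `b, b', α, β` invariant under `Γ`, and
  `ψ` is the character of the `n`-th roots of `a' b' ^ (n - 1)`, then `ψ` is the character of the
  `m`-th roots of `a b ^ (m - 1)`.

Modular functions (`Analytic/RepChar`):

* `rootCharOf_pow_mul` : `RootCharOf N n g ψ → RootCharOf N (n * m) (g ^ m) ψ`.

The dictionary `Ψ` (`Spec.IsPsiOf`, on `Pic0 ℂ (FC N)`):

* `isPsiOf_iff` (in terms of `RootCharOf`), `isRepC_of_FC`;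
* **`isPsiOf_add`** = `PsiDict.add` (no hypothesis);
* `exists_relation` : two data `(n, D, f)`, `(n', D', f')` of the same class satisfy
  `f ^ n' = c f' ^ n g ^ (n n')`;
* **`isPsiOf_unique`** = `PsiDict.unique`, and **`isRootChar_of_isPsiOf`** = independence of the
  data (DI), both under the hypothesis `hconst` : functions without zeros and poles are constant.
-/

set_option autoImplicit false

noncomputable section

namespace Fermat.Agent.S30.Analytic.PsiData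

open UpperHalfPlane ModularForm
open scoped Manifold MatrixGroups ModularForm
open Fermat.Agent.S30.Analytic.Character Fermat.Agent.S30.Analytic.Local

theorem ordAt_const_smul {f : ℍ → ℂ} (hf : MDiff f) {c : ℂ} (hc : c ≠ 0) (τ : ℍ) :
    ordAt (c • f) τ = ordAt f τ := by
  have h1 : c • f = (fun _ => c) * f := by
    ext z
    rfl
  rw [h1, ordAt_mul mdifferentiable_const hf]
  have h2 : ordAt (fun _ : ℍ => c) τ = 0 := by
    rw [ordAt, analyticOrderAt_eq_zero]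
    right
    exact hc
  rw [h2, zero_add]

theorem ne_zero_of_pow_ne_zero {f : ℍ → ℂ} {n : ℕ} (h : f ^ n ≠ 0) (hn : n ≠ 0) : f ≠ 0 := by
  rintro rfl
  exact h (zero_pow hn)

theorem pow_ne_zero_fun {f : ℍ → ℂ} (hf : MDiff f) (h : f ≠ 0) (n : ℕ) : f ^ n ≠ 0 := by
  induction n with
  | zero => rw [pow_zero]; exact one_ne_zero
  | succ n ih =>
    rw [pow_succ]
    intro h0
    rcases eq_zero_or_eq_zero_of_mul_eq_zero (hf.pow n) hf h0 with h1 | h1
    · exact ih h1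
    · exact h h1

theorem mul_ne_zero_fun {f g : ℍ → ℂ} (hf : MDiff f) (hg : MDiff g) (hf0 : f ≠ 0) (hg0 : g ≠ 0) :
    f * g ≠ 0 := by
  intro h0
  rcases eq_zero_or_eq_zero_of_mul_eq_zero hf hg h0 with h1 | h1
  · exact hf0 h1
  · exact hg0 h1

theorem smul_ne_zero_fun {f : ℍ → ℂ} {c : ℂ} (hc : c ≠ 0) (hf0 : f ≠ 0) : c • f ≠ 0 := by
  intro h0
  apply hf0
  have := congrArg (fun g => c⁻¹ • g) h0
  simpa [smul_smul, inv_mul_cancel₀ hc] using this

/-- **Independence of the data, function level.** -/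
theorem isRootChar_of_relation {Γ : Subgroup SL(2, ℤ)} {n m : ℕ} (hn : n ≠ 0) (hm : m ≠ 0)
    {k k' k'' : ℤ} {a b a' b' α β : ℍ → ℂ} {ψ : Γ →* ℂˣ}
    (ha : MDiff a) (hb : MDiff b) (ha' : MDiff a') (hb' : MDiff b') (hα : MDiff α) (hβ : MDiff β)
    (ha0 : a ≠ 0) (hb0 : b ≠ 0) (ha'0 : a' ≠ 0) (hb'0 : b' ≠ 0) (hα0 : α ≠ 0) (hβ0 : β ≠ 0)
    (hbinv : HasChar Γ k b 1) (hb'inv : HasChar Γ k' b' 1) (hαinv : HasChar Γ k'' α 1)
    (hβinv : HasChar Γ k'' β 1) {c : ℂ} (hc : c ≠ 0)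
    (hrel : a ^ n * b' ^ m * β ^ (n * m) = c • (a' ^ m * α ^ (n * m) * b ^ n))
    (h : IsRootChar Γ n k' (a' * b' ^ (n - 1)) ψ) :
    IsRootChar Γ m k (a * b ^ (m - 1)) ψ := by
  obtain ⟨G', hG', hG'F, hG'ψ⟩ := h
  obtain ⟨n', rfl⟩ : ∃ n', n = n' + 1 := ⟨n - 1, (Nat.succ_pred_eq_of_ne_zero hn).symm⟩
  obtain ⟨m', rfl⟩ : ∃ m', m = m' + 1 := ⟨m - 1, (Nat.succ_pred_eq_of_ne_zero hm).symm⟩
  rw [Nat.add_sub_cancel] at hG'F ⊢
  have hG'0 : G' ≠ 0 := by
    apply ne_zero_of_pow_ne_zero (n := n' + 1) _ hn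
    rw [hG'F]
    exact mul_ne_zero_fun ha' (hb'.pow n') ha'0 (pow_ne_zero_fun hb' hb'0 n')
  set F : ℍ → ℂ := a * b ^ m' with hFdef
  set H : ℍ → ℂ := b' * β with hHdef
  set K : ℍ → ℂ := G' * α * b with hKdef
  have hF : MDiff F := ha.mul (hb.pow m')
  have hH : MDiff H := hb'.mul hβ
  have hK : MDiff K := (hG'.mul hα).mul hb
  have hF0 : F ≠ 0 := mul_ne_zero_fun ha (hb.pow m') ha0 (pow_ne_zero_fun hb hb0 m')
  have hH0 : H ≠ 0 := mul_ne_zero_fun hb' hβ hb'0 hβ0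
  have hK0 : K ≠ 0 := mul_ne_zero_fun (hG'.mul hα) hb (mul_ne_zero_fun hG' hα hG'0 hα0) hb0
  -- step 1 : `(F H ^ m) ^ n = c (K ^ m) ^ n`
  have h1 : (F * H ^ (m' + 1)) ^ (n' + 1) = c • (K ^ (m' + 1)) ^ (n' + 1) := by
    ext τ
    have e1 := congrFun hrel τ
    have e2 := congrFun hG'F τ
    simp only [Pi.mul_apply, Pi.pow_apply, Pi.smul_apply, smul_eq_mul] at e1 e2 ⊢
    simp only [hFdef, hHdef, hKdef, Pi.mul_apply, Pi.pow_apply]
    have e2' : G' τ ^ ((n' + 1) * (m' + 1)) = (a' τ * b' τ ^ n') ^ (m' + 1) := by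
      rw [pow_mul, e2]
    linear_combination (b τ ^ (m' * (n' + 1)) * b' τ ^ ((m' + 1) * n')) * e1 +
      (-(c * α τ ^ ((n' + 1) * (m' + 1)) * b τ ^ ((m' + 1) * (n' + 1)))) * e2'
  -- step 2 : `F H ^ m = c₂ K ^ m`
  obtain ⟨c₁, hc₁⟩ := IsAlgClosed.exists_pow_nat_eq c (Nat.pos_of_ne_zero hn)
  have hc₁0 : c₁ ≠ 0 := by
    rintro rfl
    rw [zero_pow hn] at hc₁
    exact hc hc₁.symm
  have hKm0 : K ^ (m' + 1) ≠ 0 := pow_ne_zero_fun hK hK0 _
  obtain ⟨ζ, hζ, h2⟩ := exists_const_smul_of_pow_eq (G := c₁ • K ^ (m' + 1))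
    (G' := F * H ^ (m' + 1)) hn ((hK.pow _).const_smul c₁) (hF.mul (hH.pow _))
    (by rw [h1, smul_pow, hc₁]) (smul_ne_zero_fun hc₁0 hKm0)
  have hζ0 : ζ ≠ 0 := by
    rintro rfl
    rw [zero_pow hn] at hζ
    exact zero_ne_one hζ
  rw [smul_smul] at h2
  set c₂ : ℂ := ζ * c₁ with hc₂
  have hc₂0 : c₂ ≠ 0 := mul_ne_zero hζ0 hc₁0
  -- step 3 : the orders of `F` are divisible by `m`
  have hdiv : ∀ τ : ℍ, ∃ t : ℕ, ordAt F τ = (((m' + 1) * t : ℕ) : ℕ∞) := by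
    intro τ
    have e : ordAt (F * H ^ (m' + 1)) τ = ordAt (c₂ • K ^ (m' + 1)) τ := by rw [h2]
    rw [ordAt_mul hF (hH.pow _), ordAt_pow hH, ordAt_const_smul (hK.pow _) hc₂0, ordAt_pow hK] at e
    obtain ⟨oF, hoF⟩ := ENat.ne_top_iff_exists.mp (ordAt_ne_top hF hF0 τ)
    obtain ⟨oH, hoH⟩ := ENat.ne_top_iff_exists.mp (ordAt_ne_top hH hH0 τ)
    obtain ⟨oK, hoK⟩ := ENat.ne_top_iff_exists.mp (ordAt_ne_top hK hK0 τ)
    rw [← hoF, ← hoH, ← hoK] at e
    have e' : oF + (m' + 1) * oH = (m' + 1) * oK := by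
      have : ((oF + (m' + 1) * oH : ℕ) : ℕ∞) = (((m' + 1) * oK : ℕ) : ℕ∞) := by
        push_cast
        simpa [nsmul_eq_mul] using e
      exact_mod_cast this
    refine ⟨oK - oH, ?_⟩
    rw [← hoF]
    have hle : oH ≤ oK := by
      by_contra hlt
      replace hlt := not_le.mp hlt
      have : (m' + 1) * oK < (m' + 1) * oH := Nat.mul_lt_mul_of_pos_left hlt (Nat.succ_pos m')
      omega
    congr 1
    rw [Nat.mul_sub, ← e']
    omega
  -- step 4 : the root `G` and its comparison with `K / H`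
  obtain ⟨G, hG, hGF⟩ := exists_root hF hF0 hm hdiv
  obtain ⟨c₃, hc₃⟩ := IsAlgClosed.exists_pow_nat_eq c₂ (Nat.pos_of_ne_zero hm)
  have hc₃0 : c₃ ≠ 0 := by
    rintro rfl
    rw [zero_pow hm] at hc₃
    exact hc₂0 hc₃.symm
  obtain ⟨ζ', hζ', h4⟩ := exists_const_smul_of_pow_eq (G := c₃ • K) (G' := G * H) hm
    (hK.const_smul c₃) (hG.mul hH) (by rw [mul_pow, hGF, h2, smul_pow, hc₃])
    (smul_ne_zero_fun hc₃0 hK0)
  rw [smul_smul] at h4
  -- step 5 : characters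
  have hKψ : HasChar Γ (k' + k'' + k) K (ψ * 1 * 1) := (hG'ψ.mul hαinv).mul hbinv
  have hGHψ : HasChar Γ (k + (k' + k'')) (G * H) (ψ * 1 * 1) := by
    rw [h4]
    exact (hKψ.const_smul _).cast (by ring)
  have hHψ : HasChar Γ (k' + k'') H (1 * 1) := hb'inv.mul hβinv
  have hGψ := HasChar.of_mul_right hG hH hH0 hGHψ hHψ
  refine ⟨G, hG, hGF, fun γ => ?_⟩
  have h5 := hGψ γ
  simpa only [MonoidHom.mul_apply, MonoidHom.inv_apply, MonoidHom.one_apply, mul_one, inv_one]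
    using h5

/-! ### the root character of a modular function: powers -/

section RootCharOf

open CongruenceSubgroup Fermat.Agent.S20 Fermat.Agent.S24.RepHom Fermat.Agent.S30.Analytic.RepChar

variable {N : ℕ} [NeZero N]

/-- the `n m`-th roots of `g ^ m` have the character of the `n`-th roots of `g` -/
theorem rootCharOf_pow_mul {n m : ℕ} (hn : n ≠ 0) (hm : m ≠ 0) {g : LaurentSeries ℂ}
    {ψ : Gamma0 N →* ℂˣ} (h : RootCharOf N n g ψ) : RootCharOf N (n * m) (g ^ m) ψ := by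
  obtain ⟨k, a, b, hr, G, hG, hGF, hGψ⟩ := h
  refine ⟨(m : ℤ) * k, a ^ m, b ^ m, IsRepOf_pow hr m, G * b ^ (m - 1), ?_, ?_, ?_⟩
  · exact hG.mul ((mdiff_of_isMF hr.hb).pow _)
  · obtain ⟨n', rfl⟩ : ∃ n', n = n' + 1 := ⟨n - 1, (Nat.succ_pred_eq_of_ne_zero hn).symm⟩
    obtain ⟨m', rfl⟩ : ∃ m', m = m' + 1 := ⟨m - 1, (Nat.succ_pred_eq_of_ne_zero hm).symm⟩
    rw [Nat.add_sub_cancel] at hGF ⊢
    have e : (n' + 1) * (m' + 1) - 1 = n' * (m' + 1) + m' := by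
      rw [Nat.add_mul, one_mul, ← Nat.add_assoc, Nat.add_sub_cancel]
    rw [e, mul_pow, pow_mul, hGF]
    ring
  · have hb1 : HasChar (Gamma0 N) k b 1 :=
      hasChar_one_iff.mpr fun γ hγ => slash_eq_of_isMF hr.hb hγ
    have h1 := hGψ.mul (hb1.pow (m - 1))
    have hk : k + ((m - 1 : ℕ) : ℤ) * k = (m : ℤ) * k := by
      have : 1 ≤ m := Nat.one_le_iff_ne_zero.mpr hm
      push_cast [Nat.cast_sub this]
      ring
    have h2 := h1.cast hk
    intro γ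
    have h5 := h2 γ
    simpa only [MonoidHom.mul_apply, MonoidHom.pow_apply, MonoidHom.one_apply, one_pow, mul_one]
      using h5

end RootCharOf

/-! ### `IsPsiOf` : independence of the data, uniqueness, additivity -/

section Psi

open CongruenceSubgroup AlgebraicCurve ModularCurve Fermat.Agent.S20 Fermat.Agent.S24.RepHom
  Fermat.Agent.S30.Analytic.RepChar Fermat.Agent.S30.Spec

variable (N : ℕ) [NeZero N]

/-- `IsPsiOf` in terms of `RootCharOf` -/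
theorem isPsiOf_iff (x : Pic0 ℂ (FC N)) (ψ : Gamma0 N →* ℂˣ) :
    IsPsiOf N x ψ ↔ ∃ (n : ℕ) (D : Divisor.degZero (K := ℂ) (F := FC N)) (f : FC N),
      n ≠ 0 ∧ f ≠ 0 ∧ x = Pic0.mk D ∧
      (∀ v : Place ℂ (FC N), (n : ℤ) * (D : Divisor ℂ (FC N)) v = v.ord f) ∧
      RootCharOf N n (f : LaurentSeries ℂ) ψ := by
  constructor
  · rintro ⟨n, D, f, k, a, b, hn, hf, hx, hD, hr, hψ⟩
    exact ⟨n, D, f, hn, hf, hx, hD, k, a, b, hr, hψ⟩
  · rintro ⟨n, D, f, hn, hf, hx, hD, k, a, b, hr, hψ⟩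
    exact ⟨n, D, f, k, a, b, hn, hf, hx, hD, hr, hψ⟩

/-- every element of `FC N` is a quotient of two forms -/
theorem isRepC_of_FC (u : FC N) : IsRepC N (u : LaurentSeries ℂ) :=
  (RepFieldEq.mem_repField_iff N).mpr u.2

omit [NeZero N] in
theorem coe_ne_zero {u : FC N} (hu : u ≠ 0) : (u : LaurentSeries ℂ) ≠ 0 := fun h =>
  hu (Subtype.ext h)

omit [NeZero N] in
theorem ord_pow' (v : Place ℂ (FC N)) (f : FC N) (n : ℕ) : v.ord (f ^ n) = (n : ℤ) * v.ord f := by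
  rw [← zpow_natCast, v.ord_zpow]

/-- **additivity** (`PsiDict.add`) -/
theorem isPsiOf_add (x y : Pic0 ℂ (FC N)) (ψ ψ' : Gamma0 N →* ℂˣ) (h : IsPsiOf N x ψ)
    (h' : IsPsiOf N y ψ') : IsPsiOf N (x + y) (ψ * ψ') := by
  rw [isPsiOf_iff] at h h' ⊢
  obtain ⟨n, D, f, hn, hf, rfl, hD, hψ⟩ := h
  obtain ⟨n', D', f', hn', hf', rfl, hD', hψ'⟩ := h'
  refine ⟨n * n', D + D', f ^ n' * f' ^ n, Nat.mul_ne_zero hn hn',
    mul_ne_zero (pow_ne_zero _ hf) (pow_ne_zero _ hf'), (Pic0.mk_add D D').symm, fun v => ?_, ?_⟩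
  · have e : ((D + D' : Divisor.degZero (K := ℂ) (F := FC N)) : Divisor ℂ (FC N)) v =
        (D : Divisor ℂ (FC N)) v + (D' : Divisor ℂ (FC N)) v := rfl
    rw [v.ord_mul (pow_ne_zero _ hf) (pow_ne_zero _ hf'), ord_pow', ord_pow', ← hD v, ← hD' v, e]
    push_cast
    ring
  · have h1 := rootCharOf_pow_mul hn hn' hψ
    have h2 := rootCharOf_pow_mul hn' hn hψ'
    rw [mul_comm n' n] at h2
    exact h1.mul h2

/-- two data for the same class: `f ^ n' = c f' ^ n g ^ (n n')` -/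
theorem exists_relation
    (hconst : ∀ u : FC N, u ≠ 0 → (∀ v : Place ℂ (FC N), v.ord u = 0) →
      ∃ c : ℂ, u = algebraMap ℂ (FC N) c)
    {n n' : ℕ} {D D' : Divisor.degZero (K := ℂ) (F := FC N)} {f f' : FC N} (hf : f ≠ 0)
    (hf' : f' ≠ 0) (hx : Pic0.mk D = Pic0.mk D')
    (hD : ∀ v : Place ℂ (FC N), (n : ℤ) * (D : Divisor ℂ (FC N)) v = v.ord f)
    (hD' : ∀ v : Place ℂ (FC N), (n' : ℤ) * (D' : Divisor ℂ (FC N)) v = v.ord f') :
    ∃ (g : FC N) (c : ℂ), g ≠ 0 ∧ c ≠ 0 ∧ (f : LaurentSeries ℂ) ^ n' =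
      HahnSeries.C c * ((f' : LaurentSeries ℂ) ^ n * (g : LaurentSeries ℂ) ^ (n * n')) := by
  -- `D - D'` is principal
  have hprin : ((D - D' : Divisor.degZero (K := ℂ) (F := FC N)) : Divisor ℂ (FC N)) ∈
      Divisor.principal (K := ℂ) (F := FC N) := by
    have := (QuotientAddGroup.eq (s := (Divisor.principal (K := ℂ) (F := FC N)).addSubgroupOf
      (Divisor.degZero (K := ℂ) (F := FC N)))).mp hx.symm
    rw [AddSubgroup.mem_addSubgroupOf] at this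
    have e : (D - D' : Divisor.degZero (K := ℂ) (F := FC N)) = -D' + D := by abel
    rw [e]
    exact this
  obtain ⟨g, hg, hgD⟩ := hprin
  -- the function `u = f ^ n' / (f' ^ n g ^ (n n'))` has no zeros and poles
  set u : FC N := f ^ n' * (f' ^ n * g ^ (n * n'))⁻¹ with hu
  have hden : f' ^ n * g ^ (n * n') ≠ 0 := mul_ne_zero (pow_ne_zero _ hf') (pow_ne_zero _ hg)
  have hu0 : u ≠ 0 := mul_ne_zero (pow_ne_zero _ hf) (inv_ne_zero hden)
  have hord : ∀ v : Place ℂ (FC N), v.ord u = 0 := by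
    intro v
    have e : ((D - D' : Divisor.degZero (K := ℂ) (F := FC N)) : Divisor ℂ (FC N)) v =
        (D : Divisor ℂ (FC N)) v - (D' : Divisor ℂ (FC N)) v := rfl
    rw [hu, v.ord_mul (pow_ne_zero _ hf) (inv_ne_zero hden), v.ord_inv,
      v.ord_mul (pow_ne_zero _ hf') (pow_ne_zero _ hg), ord_pow', ord_pow', ord_pow', ← hD v,
      ← hD' v, ← hgD v, e]
    push_cast
    ring
  obtain ⟨c, hc⟩ := hconst u hu0 hord
  have hc0 : c ≠ 0 := by
    rintro rfl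
    rw [map_zero] at hc
    exact hu0 hc
  have hrel : f ^ n' = algebraMap ℂ (FC N) c * (f' ^ n * g ^ (n * n')) := by
    rw [← hc, hu, mul_assoc, inv_mul_cancel₀ hden, mul_one]
  refine ⟨g, c, hg, hc0, ?_⟩
  have hCc : algebraMap ℂ (LaurentSeries ℂ) c = HahnSeries.C c := by
    have h1 : algebraMap ℂ (PowerSeries ℂ) c = PowerSeries.C c := by simp
    rw [HahnSeries.algebraMap_apply', h1, HahnSeries.ofPowerSeries_C]
  have := congrArg (fun z : FC N => (z : LaurentSeries ℂ)) hrel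
  rw [← hCc]
  exact this

/-- **uniqueness** (`PsiDict.unique`), given that functions without zeros and poles are
constant -/
theorem isPsiOf_unique
    (hconst : ∀ u : FC N, u ≠ 0 → (∀ v : Place ℂ (FC N), v.ord u = 0) →
      ∃ c : ℂ, u = algebraMap ℂ (FC N) c)
    (x : Pic0 ℂ (FC N)) (ψ ψ' : Gamma0 N →* ℂˣ) (h : IsPsiOf N x ψ) (h' : IsPsiOf N x ψ') :
    ψ = ψ' := by
  rw [isPsiOf_iff] at h h'
  obtain ⟨n, D, f, hn, hf, rfl, hD, hψ⟩ := h
  obtain ⟨n', D', f', hn', hf', hx, hD', hψ'⟩ := h'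
  obtain ⟨g, c, hg, hc0, hrel'⟩ := exists_relation N hconst hf hf' hx hD hD'
  have h1 := rootCharOf_pow_mul hn hn' hψ
  have h2 := rootCharOf_pow_mul hn' hn hψ'
  rw [mul_comm n' n] at h2
  have h3 : RootCharOf N (n * n') ((g : LaurentSeries ℂ) ^ (n * n')) 1 :=
    rootCharOf_pow_self (Nat.mul_ne_zero hn hn') (isRepC_of_FC N g)
  have h4 : RootCharOf N (n * n') (HahnSeries.C c) 1 :=
    rootCharOf_const (Nat.mul_ne_zero hn hn') c
  have h5 := h4.mul (h2.mul h3)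
  rw [← hrel'] at h5
  have := RootCharOf.unique (Nat.mul_ne_zero hn hn') (pow_ne_zero _ (coe_ne_zero N hf)) h1 h5
  rw [this]
  ext γ
  simp only [MonoidHom.mul_apply, MonoidHom.one_apply, one_mul, mul_one]

/-- **(DI) independence of the data**: if `ψ` is the character of the class `y`, then for EVERY
datum `(m, D, f, k, a, b)` of `y` the form `a b ^ (m - 1)` has `m`-th roots with character `ψ`. -/
theorem isRootChar_of_isPsiOf
    (hconst : ∀ u : FC N, u ≠ 0 → (∀ v : Place ℂ (FC N), v.ord u = 0) →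
      ∃ c : ℂ, u = algebraMap ℂ (FC N) c)
    {y : Pic0 ℂ (FC N)} {ψ : Gamma0 N →* ℂˣ} (h : IsPsiOf N y ψ) {m : ℕ} (hm : m ≠ 0)
    {D : Divisor.degZero (K := ℂ) (F := FC N)} {f : FC N} (hf : f ≠ 0) (hy : y = Pic0.mk D)
    (hD : ∀ v : Place ℂ (FC N), (m : ℤ) * (D : Divisor ℂ (FC N)) v = v.ord f)
    {k : ℤ} {a b : ℍ → ℂ} (hr : IsRepOf N (f : LaurentSeries ℂ) k a b) :
    IsRootChar (Gamma0 N) m k (a * b ^ (m - 1)) ψ := by
  obtain ⟨n', D', f', k', a', b', hn', hf', hy', hD', hr', hψ⟩ := h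
  obtain ⟨g, c, hg, hc0, hrel⟩ := exists_relation N hconst hf hf' (hy.symm.trans hy') hD hD'
  obtain ⟨k'', α, β, hrg⟩ := isRepC_of_FC N g
  -- the two representations of `f ^ n'`
  have hr1 := IsRepOf_pow hr n'
  have hr2 := (IsRepOf.const (N := N) c).mul ((IsRepOf_pow hr' m).mul (IsRepOf_pow hrg (m * n')))
  rw [← hrel] at hr2
  have hcross := hr1.cross hr2
  have hrel' : a ^ n' * b' ^ m * β ^ (n' * m) = c • (a' ^ m * α ^ (n' * m) * b ^ n') := by
    rw [mul_comm n' m]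
    ext τ
    have := congrFun hcross τ
    simp only [Pi.mul_apply, Pi.pow_apply, Pi.one_apply, Pi.smul_apply, smul_eq_mul] at this ⊢
    linear_combination this
  have hone : ∀ {k₀ : ℤ} {b₀ : ℍ → ℂ}, IsMF (G0 N) k₀ b₀ → HasChar (Gamma0 N) k₀ b₀ 1 :=
    fun hb₀ => hasChar_one_iff.mpr fun γ hγ => slash_eq_of_isMF hb₀ hγ
  exact isRootChar_of_relation hn' hm (mdiff_of_isMF hr.ha) (mdiff_of_isMF hr.hb)
    (mdiff_of_isMF hr'.ha) (mdiff_of_isMF hr'.hb) (mdiff_of_isMF hrg.ha) (mdiff_of_isMF hrg.hb)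
    (Fermat.Agent.S24.LmapTaylor.num_ne_zero_of_isRepOf hr (coe_ne_zero N hf)) hr.hb0
    (Fermat.Agent.S24.LmapTaylor.num_ne_zero_of_isRepOf hr' (coe_ne_zero N hf')) hr'.hb0
    (Fermat.Agent.S24.LmapTaylor.num_ne_zero_of_isRepOf hrg (coe_ne_zero N hg)) hrg.hb0
    (hone hr.hb) (hone hr'.hb) (hone hrg.ha) (hone hrg.hb) hc0 hrel' hψ

end Psi

end Fermat.Agent.S30.Analytic.PsiData
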