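import Mathlib

/-!
# PROJECT J (S30), slice J-1 (G): elements of finite order of `SL(2, ℤ)` fix a point of `ℍ`
(helper27)

* `trace_pow_ne_two` : if `|trace A| ≥ 3` then `trace (A ^ m) ≠ 2`, so `A` has infinite order;
* `exists_fixed_of_trace_sq_lt` : if `(trace A) ^ 2 < 4` then `A` fixes a point of `ℍ`;
* **`exists_fixed_of_isOfFinOrder`** : an element of finite order of `SL(2, ℤ)` has
  `(trace A) ^ 2 = 4` or fixes a point of `ℍ`.
-/

set_option autoImplicit false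

noncomputable section

namespace Fermat.Agent.S30.Analytic.FinOrder

open UpperHalfPlane Matrix
open scoped MatrixGroups

/-- Cayley–Hamilton for `SL(2, ℤ)`, in the form of a recursion for the traces of the powers -/
theorem trace_pow_succ_succ (A : SL(2, ℤ)) (m : ℕ) :
    ((A ^ (m + 2) : SL(2, ℤ)) : Matrix (Fin 2) (Fin 2) ℤ).trace =
      (A : Matrix (Fin 2) (Fin 2) ℤ).trace * ((A ^ (m + 1) : SL(2, ℤ)) : Matrix (Fin 2) (Fin 2) ℤ).trace
        - ((A ^ m : SL(2, ℤ)) : Matrix (Fin 2) (Fin 2) ℤ).trace := by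
  have hdet := A.det_coe
  rw [Matrix.det_fin_two] at hdet
  have hCH : (A : Matrix (Fin 2) (Fin 2) ℤ) * (A : Matrix (Fin 2) (Fin 2) ℤ) =
      (A : Matrix (Fin 2) (Fin 2) ℤ).trace • (A : Matrix (Fin 2) (Fin 2) ℤ) - 1 := by
    ext i j
    rw [Matrix.mul_apply, Fin.sum_univ_two, Matrix.sub_apply, Matrix.smul_apply,
      Matrix.trace_fin_two, smul_eq_mul]
    fin_cases i <;> fin_cases j
    · simp only [Fin.zero_eta, Fin.isValue, Matrix.one_apply_eq]
      linear_combination -hdet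
    · simp only [Fin.zero_eta, Fin.isValue, Fin.mk_one, ne_eq, zero_ne_one, not_false_eq_true,
        Matrix.one_apply_ne]
      ring
    · simp only [Fin.mk_one, Fin.isValue, Fin.zero_eta, ne_eq, one_ne_zero, not_false_eq_true,
        Matrix.one_apply_ne]
      ring
    · simp only [Fin.mk_one, Fin.isValue, Matrix.one_apply_eq]
      linear_combination -hdet
  have h1 : ((A ^ (m + 2) : SL(2, ℤ)) : Matrix (Fin 2) (Fin 2) ℤ) =
      (A : Matrix (Fin 2) (Fin 2) ℤ).trace • ((A ^ (m + 1) : SL(2, ℤ)) : Matrix (Fin 2) (Fin 2) ℤ)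
        - ((A ^ m : SL(2, ℤ)) : Matrix (Fin 2) (Fin 2) ℤ) := by
    rw [pow_succ (A) (m + 1), pow_succ A m]
    simp only [Matrix.SpecialLinearGroup.coe_mul]
    rw [Matrix.mul_assoc, hCH, Matrix.mul_sub, Matrix.mul_smul, Matrix.mul_one]
  rw [h1, Matrix.trace_sub, Matrix.trace_smul, smul_eq_mul]

/-- the absolute values of the traces of the powers increase when `|trace A| ≥ 3` -/
theorem abs_trace_pow_lt (A : SL(2, ℤ)) (h : 3 ≤ |(A : Matrix (Fin 2) (Fin 2) ℤ).trace|) (m : ℕ) :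
    |((A ^ m : SL(2, ℤ)) : Matrix (Fin 2) (Fin 2) ℤ).trace| <
      |((A ^ (m + 1) : SL(2, ℤ)) : Matrix (Fin 2) (Fin 2) ℤ).trace| := by
  induction m with
  | zero =>
    rw [pow_zero, zero_add, pow_one, Matrix.SpecialLinearGroup.coe_one, Matrix.trace_one,
      Fintype.card_fin]
    have : |((2 : ℕ) : ℤ)| = 2 := by norm_num
    rw [this]
    omega
  | succ m ih =>
    rw [trace_pow_succ_succ]
    set t := (A : Matrix (Fin 2) (Fin 2) ℤ).trace
    set u := ((A ^ m : SL(2, ℤ)) : Matrix (Fin 2) (Fin 2) ℤ).trace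
    set u' := ((A ^ (m + 1) : SL(2, ℤ)) : Matrix (Fin 2) (Fin 2) ℤ).trace
    have h1 : |t * u'| - |u| ≤ |t * u' - u| := abs_sub_abs_le_abs_sub _ _
    rw [abs_mul] at h1
    have h2 : 0 ≤ |u| := abs_nonneg u
    nlinarith

/-- if `|trace A| ≥ 3` then `A` has infinite order -/
theorem pow_ne_one_of_abs_trace (A : SL(2, ℤ)) (h : 3 ≤ |(A : Matrix (Fin 2) (Fin 2) ℤ).trace|)
    {m : ℕ} (hm : 0 < m) : A ^ m ≠ 1 := by
  have key : ∀ m : ℕ, 2 < |((A ^ (m + 1) : SL(2, ℤ)) : Matrix (Fin 2) (Fin 2) ℤ).trace| := by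
    intro m
    induction m with
    | zero =>
      rw [zero_add, pow_one]
      omega
    | succ m ih => exact ih.trans (abs_trace_pow_lt A h (m + 1))
  intro h1
  obtain ⟨m, rfl⟩ : ∃ m', m = m' + 1 := ⟨m - 1, by omega⟩
  have := key m
  rw [h1, Matrix.SpecialLinearGroup.coe_one, Matrix.trace_one, Fintype.card_fin] at this
  norm_num at this

/-- an element of finite order has `|trace| ≤ 2` -/
theorem abs_trace_le_two_of_isOfFinOrder {A : SL(2, ℤ)} (hA : IsOfFinOrder A) :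
    |(A : Matrix (Fin 2) (Fin 2) ℤ).trace| ≤ 2 := by
  by_contra hcon
  rw [not_le] at hcon
  obtain ⟨m, hm, hAm⟩ := isOfFinOrder_iff_pow_eq_one.mp hA
  exact pow_ne_one_of_abs_trace A (by omega) hm hAm

/-- a point of `ℍ` is fixed by `A` iff it satisfies the fixed point equation -/
theorem smul_eq_self_iff (A : SL(2, ℤ)) (τ : ℍ) :
    A • τ = τ ↔ ((A 1 0 : ℤ) : ℂ) * (τ : ℂ) ^ 2 + (((A 1 1 : ℤ) : ℂ) - ((A 0 0 : ℤ) : ℂ)) * τ
      - ((A 0 1 : ℤ) : ℂ) = 0 := by
  have hden : ((A 1 0 : ℤ) : ℂ) * τ + ((A 1 1 : ℤ) : ℂ) ≠ 0 := by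
    have := denom_ne_zero (A : GL (Fin 2) ℝ) τ
    simpa [denom] using this
  rw [UpperHalfPlane.ext_iff, coe_specialLinearGroup_apply]
  simp only [algebraMap_int_eq, eq_intCast, Complex.ofReal_intCast]
  rw [div_eq_iff hden]
  constructor
  · intro h
    linear_combination -h
  · intro h
    linear_combination -h

/-- if `(trace A) ^ 2 < 4` and `0 < A 1 0` then `A` fixes a point of `ℍ` -/
theorem exists_fixed_of_pos (A : SL(2, ℤ)) (h : (A : Matrix (Fin 2) (Fin 2) ℤ).trace ^ 2 < 4)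
    (hc : 0 < A 1 0) : ∃ τ : ℍ, A • τ = τ := by
  have hdet := A.det_coe
  rw [Matrix.det_fin_two] at hdet
  rw [Matrix.trace_fin_two] at h
  set a := A 0 0
  set b := A 0 1
  set c := A 1 0
  set d := A 1 1
  have hD : (0 : ℝ) < 4 - ((a : ℝ) + d) ^ 2 := by
    have : ((a + d) ^ 2 : ℤ) < 4 := h
    have h' : (((a + d) ^ 2 : ℤ) : ℝ) < 4 := by exact_mod_cast this
    push_cast at h'
    linarith
  set s := Real.sqrt (4 - ((a : ℝ) + d) ^ 2) with hs
  have hs0 : 0 < s := Real.sqrt_pos.mpr hD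
  have hs2 : s ^ 2 = 4 - ((a : ℝ) + d) ^ 2 := Real.sq_sqrt hD.le
  have hcR : (0 : ℝ) < c := by exact_mod_cast hc
  set τc : ℂ := (((a : ℂ) - d) + Complex.I * s) / (2 * c) with hτc
  have him : 0 < τc.im := by
    have : τc.im = s / (2 * c) := by
      rw [hτc]
      have h2c : (2 * (c : ℂ)) = ((2 * c : ℝ) : ℂ) := by push_cast; ring
      rw [h2c, Complex.div_ofReal_im]
      simp
    rw [this]
    positivity
  refine ⟨⟨τc, him⟩, ?_⟩
  rw [smul_eq_self_iff]
  show (c : ℂ) * τc ^ 2 + ((d : ℂ) - a) * τc - b = 0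
  have hc0 : (c : ℂ) ≠ 0 := by exact_mod_cast hc.ne'
  have hs2C : (s : ℂ) ^ 2 = 4 - ((a : ℂ) + d) ^ 2 := by exact_mod_cast hs2
  have hdetC : (a : ℂ) * d - b * c = 1 := by exact_mod_cast hdet
  have h2 : 2 * (c : ℂ) * τc = ((a : ℂ) - d) + Complex.I * s := by
    rw [hτc]
    field_simp
  have h4 : 4 * (c : ℂ) * ((c : ℂ) * τc ^ 2 + ((d : ℂ) - a) * τc - b) = 0 := by
    linear_combination (2 * (c : ℂ) * τc + (((a : ℂ) - d) + Complex.I * s) + 2 * ((d : ℂ) - a)) * h2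
      + (s : ℂ) ^ 2 * Complex.I_sq - hs2C + 4 * hdetC
  have h4c : (4 * (c : ℂ)) ≠ 0 := mul_ne_zero (by norm_num) hc0
  exact (mul_eq_zero.mp h4).resolve_left h4c

/-- if `(trace A) ^ 2 < 4` then `A` fixes a point of `ℍ` -/
theorem exists_fixed_of_trace_sq_lt (A : SL(2, ℤ))
    (h : (A : Matrix (Fin 2) (Fin 2) ℤ).trace ^ 2 < 4) : ∃ τ : ℍ, A • τ = τ := by
  have hdet := A.det_coe
  rw [Matrix.det_fin_two] at hdet
  have htr := h
  rw [Matrix.trace_fin_two] at htr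
  rcases lt_trichotomy (A 1 0) 0 with hc | hc | hc
  · -- pass to the inverse
    have h1 : (A⁻¹ : SL(2, ℤ)) 1 0 = -A 1 0 := by
      rw [Matrix.SpecialLinearGroup.coe_inv, Matrix.adjugate_fin_two]
      simp
    have h2 : ((A⁻¹ : SL(2, ℤ)) : Matrix (Fin 2) (Fin 2) ℤ).trace =
        (A : Matrix (Fin 2) (Fin 2) ℤ).trace := by
      rw [Matrix.SpecialLinearGroup.coe_inv, Matrix.adjugate_fin_two, Matrix.trace_fin_two,
        Matrix.trace_fin_two]
      simp
      ring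
    obtain ⟨τ, hτ⟩ := exists_fixed_of_pos A⁻¹ (by rw [h2]; exact h) (by rw [h1]; omega)
    refine ⟨τ, ?_⟩
    conv_lhs => rw [← hτ]
    rw [← mul_smul, mul_inv_cancel, one_smul]
  · exfalso
    rw [hc, mul_zero, sub_zero] at hdet
    nlinarith [sq_nonneg (A 0 0 - A 1 1)]
  · exact exists_fixed_of_pos A h hc

/-- **Elements of finite order are `± 1`-like or elliptic**: an element of finite order of
`SL(2, ℤ)` has `(trace A) ^ 2 = 4` or fixes a point of `ℍ`. -/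
theorem exists_fixed_of_isOfFinOrder {A : SL(2, ℤ)} (hA : IsOfFinOrder A) :
    (A : Matrix (Fin 2) (Fin 2) ℤ).trace ^ 2 = 4 ∨ ∃ τ : ℍ, A • τ = τ := by
  have h := abs_trace_le_two_of_isOfFinOrder hA
  have h1 : (A : Matrix (Fin 2) (Fin 2) ℤ).trace ^ 2 ≤ 4 := by
    have := abs_le.mp h
    nlinarith
  rcases h1.lt_or_eq with h2 | h2
  · exact Or.inr (exists_fixed_of_trace_sq_lt A h2)
  · exact Or.inl h2

end Fermat.Agent.S30.Analytic.FinOrder
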