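import Mathlib
import Fermat.Agent.S30.Spec
import Fermat.Agent.S30.Analytic.PointPlace
import Fermat.Agent.S30.Analytic.RepFieldEq
import Fermat.Agent.S30.Analytic.FinOrder
import Fermat.Agent.S21.Parabolic

/-!
# PROJECT J (S30), slice J-1: the analytic dictionary `Ψ` on torsion classes (helper27)

For `F_C = FC N` (identified with `repField N` by `RepFieldEq.repFieldEquiv`) we prove three of the
fields of `Spec.PsiDict N`:

* **`exists_isPsiOf_of_torsion`** (`exists_of_torsion`): every torsion class has a root character;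
* **`eq_zero_of_isPsiOf_one`** (`injective`): a class with trivial root character is zero;
* **`mem_charGroup_of_isPsiOf`** (`mem`): root characters are parabolic, trivial on the elements of
  finite order, and of finite order.

`psiDict_of` assembles `Spec.PsiDict N` from the remaining three fields.
-/

set_option autoImplicit false
set_option linter.unusedSectionVars false

noncomputable section

namespace Fermat.Agent.S30.Analytic.TorsionChar

open UpperHalfPlane ModularForm CongruenceSubgroup AlgebraicCurve ModularCurve Function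
open Fermat.Agent.S20 Fermat.Agent.S23.QRing Fermat.Agent.S24.RepHom Fermat.Agent.S24.LmapJ
open Fermat.Agent.S24.LaurentCusp
open Fermat.Agent.S30.Analytic.Character Fermat.Agent.S30.Analytic.Local
open Fermat.Agent.S30.Analytic.RepChar Fermat.Agent.S30.Analytic.PointPlace
open Fermat.Agent.S30.Analytic.RepFieldEq Fermat.Agent.S30.Spec
open scoped Manifold MatrixGroups ModularForm

variable (N : ℕ) [NeZero N]

/-- the identification `F_C → repField N` (identity on Laurent series) -/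
def rho : FC N →+* repField N := ((repFieldEquiv N).symm : FC N ≃+* repField N)

theorem coe_rho (f : FC N) : ((rho N f : repField N) : LaurentSeries ℂ) = (f : LaurentSeries ℂ) :=
  rfl

theorem constCompat_rho : ConstCompat (rho N) := by
  intro c
  apply Subtype.ext
  rw [coe_rho]
  show algebraMap ℂ (LaurentSeries ℂ) c = HahnSeries.C c
  rw [Fermat.Agent.S24.OrbitDefs.algebraMap_eq_ofPS_C, HahnSeries.ofPowerSeries_C]

theorem surjective_rho : Surjective (rho N) := (repFieldEquiv N).symm.surjective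

variable {N}

/-- the data of `IsPsiOf`, without the class -/
structure PsiData (n : ℕ) (D : Divisor ℂ (FC N)) (f : FC N) (k : ℤ) (a b : ℍ → ℂ) : Prop where
  hn : n ≠ 0
  hf : f ≠ 0
  hD : ∀ v : Place ℂ (FC N), (n : ℤ) * D v = v.ord f
  hr : IsRepOf N (f : LaurentSeries ℂ) k a b

namespace PsiData

variable {n : ℕ} {D : Divisor ℂ (FC N)} {f : FC N} {k : ℤ} {a b : ℍ → ℂ}

theorem hf' (h : PsiData n D f k a b) : (f : LaurentSeries ℂ) ≠ 0 := fun h0 =>
  h.hf (Subtype.ext h0)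

theorem ha (h : PsiData n D f k a b) : MDiff a := mdiff_of_isMF h.hr.ha

theorem hb (h : PsiData n D f k a b) : MDiff b := mdiff_of_isMF h.hr.hb

theorem ha0 (h : PsiData n D f k a b) : a ≠ 0 :=
  Fermat.Agent.S24.LmapTaylor.num_ne_zero_of_isRepOf h.hr h.hf'

/-- the orders at the points of `ℍ` -/
theorem exists_point (h : PsiData n D f k a b) (τ : ℍ) :
    ∃ (P : Place ℂ (FC N)) (e : ℕ), 0 < e ∧
      (((ordAt a τ).toNat : ℤ) - ((ordAt b τ).toNat : ℤ)) = e * ((n : ℤ) * D P) ∧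
      (∀ σ : SL(2, ℤ), σ ∈ Gamma0 N → σ • τ = τ →
        denom (σ : GL (Fin 2) ℝ) τ ^ (2 * e) = 1) := by
  obtain ⟨P, e, he, hord, hden⟩ :=
    exists_place_point (constCompat_rho N) (surjective_rho N) τ
  refine ⟨P, e, he, ?_, hden⟩
  rw [h.hD P]
  exact hord f h.hf k a b h.hr

/-- the orders at the cusps -/
theorem exists_cusp (h : PsiData n D f k a b) (σ : SL(2, ℤ)) {w : ℕ} (hw0 : 0 < w)
    (hw : σ * ModularGroup.T ^ (w : ℤ) * σ⁻¹ ∈ Gamma0 N) :
    ∃ (P : Place ℂ (FC N)) (e : ℕ), 0 < e ∧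
      (((cuspOrd w (a ∣[k] σ)).toNat : ℤ) - ((cuspOrd w (b ∣[k] σ)).toNat : ℤ)) =
        e * ((n : ℤ) * D P) := by
  obtain ⟨P, e, he, hord⟩ :=
    exists_place_cusp (constCompat_rho N) (surjective_rho N) σ hw0 hw
  refine ⟨P, e, he, ?_⟩
  rw [h.hD P]
  exact hord f h.hf k a b h.hr

/-- all orders of `a * b ^ (n - 1)` are divisible by `n` -/
theorem exists_ordAt_eq (h : PsiData n D f k a b) (τ : ℍ) :
    ∃ m : ℕ, ordAt (a * b ^ (n - 1)) τ = ((n * m : ℕ) : ℕ∞) := by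
  obtain ⟨P, e, -, hord, -⟩ := h.exists_point τ
  have hn1 : 1 ≤ n := Nat.one_le_iff_ne_zero.mpr h.hn
  have hna : ordAt a τ ≠ ⊤ := ordAt_ne_top h.ha h.ha0 τ
  have hnb : ordAt b τ ≠ ⊤ := ordAt_ne_top h.hb h.hr.hb0 τ
  set ma := (ordAt a τ).toNat with hma
  set mb := (ordAt b τ).toNat with hmb
  have ea : ordAt a τ = (ma : ℕ∞) := (ENat.natCast_toNat hna).symm
  have eb : ordAt b τ = (mb : ℕ∞) := (ENat.natCast_toNat hnb).symm
  have e1 : ordAt (a * b ^ (n - 1)) τ = ((ma + (n - 1) * mb : ℕ) : ℕ∞) := by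
    rw [ordAt_mul h.ha (h.hb.pow _), ordAt_pow h.hb, ea, eb]
    push_cast
    rw [nsmul_eq_mul]
    rfl
  set z : ℤ := e * D P + mb with hz
  have hz1 : (n : ℤ) * z = ((ma + (n - 1) * mb : ℕ) : ℤ) := by
    push_cast [Nat.cast_sub hn1]
    rw [hz]
    linarith
  have hz0 : 0 ≤ z := by
    by_contra hcon
    rw [not_le] at hcon
    have h1 : (0 : ℤ) ≤ ((ma + (n - 1) * mb : ℕ) : ℤ) := Int.natCast_nonneg _
    have h2 : (1 : ℤ) ≤ n := by exact_mod_cast hn1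
    nlinarith
  refine ⟨z.toNat, ?_⟩
  rw [e1]
  congr 1
  have : ((n * z.toNat : ℕ) : ℤ) = ((ma + (n - 1) * mb : ℕ) : ℤ) := by
    rw [Nat.cast_mul, Int.toNat_of_nonneg hz0, hz1]
  exact_mod_cast this.symm

end PsiData

/-! ### Existence -/

theorem coe_nsmul_apply (n : ℕ) (D : Divisor.degZero (K := ℂ) (F := FC N))
    (v : Place ℂ (FC N)) :
    ((n • D : Divisor.degZero (K := ℂ) (F := FC N)) : Divisor ℂ (FC N)) v =
      (n : ℤ) * (D : Divisor ℂ (FC N)) v := by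
  rw [AddSubgroup.coe_nsmul, Finsupp.smul_apply, nsmul_eq_mul]

variable (N) in
/-- **`exists_of_torsion`**: every torsion class has a root character. -/
theorem exists_isPsiOf_of_torsion (x : Pic0 ℂ (FC N)) (hx : ∃ n : ℕ, n ≠ 0 ∧ n • x = 0) :
    ∃ ψ, IsPsiOf N x ψ := by
  obtain ⟨n, hn, hx⟩ := hx
  obtain ⟨D, rfl⟩ := Pic0.mk_surjective x
  have h1 : Pic0.mk (n • D) = 0 := hx
  rw [Pic0.mk, QuotientAddGroup.eq_zero_iff, AddSubgroup.mem_addSubgroupOf] at h1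
  obtain ⟨f, hf, hDf⟩ := h1
  obtain ⟨k, a, b, hr⟩ := (rho N f).2
  have hdata : PsiData n (D : Divisor ℂ (FC N)) f k a b :=
    ⟨hn, hf, fun v => by rw [← hDf v, coe_nsmul_apply], hr⟩
  obtain ⟨ψ, hψ, -⟩ := exists_isRootChar (Γ := Gamma0 N) hn (rootForm_mdiff hr n)
    (rootForm_ne_zero hr hdata.hf' n) (fun _ hγ => rootForm_slash hr hn hγ) hdata.exists_ordAt_eq
  exact ⟨ψ, n, D, f, k, a, b, hn, hf, rfl, hdata.hD, hr, hψ⟩

/-! ### Injectivity -/

variable (N) in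
/-- **`injective`**: a class with trivial root character is zero. -/
theorem eq_zero_of_isPsiOf_one (x : Pic0 ℂ (FC N)) (h : IsPsiOf N x 1) : x = 0 := by
  obtain ⟨n, D, f, k, a, b, hn, hf, rfl, hD, hr, hψ⟩ := h
  have hFmf : IsMF (G0 N) (k * n) (a * b ^ (n - 1)) := (rootForm_isMF hr hn).cast (mul_comm _ _)
  obtain ⟨Fm, hFm⟩ := hFmf
  have hψ' : IsRootChar (Gamma0 N) n k (Fm : ℍ → ℂ) 1 := by rw [hFm]; exact hψ
  obtain ⟨G, hG⟩ := exists_modularForm_of_isRootChar_one hn Fm hψ'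
  have hGa : (G : ℍ → ℂ) ^ n = a * b ^ (n - 1) := hG.trans hFm
  have hGmf : IsMF (G0 N) k (G : ℍ → ℂ) := IsMF.coe G
  set qb := ofPS (qx b) with hqb
  have hqb0 : qb ≠ 0 := hr.qx_b_ne_zero
  set gs : LaurentSeries ℂ := ofPS (qx (G : ℍ → ℂ)) / qb with hgs
  have hrG : IsRepOf N gs k (G : ℍ → ℂ) b :=
    ⟨hGmf, hr.hb, hr.hb0, by rw [hgs, div_mul_cancel₀ _ hqb0]⟩
  have hgs_mem : gs ∈ repField N := ⟨k, _, b, hrG⟩
  have hn1 : 1 ≤ n := Nat.one_le_iff_ne_zero.mpr hn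
  have hpow : gs ^ n = (f : LaurentSeries ℂ) := by
    have h1 : ofPS (qx ((G : ℍ → ℂ) ^ n)) = ofPS (qx (G : ℍ → ℂ)) ^ n := by
      rw [qx_pow (isQ_of_isMF hGmf), map_pow]
    have h2 : ofPS (qx (a * b ^ (n - 1))) = ofPS (qx a) * qb ^ (n - 1) := by
      rw [qx_mul (isQ_of_isMF hr.ha) (isQ_of_isMF (hr.hb.pow (n - 1))),
        qx_pow (isQ_of_isMF hr.hb), map_mul, map_pow]
    rw [hGa, h2, hr.eq] at h1
    rw [hgs, div_pow, ← h1, mul_assoc, ← pow_succ', Nat.sub_add_cancel hn1,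
      mul_div_cancel_right₀ _ (pow_ne_zero n hqb0)]
  set g : FC N := repFieldEquiv N ⟨gs, hgs_mem⟩ with hg
  have hgf : g ^ n = f := Subtype.ext (by
    rw [SubmonoidClass.coe_pow]
    exact hpow)
  have hg0 : g ≠ 0 := by
    intro h0
    rw [h0, zero_pow hn] at hgf
    exact hf hgf.symm
  have hDg : ∀ v : Place ℂ (FC N), (D : Divisor ℂ (FC N)) v = v.ord g := by
    intro v
    have h1 := hD v
    rw [← hgf, ← zpow_natCast, v.ord_zpow] at h1
    exact mul_left_cancel₀ (Nat.cast_ne_zero.mpr hn) h1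
  rw [Pic0.mk, QuotientAddGroup.eq_zero_iff, AddSubgroup.mem_addSubgroupOf]
  exact ⟨g, hg0, hDg⟩

/-! ### The root characters are parabolic, trivial on torsion and of finite order -/

theorem neg_one_mem_Gamma0 : (-1 : SL(2, ℤ)) ∈ Gamma0 N := by
  rw [Gamma0_mem]
  simp

namespace PsiData

variable {n : ℕ} {D : Divisor ℂ (FC N)} {f : FC N} {k : ℤ} {a b : ℍ → ℂ}
  {ψ : Gamma0 N →* ℂˣ}

theorem bdd_slash (h : PsiData n D f k a b) (σ : SL(2, ℤ)) :
    IsBoundedAtImInfty (a ∣[k] σ) ∧ IsBoundedAtImInfty (b ∣[k] σ) := by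
  obtain ⟨A, hA⟩ := h.hr.ha
  obtain ⟨B, hB⟩ := h.hr.hb
  rw [← hA, ← hB]
  exact ⟨(isCuspHol_slash A σ).bdd, (isCuspHol_slash B σ).bdd⟩

/-- the root character is trivial at `δ T ^ w δ⁻¹`, `w ≥ 1` -/
theorem apply_eq_one_of_conj_T_pos (h : PsiData n D f k a b)
    (hψ : IsRootChar (Gamma0 N) n k (a * b ^ (n - 1)) ψ) (γ : Gamma0 N) (δ : SL(2, ℤ)) {w : ℕ}
    (hw : 0 < w) (hγ : (γ : SL(2, ℤ)) = δ * ModularGroup.T ^ (w : ℤ) * δ⁻¹) : ψ γ = 1 := by
  have hmem : δ * ModularGroup.T ^ (w : ℤ) * δ⁻¹ ∈ Gamma0 N := hγ ▸ γ.2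
  obtain ⟨P, e, -, hord⟩ := h.exists_cusp δ hw hmem
  refine IsRootChar.apply_eq_one_of_parabolic h.hn h.ha h.hb h.ha0 h.hr.hb0 hψ γ
    (slash_eq_of_isMF h.hr.ha γ.2) (slash_eq_of_isMF h.hr.hb γ.2) hw
    (by rw [hγ, inv_mul_cancel_right]) (h.bdd_slash δ).1 (h.bdd_slash δ).2 ?_
  rw [hord]
  exact ⟨e * D P, by ring⟩

/-- the root character is trivial at `δ T ^ m δ⁻¹` -/
theorem apply_eq_one_of_conj_T (h : PsiData n D f k a b)
    (hψ : IsRootChar (Gamma0 N) n k (a * b ^ (n - 1)) ψ) (γ : Gamma0 N) (δ : SL(2, ℤ)) (m : ℤ)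
    (hγ : (γ : SL(2, ℤ)) = δ * ModularGroup.T ^ m * δ⁻¹) : ψ γ = 1 := by
  rcases lt_trichotomy m 0 with hm | hm | hm
  · have h1 : ((γ⁻¹ : Gamma0 N) : SL(2, ℤ)) = δ * ModularGroup.T ^ (((-m).toNat : ℕ) : ℤ) * δ⁻¹ := by
      rw [Int.toNat_of_nonneg (by omega), Subgroup.coe_inv, hγ, zpow_neg]
      group
    have h2 := h.apply_eq_one_of_conj_T_pos hψ γ⁻¹ δ (w := (-m).toNat) (by omega) h1
    rwa [map_inv, inv_eq_one] at h2
  · have h1 : γ = 1 := by
      apply Subtype.ext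
      rw [hγ, hm, zpow_zero, mul_one, mul_inv_cancel]
      rfl
    rw [h1, map_one]
  · have h1 : (γ : SL(2, ℤ)) = δ * ModularGroup.T ^ ((m.toNat : ℕ) : ℤ) * δ⁻¹ := by
      rw [Int.toNat_of_nonneg hm.le, hγ]
    exact h.apply_eq_one_of_conj_T_pos hψ γ δ (w := m.toNat) (by omega) h1

/-- the root character is trivial at `- 1` -/
theorem apply_neg_one (h : PsiData n D f k a b)
    (hψ : IsRootChar (Gamma0 N) n k (a * b ^ (n - 1)) ψ) :
    ψ ⟨-1, neg_one_mem_Gamma0⟩ = 1 := by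
  obtain ⟨G, hG, hGF, hχ⟩ := hψ
  have hG0 : G ≠ 0 := by
    rintro rfl
    rw [zero_pow h.hn] at hGF
    exact rootForm_ne_zero h.hr h.hf' n hGF.symm
  exact hχ.apply_neg_one hG0 h.hr.hb0 neg_one_mem_Gamma0
    (slash_eq_of_isMF h.hr.hb neg_one_mem_Gamma0)

/-- the root character is parabolic -/
theorem isParChar (h : PsiData n D f k a b)
    (hψ : IsRootChar (Gamma0 N) n k (a * b ^ (n - 1)) ψ) : IsParChar ψ := by
  intro γ htr
  obtain ⟨δ, m, hγ | hγ⟩ := Fermat.Agent.S21.Parabolic.exists_conj_T_zpow (γ : SL(2, ℤ)) htr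
  · exact h.apply_eq_one_of_conj_T hψ γ δ m hγ
  · set γ' : Gamma0 N := ⟨-1, neg_one_mem_Gamma0⟩ * γ with hγ'
    have h1 : (γ' : SL(2, ℤ)) = δ * ModularGroup.T ^ m * δ⁻¹ := by
      rw [hγ', Subgroup.coe_mul, hγ]
      show -1 * -(δ * ModularGroup.T ^ m * δ⁻¹) = _
      rw [neg_one_mul, neg_neg]
    have h2 := h.apply_eq_one_of_conj_T hψ γ' δ m h1
    rw [hγ', map_mul, h.apply_neg_one hψ, one_mul] at h2
    exact h2

/-- the root character is trivial on the elements of finite order -/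
theorem isEllFree (h : PsiData n D f k a b)
    (hψ : IsRootChar (Gamma0 N) n k (a * b ^ (n - 1)) ψ) : IsEllFree ψ := by
  intro γ hγ
  have hγ' : IsOfFinOrder (γ : SL(2, ℤ)) := (Gamma0 N).subtype.isOfFinOrder hγ
  rcases FinOrder.exists_fixed_of_isOfFinOrder hγ' with htr | ⟨τ, hτ⟩
  · exact h.isParChar hψ γ htr
  · obtain ⟨P, e, -, hord, hden⟩ := h.exists_point τ
    refine IsRootChar.apply_eq_one_of_fixed h.hn h.ha h.hb h.ha0 h.hr.hb0 hψ γ
      (slash_eq_of_isMF h.hr.hb γ.2) hτ (hden γ γ.2 hτ) ?_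
    rw [hord]
    exact ⟨D P, by push_cast; ring⟩

/-- the root character has finite order -/
theorem pow_eq_one (h : PsiData n D f k a b)
    (hψ : IsRootChar (Gamma0 N) n k (a * b ^ (n - 1)) ψ) : ψ ^ n = 1 :=
  hψ.pow_eq_one h.hn (rootForm_ne_zero h.hr h.hf' n) (fun _ hγ => rootForm_slash h.hr h.hn hγ)

end PsiData

theorem IsPsiOf.exists_data {x : Pic0 ℂ (FC N)} {ψ : Gamma0 N →* ℂˣ} (h : IsPsiOf N x ψ) :
    ∃ (n : ℕ) (D : Divisor.degZero (K := ℂ) (F := FC N)) (f : FC N) (k : ℤ) (a b : ℍ → ℂ),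
      x = Pic0.mk D ∧ PsiData n (D : Divisor ℂ (FC N)) f k a b ∧
      IsRootChar (Gamma0 N) n k (a * b ^ (n - 1)) ψ := by
  obtain ⟨n, D, f, k, a, b, hn, hf, hx, hD, hr, hψ⟩ := h
  exact ⟨n, D, f, k, a, b, hx, ⟨hn, hf, hD, hr⟩, hψ⟩

variable (N) in
/-- **`mem`**: root characters are parabolic, trivial on torsion, and of finite order. -/
theorem mem_charGroup_of_isPsiOf (x : Pic0 ℂ (FC N)) (ψ : Gamma0 N →* ℂˣ) (h : IsPsiOf N x ψ) :
    ψ ∈ charGroup N ∧ IsOfFinOrder ψ := by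
  obtain ⟨n, D, f, k, a, b, -, hdata, hψ⟩ := IsPsiOf.exists_data h
  refine ⟨⟨hdata.isParChar hψ, hdata.isEllFree hψ⟩, ?_⟩
  exact isOfFinOrder_iff_pow_eq_one.mpr ⟨n, Nat.pos_of_ne_zero hdata.hn, hdata.pow_eq_one hψ⟩

variable (N) in
/-- **Assembly of `Spec.PsiDict N`** from the three remaining fields. -/
theorem psiDict_of
    (hunique : ∀ (x : Pic0 ℂ (FC N)) ψ ψ', IsPsiOf N x ψ → IsPsiOf N x ψ' → ψ = ψ')
    (hadd : ∀ (x y : Pic0 ℂ (FC N)) ψ ψ', IsPsiOf N x ψ → IsPsiOf N y ψ' →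
      IsPsiOf N (x + y) (ψ * ψ'))
    (hsurj : ∀ ψ, ψ ∈ charGroup N → IsOfFinOrder ψ → ∃ x, IsPsiOf N x ψ) : PsiDict N where
  exists_of_torsion := exists_isPsiOf_of_torsion N
  unique := hunique
  add := hadd
  injective := eq_zero_of_isPsiOf_one N
  mem := mem_charGroup_of_isPsiOf N
  surj := hsurj

end Fermat.Agent.S30.Analytic.TorsionChar
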