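import Mathlib
import Fermat.Agent.S30.Analytic.AllPlacesCGlue
import Fermat.Agent.S30.Analytic.DegreeC
import Fermat.Agent.S30.Analytic.TorsionChar
import Fermat.Agent.S30.Analytic.PsiData
import Fermat.Agent.S30.Descent.PhiDictFC

/-!
# PROJECT J (S30), slice J-2: surjectivity of the analytic dictionary, UNCONDITIONAL (helper11)

Assembly of `TwistedSurj.psiDict_surj_of_localGlobal` (helper29), `AllPlacesCGlue.localGlobal_of_finrank`
(every place of `FC N` is a point or a cusp) and `DegreeC.finrank_jFC` (helper3).

* `localGlobal N : TwistedSurj.LocalGlobal N`;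
* `psiDict_surj N` : the field `surj` of `Spec.PsiDict N`, verbatim;
* **`psiDict N : Spec.PsiDict N`** : the whole analytic dictionary over `ℂ`, UNCONDITIONAL
  (`TorsionChar.psiDict_of` (helper27) + `PsiData.isPsiOf_unique/_add` (helper5) +
  `PhiDictFC.const_of_ord_eq_zero` + `psiDict_surj`).
-/

set_option autoImplicit false

noncomputable section

namespace Fermat.Agent.S30.Analytic.PsiSurj

open CongruenceSubgroup Fermat.Agent.S30.Spec
open scoped MatrixGroups

variable (N : ℕ) [NeZero N]

/-- the local-global principle for the places of `FC N` -/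
theorem localGlobal : TwistedSurj.LocalGlobal N :=
  AllPlacesCGlue.localGlobal_of_finrank N (DegreeC.finrank_jFC N)

/-- **`PsiDict.surj`**: every character of finite order in `charGroup N` is in the image of the
analytic dictionary. -/
theorem psiDict_surj (ψ : Gamma0 N →* ℂˣ) (hψ : ψ ∈ charGroup N) (hfin : IsOfFinOrder ψ) :
    ∃ x, IsPsiOf N x ψ :=
  TwistedSurj.psiDict_surj_of_localGlobal (localGlobal N) ψ hψ hfin

/-- **The analytic dictionary `Ψ` over `ℂ`, unconditional.** -/
theorem psiDict : PsiDict N :=
  TorsionChar.psiDict_of N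
    (PsiData.isPsiOf_unique N (Fermat.Agent.S30.Descent.PhiDictFC.const_of_ord_eq_zero N))
    (PsiData.isPsiOf_add N) (psiDict_surj N)

end Fermat.Agent.S30.Analytic.PsiSurj
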