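import Mathlib

/-!
# Elements of finite order of `SL(2,ℤ)`

An element of finite order of `SL(2,ℤ)` is `1`, `-1`, or fixes a point of the upper half plane.

* `exists_fixed_of_trace_sq_lt` : `trace² < 4` gives a fixed point in `ℍ`;
* `eq_one_or_eq_neg_one_of_isOfFinOrder` : finite order and `4 ≤ trace²` force `± 1`;
* `eq_one_or_eq_neg_one_or_exists_fixed` : the trichotomy.
-/

set_option autoImplicit false

namespace Fermat.Agent.S30.Analytic.FiniteOrder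

open UpperHalfPlane Matrix
open scoped MatrixGroups

/-! ### The power recursion -/

/-- The sequence `u₀ = 0`, `u₁ = 1`, `uₙ₊₂ = t uₙ₊₁ - uₙ`. -/
def U (t : ℤ) : ℕ → ℤ
  | 0 => 0
  | 1 => 1
  | (n + 2) => t * U t (n + 1) - U t n

@[simp] theorem U_zero (t : ℤ) : U t 0 = 0 := rfl
@[simp] theorem U_one (t : ℤ) : U t 1 = 1 := rfl
theorem U_succ_succ (t : ℤ) (n : ℕ) : U t (n + 2) = t * U t (n + 1) - U t n := rfl

theorem U_growth {t : ℤ} (ht : 2 ≤ |t|) (n : ℕ) : |U t n| + 1 ≤ |U t (n + 1)| := by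
  induction n with
  | zero => simp
  | succ n ih =>
    rw [U_succ_succ]
    have h1 : |t * U t (n + 1)| - |U t n| ≤ |t * U t (n + 1) - U t n| := abs_sub_abs_le_abs_sub _ _
    have h2 : |t * U t (n + 1)| = |t| * |U t (n + 1)| := abs_mul _ _
    have h3 : 0 ≤ |U t (n + 1)| := abs_nonneg _
    nlinarith

theorem U_ne_zero {t : ℤ} (ht : 2 ≤ |t|) {n : ℕ} (hn : n ≠ 0) : U t n ≠ 0 := by
  obtain ⟨m, rfl⟩ := Nat.exists_eq_succ_of_ne_zero hn
  intro h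
  have := U_growth ht m
  rw [show m + 1 = m.succ from rfl, h, abs_zero] at this
  have h3 : 0 ≤ |U t m| := abs_nonneg _
  linarith

theorem sq_eq (A : Matrix (Fin 2) (Fin 2) ℤ) (hdet : A.det = 1) :
    A * A = A.trace • A - 1 := by
  rw [Matrix.det_fin_two] at hdet
  ext i j
  fin_cases i <;> fin_cases j <;>
    simp only [Matrix.mul_apply, Fin.sum_univ_two, Matrix.trace_fin_two, Matrix.sub_apply,
      Matrix.smul_apply, smul_eq_mul, Fin.zero_eta, Fin.mk_one, Fin.isValue, Matrix.one_apply_eq,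
      ne_eq, zero_ne_one, one_ne_zero, not_false_eq_true, Matrix.one_apply_ne, sub_zero] <;>
    first | ring1 | linear_combination (-1 : ℤ) * hdet

theorem pow_succ_eq (A : Matrix (Fin 2) (Fin 2) ℤ) (hdet : A.det = 1) (n : ℕ) :
    A ^ (n + 1) = U A.trace (n + 1) • A - U A.trace n • (1 : Matrix (Fin 2) (Fin 2) ℤ) := by
  induction n with
  | zero => simp
  | succ n ih =>
    rw [pow_succ, ih, sub_mul, Matrix.smul_mul, Matrix.smul_mul, one_mul, sq_eq A hdet,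
      U_succ_succ]
    module

/-- A unimodular integer matrix with `2 ≤ |trace|` and a nontrivial power equal to `1` is `± 1`. -/
theorem eq_one_or_neg_one_of_pow_eq_one (A : Matrix (Fin 2) (Fin 2) ℤ) (hdet : A.det = 1)
    (ht : 2 ≤ |A.trace|) {n : ℕ} (hn : n ≠ 0) (hpow : A ^ n = 1) : A = 1 ∨ A = -1 := by
  obtain ⟨m, rfl⟩ := Nat.exists_eq_succ_of_ne_zero hn
  rw [Nat.succ_eq_add_one, pow_succ_eq A hdet] at hpow
  have hu : U A.trace (m + 1) ≠ 0 := U_ne_zero ht (Nat.succ_ne_zero m)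
  have h01 := congrFun (congrFun hpow 0) 1
  have h10 := congrFun (congrFun hpow 1) 0
  have h00 := congrFun (congrFun hpow 0) 0
  have h11 := congrFun (congrFun hpow 1) 1
  simp only [Matrix.sub_apply, Matrix.smul_apply, smul_eq_mul, Fin.isValue, Matrix.one_apply_eq,
    ne_eq, zero_ne_one, one_ne_zero, not_false_eq_true, Matrix.one_apply_ne, mul_zero, sub_zero,
    mul_one, mul_eq_zero] at h01 h10 h00 h11
  have hb : A 0 1 = 0 := by
    rcases h01 with h | h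
    · exact absurd h hu
    · exact h
  have hc : A 1 0 = 0 := by
    rcases h10 with h | h
    · exact absurd h hu
    · exact h
  have had : A 0 0 = A 1 1 := by
    have : U A.trace (m + 1) * (A 0 0 - A 1 1) = 0 := by linear_combination h00 - h11
    rcases mul_eq_zero.mp this with h | h
    · exact absurd h hu
    · linarith
  rw [Matrix.det_fin_two, hb, hc, ← had] at hdet
  have h1 : A 0 0 = 1 ∨ A 0 0 = -1 := by
    have : (A 0 0 - 1) * (A 0 0 + 1) = 0 := by linear_combination hdet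
    rcases mul_eq_zero.mp this with h | h
    · left; linarith
    · right; linarith
  rcases h1 with h | h
  · left
    ext i j
    fin_cases i <;> fin_cases j <;> simp [hb, hc, h, ← had]
  · right
    ext i j
    fin_cases i <;> fin_cases j <;> simp [hb, hc, h, ← had]

/-! ### Fixed points of elliptic elements -/

theorem exists_fixed_of_pos (γ : SL(2, ℤ))
    (ht : (γ : Matrix (Fin 2) (Fin 2) ℤ).trace ^ 2 < 4) (hc : 0 < γ 1 0) :
    ∃ τ : ℍ, γ • τ = τ := by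
  have hdet : γ 0 0 * γ 1 1 - γ 0 1 * γ 1 0 = 1 := by
    have h := γ.det_coe
    rwa [Matrix.det_fin_two] at h
  rw [Matrix.trace_fin_two] at ht
  have hD : (0 : ℝ) < 4 - ((γ 0 0 : ℝ) + (γ 1 1 : ℝ)) ^ 2 := by
    have : ((γ 0 0 + γ 1 1 : ℤ) : ℝ) ^ 2 < 4 := by exact_mod_cast ht
    push_cast at this
    linarith
  set s : ℝ := Real.sqrt (4 - ((γ 0 0 : ℝ) + (γ 1 1 : ℝ)) ^ 2) with hs
  have hs0 : 0 < s := Real.sqrt_pos.mpr hD
  have hs2 : s ^ 2 = 4 - ((γ 0 0 : ℝ) + (γ 1 1 : ℝ)) ^ 2 := Real.sq_sqrt hD.le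
  have hcR : (0 : ℝ) < (γ 1 0 : ℝ) := by exact_mod_cast hc
  have hcC : ((γ 1 0 : ℤ) : ℂ) ≠ 0 := by exact_mod_cast hc.ne'
  set z : ℂ := ((((γ 0 0 : ℤ) : ℂ) - ((γ 1 1 : ℤ) : ℂ)) + Complex.I * (s : ℂ)) /
    (2 * ((γ 1 0 : ℤ) : ℂ)) with hz
  have hzim : z.im = s / (2 * (γ 1 0 : ℝ)) := by
    have h2 : (2 * ((γ 1 0 : ℤ) : ℂ)) = (((2 * (γ 1 0 : ℝ) : ℝ)) : ℂ) := by push_cast; ring
    rw [hz, h2, Complex.div_ofReal_im]
    simp
  have him : 0 < z.im := by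
    rw [hzim]
    positivity
  have hcz : ((γ 1 0 : ℤ) : ℂ) * z =
      ((((γ 0 0 : ℤ) : ℂ) - ((γ 1 1 : ℤ) : ℂ)) + Complex.I * (s : ℂ)) / 2 := by
    rw [hz]
    field_simp
  have hs2C : ((s : ℂ)) ^ 2 = 4 - (((γ 0 0 : ℤ) : ℂ) + ((γ 1 1 : ℤ) : ℂ)) ^ 2 := by
    have := congrArg (fun x : ℝ => (x : ℂ)) hs2
    push_cast at this
    simpa using this
  have hdetC : ((γ 0 0 : ℤ) : ℂ) * ((γ 1 1 : ℤ) : ℂ) - ((γ 0 1 : ℤ) : ℂ) * ((γ 1 0 : ℤ) : ℂ) = 1 := by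
    exact_mod_cast hdet
  refine ⟨⟨z, him⟩, ?_⟩
  apply UpperHalfPlane.ext
  rw [coe_specialLinearGroup_apply]
  simp only [algebraMap_int_eq, eq_intCast, Complex.ofReal_intCast, UpperHalfPlane.coe_mk]
  have hden : ((γ 1 0 : ℤ) : ℂ) * z + ((γ 1 1 : ℤ) : ℂ) ≠ 0 := by
    intro h0
    have := congrArg Complex.im h0
    rw [hcz] at this
    simp at this
    exact hs0.ne' this
  rw [div_eq_iff hden]
  have key : ((γ 1 0 : ℤ) : ℂ) * (((γ 0 0 : ℤ) : ℂ) * z + ((γ 0 1 : ℤ) : ℂ)) =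
      (((γ 1 0 : ℤ) : ℂ) * z) * (((γ 1 0 : ℤ) : ℂ) * z + ((γ 1 1 : ℤ) : ℂ)) := by
    have e1 : ((γ 1 0 : ℤ) : ℂ) * (((γ 0 0 : ℤ) : ℂ) * z + ((γ 0 1 : ℤ) : ℂ)) =
        ((γ 0 0 : ℤ) : ℂ) * (((γ 1 0 : ℤ) : ℂ) * z) + ((γ 0 1 : ℤ) : ℂ) * ((γ 1 0 : ℤ) : ℂ) := by
      ring
    rw [e1, hcz]
    linear_combination (1 / 4 : ℂ) * hs2C + (-1 : ℂ) * hdetC +
      (-1 / 4 : ℂ) * (s : ℂ) ^ 2 * Complex.I_sq
  have := mul_left_cancel₀ hcC (key.trans (by ring :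
    (((γ 1 0 : ℤ) : ℂ) * z) * (((γ 1 0 : ℤ) : ℂ) * z + ((γ 1 1 : ℤ) : ℂ)) =
      ((γ 1 0 : ℤ) : ℂ) * (z * (((γ 1 0 : ℤ) : ℂ) * z + ((γ 1 1 : ℤ) : ℂ)))))
  exact this

/-- An element of `SL(2,ℤ)` with `trace² < 4` fixes a point of the upper half plane. -/
theorem exists_fixed_of_trace_sq_lt (γ : SL(2, ℤ))
    (ht : (γ : Matrix (Fin 2) (Fin 2) ℤ).trace ^ 2 < 4) : ∃ τ : ℍ, γ • τ = τ := by
  have hdet : γ 0 0 * γ 1 1 - γ 0 1 * γ 1 0 = 1 := by
    have h := γ.det_coe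
    rwa [Matrix.det_fin_two] at h
  rcases lt_trichotomy (γ 1 0) 0 with hc | hc | hc
  · have ht' : ((-γ : SL(2, ℤ)) : Matrix (Fin 2) (Fin 2) ℤ).trace ^ 2 < 4 := by
      rw [Matrix.SpecialLinearGroup.coe_neg, Matrix.trace_neg, neg_sq]
      exact ht
    have hc' : 0 < (-γ : SL(2, ℤ)) 1 0 := by
      rw [Matrix.SpecialLinearGroup.coe_neg, Matrix.neg_apply]
      exact neg_pos.mpr hc
    obtain ⟨τ, hτ⟩ := exists_fixed_of_pos (-γ) ht' hc'
    exact ⟨τ, by rwa [ModularGroup.SL_neg_smul] at hτ⟩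
  · exfalso
    rw [hc, mul_zero, sub_zero] at hdet
    rw [Matrix.trace_fin_two] at ht
    rcases Int.eq_one_or_neg_one_of_mul_eq_one' hdet with ⟨ha, hd⟩ | ⟨ha, hd⟩
    · rw [ha, hd] at ht; norm_num at ht
    · rw [ha, hd] at ht; norm_num at ht
  · exact exists_fixed_of_pos γ ht hc

/-- An element of finite order of `SL(2,ℤ)` with `4 ≤ trace²` is `± 1`. -/
theorem eq_one_or_eq_neg_one_of_isOfFinOrder {γ : SL(2, ℤ)} (h : IsOfFinOrder γ)
    (ht : 4 ≤ (γ : Matrix (Fin 2) (Fin 2) ℤ).trace ^ 2) : γ = 1 ∨ γ = -1 := by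
  obtain ⟨n, hn, hpow⟩ := isOfFinOrder_iff_pow_eq_one.mp h
  have hpow' : (γ : Matrix (Fin 2) (Fin 2) ℤ) ^ n = 1 := by
    rw [← Matrix.SpecialLinearGroup.coe_pow, hpow, Matrix.SpecialLinearGroup.coe_one]
  have ht' : 2 ≤ |(γ : Matrix (Fin 2) (Fin 2) ℤ).trace| := by
    have : (2 : ℤ) ^ 2 ≤ (γ : Matrix (Fin 2) (Fin 2) ℤ).trace ^ 2 := by norm_num; exact ht
    have h2 := sq_le_sq.mp this
    simpa using h2
  rcases eq_one_or_neg_one_of_pow_eq_one _ γ.det_coe ht' hn.ne' hpow' with h1 | h1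
  · left
    exact Subtype.ext h1
  · right
    apply Subtype.ext
    rw [Matrix.SpecialLinearGroup.coe_neg, Matrix.SpecialLinearGroup.coe_one]
    exact h1

/-- **Trichotomy.** An element of finite order of `SL(2,ℤ)` is `1`, `-1`, or fixes a point of the
upper half plane. -/
theorem eq_one_or_eq_neg_one_or_exists_fixed {γ : SL(2, ℤ)} (h : IsOfFinOrder γ) :
    γ = 1 ∨ γ = -1 ∨ ∃ τ : ℍ, γ • τ = τ := by
  rcases lt_or_ge ((γ : Matrix (Fin 2) (Fin 2) ℤ).trace ^ 2) 4 with ht | ht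
  · exact Or.inr (Or.inr (exists_fixed_of_trace_sq_lt γ ht))
  · rcases eq_one_or_eq_neg_one_of_isOfFinOrder h ht with h1 | h1
    · exact Or.inl h1
    · exact Or.inr (Or.inl h1)

/-- The same for elements of a subgroup (e.g. `Γ₀(N)`). -/
theorem subgroup_trichotomy {Γ : Subgroup SL(2, ℤ)} {γ : Γ} (h : IsOfFinOrder γ) :
    (γ : SL(2, ℤ)) = 1 ∨ (γ : SL(2, ℤ)) = -1 ∨ ∃ τ : ℍ, (γ : SL(2, ℤ)) • τ = τ :=
  eq_one_or_eq_neg_one_or_exists_fixed (Submonoid.isOfFinOrder_coe.mpr h)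

/-- An element with a fixed point in `ℍ` which is not `± 1` has `trace² < 4`. -/
theorem trace_sq_lt_of_fixed {γ : SL(2, ℤ)} {τ : ℍ} (hfix : γ • τ = τ) (h1 : γ ≠ 1)
    (h2 : γ ≠ -1) : (γ : Matrix (Fin 2) (Fin 2) ℤ).trace ^ 2 < 4 := by
  by_contra hge
  rw [not_lt] at hge
  have hdet : γ 0 0 * γ 1 1 - γ 0 1 * γ 1 0 = 1 := by
    have h := γ.det_coe
    rwa [Matrix.det_fin_two] at h
  -- the fixed point equation `c τ² + (d - a) τ - b = 0`
  have hτ := congrArg (fun w : ℍ => (w : ℂ)) hfix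
  simp only [coe_specialLinearGroup_apply, algebraMap_int_eq, eq_intCast,
    Complex.ofReal_intCast] at hτ
  have hden : ((γ 1 0 : ℤ) : ℂ) * (τ : ℂ) + ((γ 1 1 : ℤ) : ℂ) ≠ 0 := by
    have := UpperHalfPlane.denom_ne_zero (γ : GL (Fin 2) ℝ) τ
    simpa [UpperHalfPlane.denom] using this
  rw [div_eq_iff hden] at hτ
  -- imaginary and real parts
  have him := congrArg Complex.im hτ
  have hre := congrArg Complex.re hτ
  have hy : 0 < (τ : ℂ).im := τ.im_pos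
  simp only [Complex.add_im, Complex.mul_im, Complex.intCast_re, Complex.intCast_im, zero_mul,
    add_zero, Complex.add_re, Complex.mul_re, sub_zero] at him hre
  set x := (τ : ℂ).re
  set y := (τ : ℂ).im
  -- `him : a y = x (c y) + y (c x + d)`, so `a - d = 2 c x`
  have e1 : ((γ 0 0 : ℤ) : ℝ) - (γ 1 1 : ℤ) = 2 * (γ 1 0 : ℤ) * x := by
    have : y * (((γ 0 0 : ℤ) : ℝ) - (γ 1 1 : ℤ) - 2 * (γ 1 0 : ℤ) * x) = 0 := by
      linear_combination him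
    rcases mul_eq_zero.mp this with h | h
    · exact absurd h hy.ne'
    · linarith
  -- `hre : a x + b = x (c x + d) - y (c y)`
  have e2 : ((γ 0 1 : ℤ) : ℝ) = -(γ 1 0 : ℤ) * (x ^ 2 + y ^ 2) := by
    linear_combination hre - x * e1
  have hdetR : ((γ 0 0 : ℤ) : ℝ) * (γ 1 1 : ℤ) - (γ 0 1 : ℤ) * (γ 1 0 : ℤ) = 1 := by
    exact_mod_cast hdet
  have htR : (4 : ℝ) ≤ (((γ 0 0 : ℤ) : ℝ) + (γ 1 1 : ℤ)) ^ 2 := by
    rw [Matrix.trace_fin_two] at hge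
    exact_mod_cast hge
  -- `(a + d)² - 4 = (a - d)² + 4 b c = -4 c² y²`
  have key : (((γ 0 0 : ℤ) : ℝ) + (γ 1 1 : ℤ)) ^ 2 - 4 = -4 * ((γ 1 0 : ℤ) : ℝ) ^ 2 * y ^ 2 := by
    have : (((γ 0 0 : ℤ) : ℝ) + (γ 1 1 : ℤ)) ^ 2 - 4 =
        (((γ 0 0 : ℤ) : ℝ) - (γ 1 1 : ℤ)) ^ 2 + 4 * ((γ 0 1 : ℤ) : ℝ) * (γ 1 0 : ℤ) := by
      linear_combination (4 : ℝ) * hdetR
    rw [this, e1, e2]
    ring
  have hc0 : ((γ 1 0 : ℤ) : ℝ) = 0 := by
    by_contra hc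
    have hpos : 0 < ((γ 1 0 : ℤ) : ℝ) ^ 2 * y ^ 2 := by positivity
    nlinarith
  have hc0' : γ 1 0 = 0 := by exact_mod_cast hc0
  have hb0 : γ 0 1 = 0 := by
    have : ((γ 0 1 : ℤ) : ℝ) = 0 := by rw [e2, hc0]; ring
    exact_mod_cast this
  have had : γ 0 0 = γ 1 1 := by
    have : ((γ 0 0 : ℤ) : ℝ) = (γ 1 1 : ℤ) := by
      have := e1
      rw [hc0] at this
      linarith
    exact_mod_cast this
  rw [hc0', hb0, mul_zero, sub_zero, ← had] at hdet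
  rcases Int.eq_one_or_neg_one_of_mul_eq_one' hdet with ⟨ha, -⟩ | ⟨ha, -⟩
  · apply h1
    ext i j
    fin_cases i <;> fin_cases j <;> simp [hb0, hc0', ha, ← had]
  · apply h2
    ext i j
    fin_cases i <;> fin_cases j <;> simp [hb0, hc0', ha, ← had]

end Fermat.Agent.S30.Analytic.FiniteOrder
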