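import Mathlib
import Fermat.Agent.S30.Analytic.PsiData
import Fermat.Agent.S30.Analytic.TwistedSurj
import Fermat.Agent.S18.A.RiemannBasic
import Fermat.Agent.S18.A.Instances

/-!
# PROJECT J (S30): `PsiDict.unique`, `PsiDict.add` and (DI), unconditionally (helper5)

The hypothesis `hconst` of `Analytic/PsiData` (functions on `X₀(N)` over `ℂ` without zeros and
poles are constant) is discharged with the S18/A toolkit applied to `FC N` (`TwistedSurj.isFF_jFC`,
`TwistedSurj.hasPrincipalDivisors_FC`).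

* `const_of_ord_eq_zero`;
* **`isPsiOf_unique`**, **`isPsiOf_add`** : the fields `unique` and `add` of `Spec.PsiDict N`;
* **`isRootChar_of_isPsiOf`** : independence of the data (DI).
-/

set_option autoImplicit false

noncomputable section

namespace Fermat.Agent.S30.Analytic.PsiDataFinal

open UpperHalfPlane CongruenceSubgroup AlgebraicCurve ModularCurve
open Fermat.Agent.S24.RepHom Fermat.Agent.S30.Spec Fermat.Agent.S30.Analytic.Character
open scoped MatrixGroups

variable (N : ℕ) [NeZero N]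

/-- functions on `X₀(N)` over `ℂ` without zeros and poles are constant -/
theorem const_of_ord_eq_zero (u : FC N) (hu : u ≠ 0) (h : ∀ v : Place ℂ (FC N), v.ord u = 0) :
    ∃ c : ℂ, u = algebraMap ℂ (FC N) c := by
  have hx := TwistedSurj.isFF_jFC N
  haveI := TwistedSurj.hasPrincipalDivisors_FC N
  haveI : FiniteDimensional (IntermediateField.adjoin ℂ ({TwistedSurj.jFC N} : Set (FC N))) (FC N) :=
    hx.finite
  haveI : Infinite (Place ℂ (FC N)) :=
    Fermat.Agent.S18.A.Instances.infinite_place hx inferInstance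
  haveI : Nonempty (Place ℂ (FC N)) := inferInstance
  refine (Fermat.Agent.S18.A.Riemann.mem_rr_zero_iff
    (Fermat.Agent.S18.A.Instances.deg_one hx)).mp ?_
  rw [Fermat.Agent.S18.A.Riemann.mem_iff_of_ne_zero hu]
  intro v
  rw [h v]
  simp

/-- **`PsiDict.unique`** -/
theorem isPsiOf_unique (x : Pic0 ℂ (FC N)) (ψ ψ' : Gamma0 N →* ℂˣ) (h : IsPsiOf N x ψ)
    (h' : IsPsiOf N x ψ') : ψ = ψ' :=
  PsiData.isPsiOf_unique N (const_of_ord_eq_zero N) x ψ ψ' h h'

/-- **`PsiDict.add`** -/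
theorem isPsiOf_add (x y : Pic0 ℂ (FC N)) (ψ ψ' : Gamma0 N →* ℂˣ) (h : IsPsiOf N x ψ)
    (h' : IsPsiOf N y ψ') : IsPsiOf N (x + y) (ψ * ψ') :=
  PsiData.isPsiOf_add N x y ψ ψ' h h'

/-- **(DI) independence of the data** -/
theorem isRootChar_of_isPsiOf {y : Pic0 ℂ (FC N)} {ψ : Gamma0 N →* ℂˣ} (h : IsPsiOf N y ψ) {m : ℕ}
    (hm : m ≠ 0) {D : Divisor.degZero (K := ℂ) (F := FC N)} {f : FC N} (hf : f ≠ 0)
    (hy : y = Pic0.mk D)
    (hD : ∀ v : Place ℂ (FC N), (m : ℤ) * (D : Divisor ℂ (FC N)) v = v.ord f)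
    {k : ℤ} {a b : ℍ → ℂ} (hr : IsRepOf N (f : LaurentSeries ℂ) k a b) :
    IsRootChar (Gamma0 N) m k (a * b ^ (m - 1)) ψ :=
  PsiData.isRootChar_of_isPsiOf N (const_of_ord_eq_zero N) h hm hf hy hD hr

end Fermat.Agent.S30.Analytic.PsiDataFinal
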