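import Mathlib
import Fermat.Agent.S30.Spec
import Fermat.Agent.S30.Analytic.TwistedSurj
import Fermat.Agent.S30.Analytic.AllPlacesCGlue
import Fermat.Agent.S30.Analytic.DegreeC
import Fermat.Agent.S30.Analytic.TorsionChar
import Fermat.Agent.S30.Analytic.PsiData
import Fermat.Agent.S30.Descent.PhiDictFC

/-!
# PROJECT J (S30): the analytic dictionary `Ψ` is a theorem (helper29, assembly)

* `localGlobal N : TwistedSurj.LocalGlobal N` (helper11 `AllPlacesCGlue.localGlobal_of_finrank` +
  helper3 `DegreeC.finrank_jFC`);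
* `psiDict_surj N` : the field `surj` of `Spec.PsiDict N` (helper29 `TwistedSurj`);
* **`psiDict N : Spec.PsiDict N`**: `exists_of_torsion`, `injective`, `mem` from helper27
  `TorsionChar`, `unique`, `add` from helper5 `PsiData` (with helper7 `const_of_ord_eq_zero`), `surj`
  from the above.
-/

set_option autoImplicit false

namespace Fermat.Agent.S30.Analytic.PsiDictFinal

open AlgebraicCurve CongruenceSubgroup
open Fermat.Agent.S30.Spec Fermat.Agent.S30.Analytic

open scoped MatrixGroups

variable (N : ℕ) [NeZero N]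

/-- the local-global principle for divisibility of orders in `FC N` -/
theorem localGlobal : TwistedSurj.LocalGlobal N :=
  AllPlacesCGlue.localGlobal_of_finrank N (DegreeC.finrank_jFC N)

/-- **`PsiDict.surj`**: every character of finite order in `charGroup N` is in the image of the
analytic dictionary. -/
theorem psiDict_surj (ψ : Gamma0 N →* ℂˣ) (hψ : ψ ∈ charGroup N) (hfin : IsOfFinOrder ψ) :
    ∃ x, IsPsiOf N x ψ :=
  TwistedSurj.psiDict_surj_of_localGlobal (localGlobal N) ψ hψ hfin

/-- **`PsiDict.unique`** -/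
theorem psiDict_unique (x : Pic0 ℂ (FC N)) (ψ ψ' : Gamma0 N →* ℂˣ) (h : IsPsiOf N x ψ)
    (h' : IsPsiOf N x ψ') : ψ = ψ' :=
  PsiData.isPsiOf_unique N (Fermat.Agent.S30.Descent.PhiDictFC.const_of_ord_eq_zero N) x ψ ψ' h h'

/-- **The analytic dictionary `Ψ`**: all six fields of `Spec.PsiDict N`. -/
theorem psiDict : PsiDict N :=
  TorsionChar.psiDict_of N (psiDict_unique N) (PsiData.isPsiOf_add N) (psiDict_surj N)

end Fermat.Agent.S30.Analytic.PsiDictFinal
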